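import Fermat.Agent.LocRing.Cover

/-!
# The full power series ring of families of pairs, and the ideals of types
-/

set_option autoImplicit false
set_option linter.unusedSectionVars false

open IsLocalRing

namespace Fermat.Agent.LocRing

universe u v w

/-- The universal ring of families of pairs (no relations). -/
structure FPkg {O : Type u} [CommRing O] [IsLocalRing O] {Λ : Type v} (γ : Type w)
    (F₀ N₀ : Λ → Matrix (Fin 2) (Fin 2) O) where
  /-- the ring -/
  R : Type u
  [commRing : CommRing R]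
  [isLocalRing : IsLocalRing R]
  [isNoetherianRing : IsNoetherianRing R]
  [isAdicComplete : IsAdicComplete (maximalIdeal R) R]
  /-- structure map -/
  ι : O →+* R
  isLocalHom : IsLocalHom ι
  /-- universal Frobenius -/
  F : Λ → Matrix (Fin 2) (Fin 2) R
  /-- universal monodromy -/
  N : Λ → Matrix (Fin 2) (Fin 2) R
  /-- the variables -/
  x : γ → R
  x_mem : ∀ i, x i ∈ maximalIdeal R
  resF : ∀ l i j, F l i j - ι (F₀ l i j) ∈ maximalIdeal R
  resN : ∀ l i j, N l i j - ι (N₀ l i j) ∈ maximalIdeal R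
  resSurj : ∀ r : R, ∃ b : O, r - ι b ∈ maximalIdeal R
  gen : maximalIdeal R ≤ (maximalIdeal O).map ι ⊔ Ideal.span
    (Set.range fun p : Λ × Fin 2 × Fin 2 => F p.1 p.2.1 p.2.2 - ι (F₀ p.1 p.2.1 p.2.2)) ⊔
    Ideal.span
    (Set.range fun p : Λ × Fin 2 × Fin 2 => N p.1 p.2.1 p.2.2 - ι (N₀ p.1 p.2.1 p.2.2)) ⊔
    Ideal.span (Set.range x)
  lift : ∀ {A : Type u} [CommRing A] [IsLocalRing A] [IsAdicComplete (maximalIdeal A) A]
    (φ : O →+* A), IsLocalHom φ → ∀ F' N' : Λ → Matrix (Fin 2) (Fin 2) A,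
    (∀ l i j, F' l i j - φ (F₀ l i j) ∈ maximalIdeal A) →
    (∀ l i j, N' l i j - φ (N₀ l i j) ∈ maximalIdeal A) →
    ∀ x' : γ → A, (∀ i, x' i ∈ maximalIdeal A) →
    ∃ ψ : R →+* A, IsLocalHom ψ ∧ ψ.comp ι = φ ∧ (∀ l, (F l).map ψ = F' l) ∧
      (∀ l, (N l).map ψ = N' l) ∧ ∀ i, ψ (x i) = x' i
  uniq : ∀ {A : Type u} [CommRing A] [IsLocalRing A] [IsAdicComplete (maximalIdeal A) A]
    (ψ ψ' : R →+* A), IsLocalHom ψ → IsLocalHom ψ' → ψ.comp ι = ψ'.comp ι →
    (∀ l, (F l).map ψ = (F l).map ψ') → (∀ l, (N l).map ψ = (N l).map ψ') →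
    (∀ i, ψ (x i) = ψ' (x i)) → ψ = ψ'

attribute [instance] FPkg.commRing FPkg.isLocalRing FPkg.isNoetherianRing
  FPkg.isAdicComplete

/-- The ideal of type `c`. -/
def FPkg.qI {O : Type u} [CommRing O] [IsLocalRing O] {Λ : Type v} {γ : Type w}
    {F₀ N₀ : Λ → Matrix (Fin 2) (Fin 2) O} (U : FPkg γ F₀ N₀) (q : Λ → O) (c : Λ → Ty) :
    Ideal U.R :=
  Ideal.span (⋃ l, (c l).rel (U.ι (q l)) (U.F l) (U.N l))

section

variable {O : Type u} [CommRing O] [IsDomain O] [IsLocalRing O] [IsNoetherianRing O]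
  [IsAdicComplete (maximalIdeal O) O] {Λ : Type v} {γ : Type w}
    {q : Λ → O} {F₀ N₀ : Λ → Matrix (Fin 2) (Fin 2) O} (U : FPkg γ F₀ N₀)

theorem FPkg.qI_le_ker_iff {A : Type*} [CommRing A] (f : U.R →+* A) (c : Λ → Ty) :
    U.qI q c ≤ RingHom.ker f ↔
      ∀ l, (c l).Holds (f (U.ι (q l))) ((U.F l).map f) ((U.N l).map f) := by
  rw [FPkg.qI, Ideal.span_le]
  simp only [Set.iUnion_subset_iff]
  refine forall_congr' fun l => ?_
  rw [Ty.holds_map_iff]
  rfl

variable {U}

/-- comparison with the package of type `c` -/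
theorem FPkg.exists_ker_eq {c : Λ → Ty} {d : ℕ} (P : MPkg γ c q F₀ N₀ d) :
    ∃ θ : U.R →+* P.R, IsLocalHom θ ∧ Function.Surjective θ ∧ RingHom.ker θ = U.qI q c ∧
      θ.comp U.ι = P.ι ∧ (∀ l, (U.F l).map θ = P.F l) ∧ (∀ l, (U.N l).map θ = P.N l) ∧
      (∀ i, θ (U.x i) = P.x i) := by
  obtain ⟨θ, h0, h1, h2, h3, h4⟩ := U.lift P.ι P.isLocalHom P.F P.N
    P.resF P.resN P.x P.x_mem
  have h1' : ∀ b, θ (U.ι b) = P.ι b := fun b => DFunLike.congr_fun h1 b
  have hle : U.qI q c ≤ RingHom.ker θ := by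
    rw [U.qI_le_ker_iff]
    intro l
    rw [h1', h2, h3]
    exact P.holds l
  -- the quotient ring
  have hne : U.qI q c ≠ ⊤ := by
    intro h
    rw [h, top_le_iff] at hle
    have : θ 1 = 0 := by rw [← RingHom.mem_ker, hle]; trivial
    rw [map_one] at this
    exact one_ne_zero this
  have hnt : Nontrivial (U.R ⧸ U.qI q c) := Ideal.Quotient.nontrivial_iff.mpr hne
  have hsurj : Function.Surjective (Ideal.Quotient.mk (U.qI q c)) := Ideal.Quotient.mk_surjective
  have hlocq : IsLocalRing (U.R ⧸ U.qI q c) := IsLocalRing.of_surjective' _ hsurj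
  have hlh : IsLocalHom (Ideal.Quotient.mk (U.qI q c)) := IsLocalHom.of_surjective _ hsurj
  have hcomp : IsAdicComplete (maximalIdeal (U.R ⧸ U.qI q c)) (U.R ⧸ U.qI q c) := by
    have : IsLocalHom (algebraMap U.R (U.R ⧸ U.qI q c)) := hlh
    exact IsLocalRing.isAdicComplete_of_module_finite (𝒪 := U.R)
  set π := Ideal.Quotient.mk (U.qI q c) with hπ
  have hιl := U.isLocalHom
  obtain ⟨χ, k0, k1, k2, k3, k4⟩ := P.lift (π.comp U.ι) inferInstance
    (fun l => (U.F l).map π) (fun l => (U.N l).map π)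
    (fun l => (U.qI_le_ker_iff π c).mp (by rw [hπ, Ideal.mk_ker]) l)
    (fun l i j => by
      have := mem_of_isLocalHom hlh (U.resF l i j)
      rwa [map_sub] at this)
    (fun l i j => by
      have := mem_of_isLocalHom hlh (U.resN l i j)
      rwa [map_sub] at this)
    (fun i => π (U.x i)) (fun i => mem_of_isLocalHom hlh (U.x_mem i))
  have k1' : ∀ b, χ (P.ι b) = π (U.ι b) := fun b => DFunLike.congr_fun k1 b
  have hcomp1 : χ.comp θ = π := by
    refine U.uniq _ _ inferInstance inferInstance ?_ (fun l => ?_) (fun l => ?_) (fun i => ?_)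
    · rw [RingHom.comp_assoc, h1, k1]
    · rw [← k2 l, ← h2 l]; rfl
    · rw [← k3 l, ← h3 l]; rfl
    · rw [RingHom.comp_apply, h4, k4]
  have hker : RingHom.ker θ ≤ U.qI q c := by
    intro r hr
    rw [RingHom.mem_ker] at hr
    rw [← Ideal.Quotient.eq_zero_iff_mem, ← hπ, ← hcomp1, RingHom.comp_apply, hr, map_zero]
  have hker' : RingHom.ker θ = U.qI q c := le_antisymm hker hle
  refine ⟨θ, h0, ?_, hker', h1, h2, h3, h4⟩
  let θ' : (U.R ⧸ U.qI q c) →+* P.R := Ideal.Quotient.lift (U.qI q c) θ (fun a ha => hle ha)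
  have hθ' : ∀ r, θ' (π r) = θ r := fun r => Ideal.Quotient.lift_mk _ _ _
  have hθ'loc : IsLocalHom θ' := by
    refine isLocalHom_of_mem _ fun r hr => ?_
    obtain ⟨s, rfl⟩ := hsurj r
    rw [hθ']
    refine mem_of_isLocalHom h0 ?_
    rw [mem_maximalIdeal, mem_nonunits_iff] at hr ⊢
    exact fun h => hr (h.map _)
  have hid : θ'.comp χ = RingHom.id P.R := by
    refine P.uniq _ _ inferInstance inferInstance ?_ (fun l => ?_) (fun l => ?_) (fun i => ?_)
    · ext b
      simp only [RingHom.comp_apply, k1', hθ', h1', RingHom.id_apply]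
    · ext i j
      have e1 : χ (P.F l i j) = π (U.F l i j) := congrFun (congrFun (k2 l) i) j
      have e2 : θ (U.F l i j) = P.F l i j := congrFun (congrFun (h2 l) i) j
      simp only [Matrix.map_apply, RingHom.comp_apply, e1, hθ', e2, RingHom.id_apply]
    · ext i j
      have e1 : χ (P.N l i j) = π (U.N l i j) := congrFun (congrFun (k3 l) i) j
      have e2 : θ (U.N l i j) = P.N l i j := congrFun (congrFun (h3 l) i) j
      simp only [Matrix.map_apply, RingHom.comp_apply, e1, hθ', e2, RingHom.id_apply]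
    · rw [RingHom.comp_apply, k4, hθ', h4]; rfl
  intro y
  obtain ⟨s, hs⟩ := hsurj (χ y)
  refine ⟨s, ?_⟩
  rw [← hθ', hs]
  exact DFunLike.congr_fun hid y

end

/-! ### Existence -/

/-- index set of the variables -/
abbrev FIdx (Λ γ : Type) : Type := (Λ × Fin 2 × Fin 2 × Fin 2) ⊕ γ

section full

variable {O : Type u} [CommRing O] [IsLocalRing O] [IsNoetherianRing O]
  [IsAdicComplete (maximalIdeal O) O] {Λ γ : Type} [Finite Λ] [Finite γ]

/-- universal Frobenius -/
noncomputable def fullF (γ : Type) (F₀ : Λ → Matrix (Fin 2) (Fin 2) O) (l : Λ) :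
    Matrix (Fin 2) (Fin 2) (MvPowerSeries (FIdx Λ γ) O) :=
  fun i j => MvPowerSeries.C (F₀ l i j) + MvPowerSeries.X (Sum.inl (l, i, j, 0))

/-- universal monodromy -/
noncomputable def fullN (γ : Type) (N₀ : Λ → Matrix (Fin 2) (Fin 2) O) (l : Λ) :
    Matrix (Fin 2) (Fin 2) (MvPowerSeries (FIdx Λ γ) O) :=
  fun i j => MvPowerSeries.C (N₀ l i j) + MvPowerSeries.X (Sum.inl (l, i, j, 1))

theorem X_mem_max (s : FIdx Λ γ) : (MvPowerSeries.X s : MvPowerSeries (FIdx Λ γ) O) ∈
    maximalIdeal (MvPowerSeries (FIdx Λ γ) O) := by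
  rw [mv_mem_maximalIdeal]; simp

theorem fullF_sub (F₀ : Λ → Matrix (Fin 2) (Fin 2) O) (l : Λ) (i j : Fin 2) :
    fullF γ F₀ l i j - MvPowerSeries.C (F₀ l i j) = MvPowerSeries.X (Sum.inl (l, i, j, 0)) := by
  rw [fullF, add_sub_cancel_left]

theorem fullN_sub (N₀ : Λ → Matrix (Fin 2) (Fin 2) O) (l : Λ) (i j : Fin 2) :
    fullN γ N₀ l i j - MvPowerSeries.C (N₀ l i j) = MvPowerSeries.X (Sum.inl (l, i, j, 1)) := by
  rw [fullN, add_sub_cancel_left]

/-- the evaluation data -/
noncomputable def evY {A : Type u} [CommRing A] (φ : O →+* A)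
    (F₀ N₀ : Λ → Matrix (Fin 2) (Fin 2) O) (F' N' : Λ → Matrix (Fin 2) (Fin 2) A)
    (x' : γ → A) : FIdx Λ γ → A
  | Sum.inl (l, i, j, k) => if k = 0 then F' l i j - φ (F₀ l i j) else N' l i j - φ (N₀ l i j)
  | Sum.inr i => x' i

/-- The full power series ring as a package: `R = MvPowerSeries (FIdx Λ γ) O`. -/
noncomputable def fullPkg (γ : Type) [Finite γ] (F₀ N₀ : Λ → Matrix (Fin 2) (Fin 2) O) :
    FPkg γ F₀ N₀ where
  R := MvPowerSeries (FIdx Λ γ) O
  ι := MvPowerSeries.C
  isLocalHom := isLocalHom_of_mem _ fun b hb => by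
    rw [mv_mem_maximalIdeal]
    simpa using hb
  F := fullF γ F₀
  N := fullN γ N₀
  x i := MvPowerSeries.X (Sum.inr i)
  x_mem i := X_mem_max _
  resF l i j := by rw [fullF_sub]; exact X_mem_max _
  resN l i j := by rw [fullN_sub]; exact X_mem_max _
  resSurj r := by
    refine ⟨MvPowerSeries.constantCoeff r, ?_⟩
    rw [mv_mem_maximalIdeal]
    simp
  gen := by
    refine mv_max_le.trans (sup_le ?_ ?_)
    · exact le_sup_of_le_left (le_sup_of_le_left le_sup_left)
    · rw [Ideal.span_le]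
      rintro _ ⟨s, rfl⟩
      rcases s with ⟨l, i, j, k⟩ | i
      · match k with
        | 0 =>
          refine Ideal.mem_sup_left (Ideal.mem_sup_left (Ideal.mem_sup_right
            (Ideal.subset_span ⟨(l, i, j), ?_⟩)))
          exact fullF_sub F₀ l i j
        | 1 =>
          refine Ideal.mem_sup_left (Ideal.mem_sup_right
            (Ideal.subset_span ⟨(l, i, j), ?_⟩))
          exact fullN_sub N₀ l i j
      · exact Ideal.mem_sup_right (Ideal.subset_span ⟨i, rfl⟩)
  lift := by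
    intro A _ _ _ φ hφ F' N' hF hN x' hx'
    let _ := φ.toAlgebra
    let y : FIdx Λ γ → A := evY φ F₀ N₀ F' N' x'
    have hy : ∀ s, y s ∈ maximalIdeal A := by
      rintro (⟨l, i, j, k⟩ | i)
      · match k with
        | 0 => exact hF l i j
        | 1 => exact hN l i j
      · exact hx' i
    let ev : MvPowerSeries (FIdx Λ γ) O →+* A :=
      (RT1.evalHom (maximalIdeal A) y hy : MvPowerSeries (FIdx Λ γ) O →ₐ[O] A).toRingHom
    have ev0 : ∀ b, ev (MvPowerSeries.C b) = φ b := fun b =>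
      (RT1.evalHom (maximalIdeal A) y hy : MvPowerSeries (FIdx Λ γ) O →ₐ[O] A).commutes b
    have evX : ∀ s, ev (MvPowerSeries.X s) = y s := fun s =>
      RT1.evalHom_X (maximalIdeal A) y hy s
    refine ⟨ev, ?_, ?_, ?_, ?_, ?_⟩
    · refine isLocalHom_of_mem _ fun s hs => ?_
      have h1 := mv_max_le hs
      have h2 : (maximalIdeal O).map (MvPowerSeries.C : O →+* MvPowerSeries (FIdx Λ γ) O) ⊔
          Ideal.span (Set.range
          (MvPowerSeries.X : FIdx Λ γ → MvPowerSeries (FIdx Λ γ) O)) ≤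
          (maximalIdeal A).comap ev := by
        refine sup_le ?_ ?_
        · rw [Ideal.map_le_iff_le_comap]
          intro b hb
          rw [Ideal.mem_comap, Ideal.mem_comap, ev0]
          exact mem_of_isLocalHom hφ hb
        · rw [Ideal.span_le]
          rintro _ ⟨s, rfl⟩
          rw [SetLike.mem_coe, Ideal.mem_comap, evX]
          exact hy s
      exact h2 h1
    · ext b
      exact ev0 b
    · intro l
      ext i j
      change ev (fullF γ F₀ l i j) = _
      rw [fullF, map_add, ev0, evX]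
      change φ (F₀ l i j) + (F' l i j - φ (F₀ l i j)) = _
      ring
    · intro l
      ext i j
      change ev (fullN γ N₀ l i j) = _
      rw [fullN, map_add, ev0, evX]
      change φ (N₀ l i j) + (N' l i j - φ (N₀ l i j)) = _
      ring
    · intro i
      rw [evX]; rfl
  uniq := by
    intro A _ _ _ ψ ψ' h1 h2 h3 h4 h5 h6
    have h3' : ∀ b, ψ (MvPowerSeries.C b) = ψ' (MvPowerSeries.C b) :=
      fun b => DFunLike.congr_fun h3 b
    refine RT1.hom_ext (maximalIdeal A) _ _ h3' ?_ ?_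
    · rintro (⟨l, i, j, k⟩ | i)
      · match k with
        | 0 =>
          rw [← fullF_sub F₀, map_sub, map_sub, h3']
          have := congrFun (congrFun (h4 l) i) j
          simp only [Matrix.map_apply] at this
          rw [this]
        | 1 =>
          rw [← fullN_sub N₀, map_sub, map_sub, h3']
          have := congrFun (congrFun (h5 l) i) j
          simp only [Matrix.map_apply] at this
          rw [this]
      · exact h6 i
    · intro s
      exact mem_of_isLocalHom h1 (X_mem_max s)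

end full

/-! ### Main properties -/

section main

variable {O : Type u} [CommRing O] [IsDomain O] [IsLocalRing O] [IsNoetherianRing O]
  [IsAdicComplete (maximalIdeal O) O] {Λ γ : Type} [Fintype Λ] [Fintype γ]
  {q : Λ → O} {F₀ N₀ : Λ → Matrix (Fin 2) (Fin 2) O} (U : FPkg γ F₀ N₀)

theorem DimLE.mono {R : Type u} [CommRing R] [IsLocalRing R] {m n : ℕ} (h : DimLE R m)
    (hmn : m ≤ n) : DimLE R n := by
  obtain ⟨t, ht, k, hk⟩ := h
  refine ⟨fun i => if hi : (i : ℕ) < m then t ⟨i, hi⟩ else 0, fun i => ?_, k, ?_⟩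
  · beta_reduce
    split_ifs with hi
    · exact ht _
    · exact Ideal.zero_mem _
  · refine hk.trans (Ideal.span_mono ?_)
    rintro _ ⟨i, rfl⟩
    exact ⟨⟨i, i.2.trans_le hmn⟩, by simp⟩

/-- **The components.** For a residually compatible family of types `c`, the ideal `U.qI q c` is
prime; the quotient is a domain containing `O`, of dimension at most
`dim O + #γ + ∑ dim (c l)`; and the genericity conditions hold in the quotient. -/
theorem FPkg.component (hq : ∀ l, IsUnit (q l)) (c : Λ → Ty)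
    (hc : ∀ l, ResHolds (c l) (q l) (F₀ l) (N₀ l)) :
    (U.qI q c).IsPrime ∧ (∀ b, U.ι b ∈ U.qI q c → b = 0) ∧
    (∀ m, DimLE O m → ∃ t : Fin (m + (Fintype.card γ + ∑ l, (c l).dim)) → U.R,
      (∀ i, t i ∈ maximalIdeal U.R) ∧
      ∃ k, maximalIdeal U.R ^ k ≤ U.qI q c ⊔ Ideal.span (Set.range t)) ∧
    (∀ m, DimLE O m → ringKrullDim (U.R ⧸ U.qI q c) ≤
      ((m + (Fintype.card γ + ∑ l, (c l).dim) : ℕ) : WithBot ℕ∞)) ∧
    (∀ l, (c l).NZ (Ideal.Quotient.mk (U.qI q c) (U.ι (q l)))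
      ((U.F l).map (Ideal.Quotient.mk (U.qI q c)))
      ((U.N l).map (Ideal.Quotient.mk (U.qI q c)))) := by
  obtain ⟨P⟩ := exists_mpkg (γ := γ) c q F₀ N₀ hq hc
  obtain ⟨θ, h0, hs, hker, h1, h2, h3, h4⟩ := FPkg.exists_ker_eq (U := U) P
  have h1' : ∀ b, θ (U.ι b) = P.ι b := fun b => DFunLike.congr_fun h1 b
  have hprime : (U.qI q c).IsPrime := by
    rw [← hker]; exact RingHom.ker_isPrime θ
  refine ⟨hprime, ?_, ?_, ?_, ?_⟩
  · intro b hb
    rw [← hker, RingHom.mem_ker, h1'] at hb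
    exact P.inj (hb.trans (map_zero _).symm)
  · intro m hm
    obtain ⟨t, ht, k, hk⟩ := P.dim m hm
    choose s hs' using fun i => hs (t i)
    refine ⟨s, fun i => ?_, k, ?_⟩
    · have := ht i
      rw [← hs', mem_maximalIdeal, mem_nonunits_iff] at this
      rw [mem_maximalIdeal, mem_nonunits_iff]
      exact fun h => this (h.map θ)
    · intro r hr
      have h5 : θ r ∈ maximalIdeal P.R ^ k := by
        have h6 : (maximalIdeal U.R).map θ ≤ maximalIdeal P.R := by
          rw [Ideal.map_le_iff_le_comap]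
          exact fun y hy => mem_of_isLocalHom h0 hy
        have h7 := Ideal.mem_map_of_mem θ hr
        rw [Ideal.map_pow] at h7
        exact Ideal.pow_right_mono h6 k h7
      have h8 := hk h5
      have h9 : Ideal.span (Set.range t) = (Ideal.span (Set.range s)).map θ := by
        rw [Ideal.map_span, ← Set.range_comp]
        congr 2
        funext i
        exact (hs' i).symm
      rw [h9, Ideal.mem_map_iff_of_surjective θ hs] at h8
      obtain ⟨z, hz, hz'⟩ := h8
      have h10 : r - z ∈ U.qI q c := by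
        rw [← hker, RingHom.mem_ker, map_sub, hz', sub_self]
      have : r = (r - z) + z := by ring
      rw [this]
      exact Ideal.add_mem _ (Ideal.mem_sup_left h10) (Ideal.mem_sup_right hz)
  · intro m hm
    obtain ⟨t, ht, k, hk⟩ := P.dim m hm
    have h5 := RT1.ringKrullDim_le_of_pow_le (R := P.R) _ t ht k hk
    have e : (U.R ⧸ U.qI q c) ≃+* P.R :=
      (Ideal.quotEquivOfEq hker.symm).trans (RingHom.quotientKerEquivOfSurjective hs)
    rw [ringKrullDim_eq_of_ringEquiv e]
    exact h5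
  · intro l
    let θ' : (U.R ⧸ U.qI q c) →+* P.R := Ideal.Quotient.lift (U.qI q c) θ
      (fun a ha => by rw [← hker] at ha; exact ha)
    have hθ' : ∀ r, θ' (Ideal.Quotient.mk (U.qI q c) r) = θ r :=
      fun r => Ideal.Quotient.lift_mk _ _ _
    refine Ty.NZ.of_map (f := θ') ?_
    have e1 : ((U.F l).map (Ideal.Quotient.mk (U.qI q c))).map θ' = P.F l := by
      rw [← h2 l]; ext i j; exact hθ' _
    have e2 : ((U.N l).map (Ideal.Quotient.mk (U.qI q c))).map θ' = P.N l := by
      rw [← h3 l]; ext i j; exact hθ' _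
    rw [hθ', h1', e1, e2]
    exact P.nz l

/-- Inclusions between the ideals of types. -/
theorem FPkg.qI_le_qI_iff (hq : ∀ l, IsUnit (q l)) (h2 : (2 : O) ≠ 0)
    (hq1 : ∀ l, q l + 1 ≠ 0) (c c' : Λ → Ty)
    (hc' : ∀ l, ResHolds (c' l) (q l) (F₀ l) (N₀ l)) :
    U.qI q c ≤ U.qI q c' ↔ ∀ l, (c' l).Spec (c l) := by
  obtain ⟨hprime, hinj, -, -, hnz⟩ := U.component hq c' hc'
  have hholds : ∀ l, (c' l).Holds (Ideal.Quotient.mk (U.qI q c') (U.ι (q l)))
      ((U.F l).map (Ideal.Quotient.mk (U.qI q c')))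
      ((U.N l).map (Ideal.Quotient.mk (U.qI q c'))) :=
    (U.qI_le_ker_iff (Ideal.Quotient.mk (U.qI q c')) c').mp (by rw [Ideal.mk_ker])
  constructor
  · intro h l
    have h3 : ∀ l, (c l).Holds (Ideal.Quotient.mk (U.qI q c') (U.ι (q l)))
      ((U.F l).map (Ideal.Quotient.mk (U.qI q c')))
      ((U.N l).map (Ideal.Quotient.mk (U.qI q c'))) :=
      (U.qI_le_ker_iff (Ideal.Quotient.mk (U.qI q c')) c).mp (by rw [Ideal.mk_ker]; exact h)
    have key : ∀ b : O, b ≠ 0 → Ideal.Quotient.mk (U.qI q c') (U.ι b) ≠ 0 := by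
      intro b hb h4
      rw [Ideal.Quotient.eq_zero_iff_mem] at h4
      exact hb (hinj b h4)
    refine Ty.Spec.of_holds ?_ ?_ (hholds l) (hnz l) (h3 l)
    · have := key 2 h2
      rwa [map_ofNat, map_ofNat] at this
    · have := key _ (hq1 l)
      rwa [map_add, map_add, map_one, map_one] at this
  · intro h
    have h3 := (U.qI_le_ker_iff (Ideal.Quotient.mk (U.qI q c')) c).mpr
      fun l => (h l).holds (hholds l)
    rwa [Ideal.mk_ker] at h3

/-- constants not in the ideals -/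
theorem FPkg.ι_notMem (hq : ∀ l, IsUnit (q l)) (c : Λ → Ty)
    (hc : ∀ l, ResHolds (c l) (q l) (F₀ l) (N₀ l)) (b : O) (hb : b ≠ 0) :
    U.ι b ∉ U.qI q c := fun h => hb ((U.component hq c hc).2.1 b h)

/-- genericity at unramified types -/
theorem FPkg.trace_notMem (hq : ∀ l, IsUnit (q l)) (c : Λ → Ty)
    (hc : ∀ l, ResHolds (c l) (q l) (F₀ l) (N₀ l)) (l : Λ) (hl : c l = .unr) :
    (U.F l).trace ^ 2 - (U.ι (q l) + 1) ^ 2 ∉ U.qI q c := by
  obtain ⟨hprime, -, -, -, hnz⟩ := U.component hq c hc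
  have h1 := hnz l
  rw [hl] at h1
  obtain ⟨h2, h3⟩ := h1
  rw [trace_map'] at h2 h3
  intro h4
  have e : (U.F l).trace ^ 2 - (U.ι (q l) + 1) ^ 2 =
      ((U.F l).trace - (U.ι (q l) + 1)) * ((U.F l).trace + (U.ι (q l) + 1)) := by ring
  rw [e] at h4
  rcases hprime.mem_or_mem h4 with h5 | h5
  · rw [← Ideal.Quotient.eq_zero_iff_mem, map_sub, map_add, map_one, sub_eq_zero] at h5
    exact h2 h5
  · rw [← Ideal.Quotient.eq_zero_iff_mem, map_add, map_add, map_one, add_eq_zero_iff_eq_neg] at h5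
    exact h3 h5

/-- genericity at Steinberg types -/
theorem FPkg.N_notMem (hq : ∀ l, IsUnit (q l)) (c : Λ → Ty)
    (hc : ∀ l, ResHolds (c l) (q l) (F₀ l) (N₀ l)) (l : Λ) (hl : c l = .stp ∨ c l = .stm) :
    ∃ i j, U.N l i j ∉ U.qI q c := by
  obtain ⟨hprime, -, -, -, hnz⟩ := U.component hq c hc
  have h1 : (U.N l).map (Ideal.Quotient.mk (U.qI q c)) ≠ 0 := by
    have := hnz l
    rcases hl with hl | hl <;> rw [hl] at this <;> exact this
  by_contra hcon
  push Not at hcon
  apply h1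
  ext i j
  exact Ideal.Quotient.eq_zero_iff_mem.mpr (hcon i j)

/-- Every prime containing the unipotent relations contains the ideal of a component, and one can
prescribe the type to be Steinberg at the primes of `X` provided `tr F ^ 2 - (q + 1) ^ 2` is in
the prime, and to be unramified at the other primes where `N = 0`. -/
theorem FPkg.exists_qI_le (hq : ∀ l, IsUnit (q l)) (p : Ideal U.R) (hp : p.IsPrime)
    (huni : ∀ l, uniRel (U.ι (q l)) (U.F l) (U.N l) ⊆ p) (X : Set Λ)
    (hX : ∀ l ∈ X, (U.F l).trace ^ 2 - (U.ι (q l) + 1) ^ 2 ∈ p) :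
    ∃ c : Λ → Ty, (∀ l, (c l).IsComp) ∧ (∀ l, ResHolds (c l) (q l) (F₀ l) (N₀ l)) ∧
      U.qI q c ≤ p ∧ (∀ l ∈ X, c l = .stp ∨ c l = .stm) ∧
      (∀ l ∉ X, (∀ i j, U.N l i j ∈ p) → c l = .unr) := by
  classical
  set π := Ideal.Quotient.mk p with hπ
  have key : ∀ l, ∃ T : Ty, T.IsComp ∧ T.Holds (π (U.ι (q l))) ((U.F l).map π)
      ((U.N l).map π) ∧ (l ∈ X → T = .stp ∨ T = .stm) ∧
      (l ∉ X → (∀ i j, U.N l i j ∈ p) → T = .unr) := by
    intro l
    have h1 : IsUni (π (U.ι (q l))) ((U.F l).map π) ((U.N l).map π) :=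
      (isUni_map_iff π).mpr fun r hr => Ideal.Quotient.eq_zero_iff_mem.mpr (huni l hr)
    have h2 : π (U.ι (q l)) ≠ 0 := (((hq l).map U.ι).map π).ne_zero
    by_cases hN : (U.N l).map π = 0
    · by_cases hl : l ∈ X
      · have h3 := hX l hl
        have e : (U.F l).trace ^ 2 - (U.ι (q l) + 1) ^ 2 =
          ((U.F l).trace - (U.ι (q l) + 1)) * ((U.F l).trace + (U.ι (q l) + 1)) := by ring
        rw [e] at h3
        rcases hp.mem_or_mem h3 with h5 | h5
        · rw [← Ideal.Quotient.eq_zero_iff_mem, map_sub, map_add, map_one, sub_eq_zero] at h5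
          refine ⟨.stp, Or.inr (Or.inl rfl), ?_, fun _ => Or.inl rfl, fun h => absurd hl h⟩
          refine (isP_iff.mp (⟨?_, h1.detF, hN⟩ : IsP _ _ _)).1
          rw [trace_map']; exact h5
        · rw [← Ideal.Quotient.eq_zero_iff_mem, map_add, map_add, map_one,
            add_eq_zero_iff_eq_neg] at h5
          refine ⟨.stm, Or.inr (Or.inr rfl), ?_, fun _ => Or.inr rfl, fun h => absurd hl h⟩
          refine (isP_iff.mp (⟨?_, ?_, hN⟩ : IsP _ _ _)).1
          · rw [Matrix.trace_neg, trace_map', h5, neg_neg]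
          · rw [Matrix.det_neg]
            simpa using h1.detF
      · exact ⟨.unr, Or.inl rfl, ⟨h1.detF, hN⟩, fun h => absurd h hl, fun _ _ => rfl⟩
    · have hN' : ¬ ∀ i j, U.N l i j ∈ p := by
        intro h
        apply hN
        ext i j
        exact Ideal.Quotient.eq_zero_iff_mem.mpr (h i j)
      rcases h1.cover h2 with h | h | h
      · exact absurd h.N0 hN
      · exact ⟨.stp, Or.inr (Or.inl rfl), h, fun _ => Or.inl rfl, fun _ h => absurd h hN'⟩
      · exact ⟨.stm, Or.inr (Or.inr rfl), h, fun _ => Or.inr rfl, fun _ h => absurd h hN'⟩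
  choose c hc1 hc2 hc3 hc4 using key
  have hle : U.qI q c ≤ p := by
    have := (U.qI_le_ker_iff π c).mpr hc2
    rwa [hπ, Ideal.mk_ker] at this
  refine ⟨c, hc1, fun l => ?_, hle, hc3, hc4⟩
  have hmax : p ≤ maximalIdeal U.R := IsLocalRing.le_maximalIdeal hp.ne_top
  have h3 := (U.qI_le_ker_iff (residue U.R) c).mp (by
    intro r hr
    rw [RingHom.mem_ker, residue_eq_zero_iff]
    exact hmax (hle hr)) l
  have hι := U.isLocalHom
  refine Ty.Holds.of_injective (f := ResidueField.map U.ι) (RingHom.injective _) ?_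
  have e1 : ((F₀ l).map (residue O)).map (ResidueField.map U.ι) = (U.F l).map (residue U.R) := by
    ext i j
    simp only [Matrix.map_apply, ResidueField.map_residue]
    exact (res_iff.mp (U.resF l i j)).symm
  have e2 : ((N₀ l).map (residue O)).map (ResidueField.map U.ι) = (U.N l).map (residue U.R) := by
    ext i j
    simp only [Matrix.map_apply, ResidueField.map_residue]
    exact (res_iff.mp (U.resN l i j)).symm
  rw [ResidueField.map_residue, e1, e2]
  exact h3

/-- dimension bound for components over a DVR -/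
theorem FPkg.dim_le {O : Type u} [CommRing O] [IsDomain O] [IsDiscreteValuationRing O]
    [IsAdicComplete (maximalIdeal O) O] {q : Λ → O}
    {F₀ N₀ : Λ → Matrix (Fin 2) (Fin 2) O} (U : FPkg γ F₀ N₀)
    (hq : ∀ l, IsUnit (q l)) (c : CompIdx q F₀ N₀) :
    ringKrullDim (U.R ⧸ U.qI q c.1) ≤
      ((Fintype.card γ + 3 * Fintype.card Λ + 1 : ℕ) : WithBot ℕ∞) := by
  have h := (U.component hq c.1 c.2.2).2.2.2.1 1 DimLE.dvr
  have e : ∑ l, (c.1 l).dim = 3 * Fintype.card Λ := by
    rw [Finset.sum_congr rfl fun l _ => (c.2.1 l).dim]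
    simp [mul_comm]
  rw [e] at h
  refine h.trans (le_of_eq ?_)
  congr 1
  ring

end main

end Fermat.Agent.LocRing
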