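import Fermat.Agent.LocRing.Multi
import Fermat.Agent.RT1.Eval
import Fermat.Agent.RT1.Dim

/-!
# The universal ring of unipotent pairs, and its components
-/

set_option autoImplicit false
set_option linter.unusedSectionVars false

open IsLocalRing

namespace Fermat.Agent.LocRing

universe u v w

/-- unipotent pairs -/
structure IsUni {A : Type*} [CommRing A] (q : A) (F N : Matrix (Fin 2) (Fin 2) A) : Prop where
  detF : F.det = q
  FN : F * N = q • (N * F)
  NN : N * N = 0
  trN : N.trace = 0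
  detN : N.det = 0

section rel

variable {A : Type*} [CommRing A] {q : A} {F N : Matrix (Fin 2) (Fin 2) A}

theorem sq_eq_zero_of {A : Type*} [CommRing A] {N : Matrix (Fin 2) (Fin 2) A}
    (htr : N.trace = 0) (hdet : N.det = 0) : N * N = 0 := by
  rw [Matrix.trace_fin_two] at htr
  rw [Matrix.det_fin_two] at hdet
  ext i j
  rw [Matrix.mul_apply, Fin.sum_univ_two, Matrix.zero_apply]
  match i, j with
  | 0, 0 => linear_combination N 0 0 * htr - hdet
  | 0, 1 => linear_combination N 0 1 * htr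
  | 1, 0 => linear_combination N 1 0 * htr
  | 1, 1 => linear_combination N 1 1 * htr - hdet

theorem IsUnr.isUni (h : IsUnr q F N) : IsUni q F N where
  detF := h.detF
  FN := by rw [h.N0]; simp
  NN := by rw [h.N0]; simp
  trN := by rw [h.N0]; simp
  detN := by rw [h.N0, Matrix.det_fin_two]; simp

theorem IsSt.isUni (h : IsSt q F N) : IsUni q F N where
  detF := h.detF
  FN := by rw [h.FN, h.NF]
  NN := sq_eq_zero_of h.trN h.detN
  trN := h.trN
  detN := h.detN

theorem IsP.isUni (h : IsP q F N) : IsUni q F N := (isP_iff.mp h).1.isUni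

theorem IsUni.map {A' : Type*} [CommRing A'] (f : A →+* A') (h : IsUni q F N) :
    IsUni (f q) (F.map f) (N.map f) where
  detF := by rw [det_map', h.detF]
  FN := by
    rw [← Matrix.map_mul, h.FN]
    ext i j
    simp only [Matrix.map_apply, Matrix.smul_apply, smul_eq_mul, Matrix.mul_apply, map_mul,
      map_sum]
  NN := by
    rw [← Matrix.map_mul, h.NN]
    ext i j
    simp
  trN := by rw [trace_map', h.trN, map_zero]
  detN := by rw [det_map', h.detN, map_zero]

theorem IsUni.neg (h : IsUni q (-F) N) : IsUni q F N where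
  detF := by
    have := h.detF
    rw [Matrix.det_neg] at this
    simpa using this
  FN := by
    have := h.FN
    rw [neg_mul, mul_neg, smul_neg] at this
    exact neg_injective this
  NN := h.NN
  trN := h.trN
  detN := h.detN

theorem Ty.Holds.isUni {T : Ty} (h : T.Holds q F N) : IsUni q F N := by
  cases T
  · exact IsUnr.isUni h
  · exact IsSt.isUni h
  · exact (IsSt.isUni h).neg
  · exact IsP.isUni h
  · exact (IsP.isUni h).neg

/-- relations of unipotent pairs -/
def uniRel (q : A) (F N : Matrix (Fin 2) (Fin 2) A) : Set A :=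
  {F.det - q, N.trace, N.det} ∪ Set.range (fun p : Fin 2 × Fin 2 => (F * N - q • (N * F)) p.1 p.2)
    ∪ Set.range (fun p : Fin 2 × Fin 2 => (N * N) p.1 p.2)

/-- relations of unramified pairs -/
def unrRel (q : A) (F N : Matrix (Fin 2) (Fin 2) A) : Set A :=
  {F.det - q} ∪ Set.range (fun p : Fin 2 × Fin 2 => N p.1 p.2)

/-- relations of the intersection -/
def pRel (q : A) (F N : Matrix (Fin 2) (Fin 2) A) : Set A :=
  {F.trace - (q + 1), F.det - q} ∪ Set.range (fun p : Fin 2 × Fin 2 => N p.1 p.2)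

/-- Steinberg relations -/
def stRel (q : A) (F N : Matrix (Fin 2) (Fin 2) A) : Set A :=
  {F.trace - (q + 1), F.det - q, N.trace, N.det} ∪
    Set.range (fun p : Fin 2 × Fin 2 => (F * N - q • N) p.1 p.2) ∪
    Set.range (fun p : Fin 2 × Fin 2 => (N * F - N) p.1 p.2)

/-- the relations of type `T` -/
def Ty.rel (T : Ty) (q : A) (F N : Matrix (Fin 2) (Fin 2) A) : Set A :=
  match T with
  | .unr => unrRel q F N
  | .stp => stRel q F N
  | .stm => stRel q (-F) N
  | .pp => pRel q F N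
  | .pm => pRel q (-F) N

theorem forall_union_iff {α : Type*} {s t : Set α} {p : α → Prop} :
    (∀ r ∈ s ∪ t, p r) ↔ (∀ r ∈ s, p r) ∧ ∀ r ∈ t, p r := by
  constructor
  · intro h; exact ⟨fun r hr => h r (Or.inl hr), fun r hr => h r (Or.inr hr)⟩
  · rintro ⟨h1, h2⟩ r (hr | hr)
    · exact h1 r hr
    · exact h2 r hr

theorem forall_range_iff' {A' : Type*} [CommRing A'] (f : A →+* A')
    (M : Matrix (Fin 2) (Fin 2) A) :
    (∀ r ∈ Set.range (fun p : Fin 2 × Fin 2 => M p.1 p.2), f r = 0) ↔ M.map f = 0 := by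
  constructor
  · intro h
    ext i j
    exact h _ ⟨(i, j), rfl⟩
  · rintro h _ ⟨p, rfl⟩
    exact congrFun (congrFun h p.1) p.2

section iff
variable {A' : Type*} [CommRing A'] (f : A →+* A')

theorem map_sub_smul (F N : Matrix (Fin 2) (Fin 2) A) :
    (F * N - q • (N * F)).map f = F.map f * N.map f - f q • (N.map f * F.map f) := by
  ext i j
  simp only [Matrix.map_apply, Matrix.sub_apply, Matrix.smul_apply, smul_eq_mul,
    Matrix.mul_apply, map_sub, map_mul, map_sum]

theorem map_sub_smul' (F N : Matrix (Fin 2) (Fin 2) A) :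
    (F * N - q • N).map f = F.map f * N.map f - f q • N.map f := by
  ext i j
  simp only [Matrix.map_apply, Matrix.sub_apply, Matrix.smul_apply, smul_eq_mul,
    Matrix.mul_apply, map_sub, map_mul, map_sum]

theorem map_sub_mul' (F N : Matrix (Fin 2) (Fin 2) A) :
    (N * F - N).map f = N.map f * F.map f - N.map f := by
  ext i j
  simp only [Matrix.map_apply, Matrix.sub_apply, Matrix.mul_apply, map_sub, map_mul, map_sum]

theorem isUni_map_iff : IsUni (f q) (F.map f) (N.map f) ↔ ∀ r ∈ uniRel q F N, f r = 0 := by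
  rw [uniRel, forall_union_iff, forall_union_iff, forall_range_iff', forall_range_iff',
    map_sub_smul, Matrix.map_mul]
  simp only [Set.mem_insert_iff, Set.mem_singleton_iff, forall_eq_or_imp, forall_eq, map_sub]
  rw [← det_map', ← det_map', ← trace_map', sub_eq_zero, sub_eq_zero]
  constructor
  · intro h; exact ⟨⟨⟨h.detF, h.trN, h.detN⟩, h.FN⟩, h.NN⟩
  · rintro ⟨⟨⟨h1, h2, h3⟩, h4⟩, h5⟩
    exact ⟨h1, h4, h5, h2, h3⟩

theorem isUnr_map_iff : IsUnr (f q) (F.map f) (N.map f) ↔ ∀ r ∈ unrRel q F N, f r = 0 := by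
  rw [unrRel, forall_union_iff, forall_range_iff']
  simp only [Set.mem_singleton_iff, forall_eq, map_sub]
  rw [← det_map', sub_eq_zero]
  exact ⟨fun h => ⟨h.detF, h.N0⟩, fun h => ⟨h.1, h.2⟩⟩

theorem isP_map_iff : IsP (f q) (F.map f) (N.map f) ↔ ∀ r ∈ pRel q F N, f r = 0 := by
  rw [pRel, forall_union_iff, forall_range_iff']
  simp only [Set.mem_insert_iff, Set.mem_singleton_iff, forall_eq_or_imp, forall_eq, map_sub,
    map_add, map_one]
  rw [← det_map', ← trace_map', sub_eq_zero, sub_eq_zero]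
  exact ⟨fun h => ⟨⟨h.trF, h.detF⟩, h.N0⟩, fun h => ⟨h.1.1, h.1.2, h.2⟩⟩

theorem isSt_map_iff : IsSt (f q) (F.map f) (N.map f) ↔ ∀ r ∈ stRel q F N, f r = 0 := by
  rw [stRel, forall_union_iff, forall_union_iff, forall_range_iff', forall_range_iff',
    map_sub_smul', map_sub_mul']
  simp only [Set.mem_insert_iff, Set.mem_singleton_iff, forall_eq_or_imp, forall_eq, map_sub,
    map_add, map_one]
  rw [← det_map', ← det_map', ← trace_map', ← trace_map', sub_eq_zero, sub_eq_zero, sub_eq_zero,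
    sub_eq_zero]
  constructor
  · intro h; exact ⟨⟨⟨h.trF, h.detF, h.trN, h.detN⟩, h.FN⟩, h.NF⟩
  · rintro ⟨⟨⟨h1, h2, h3, h4⟩, h5⟩, h6⟩
    exact ⟨h1, h2, h3, h4, h5, h6⟩

theorem Ty.holds_map_iff (T : Ty) :
    T.Holds (f q) (F.map f) (N.map f) ↔ ∀ r ∈ T.rel q F N, f r = 0 := by
  cases T
  · exact isUnr_map_iff f
  · exact isSt_map_iff f
  · have := isSt_map_iff (q := q) (F := -F) (N := N) f
    rw [neg_map'] at this
    exact this
  · exact isP_map_iff f
  · have := isP_map_iff (q := q) (F := -F) (N := N) f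
    rw [neg_map'] at this
    exact this

end iff

end rel

/-- specialization of types: `T'` is a closed subtype of `T` -/
def Ty.Spec (T' T : Ty) : Prop :=
  T' = T ∨ (T' = .pp ∧ (T = .unr ∨ T = .stp)) ∨ (T' = .pm ∧ (T = .unr ∨ T = .stm))

section spec

variable {A : Type*} [CommRing A] {q : A} {F N : Matrix (Fin 2) (Fin 2) A}

theorem Ty.Spec.holds {T' T : Ty} (h : T'.Spec T) (h' : T'.Holds q F N) : T.Holds q F N := by
  rcases h with rfl | ⟨rfl, rfl | rfl⟩ | ⟨rfl, rfl | rfl⟩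
  · exact h'
  · exact ⟨IsP.detF h', IsP.N0 h'⟩
  · exact (isP_iff.mp h').1
  · refine ⟨?_, IsP.N0 h'⟩
    have := IsP.detF h'
    rw [Matrix.det_neg] at this
    simpa using this
  · exact (isP_iff.mp h').1

theorem Ty.Spec.of_holds [IsDomain A] {T' T : Ty} (h2 : (2 : A) ≠ 0) (hq : q + 1 ≠ 0)
    (h' : T'.Holds q F N) (hnz : T'.NZ q F N) (h : T.Holds q F N) : T'.Spec T := by
  have h2q : q + 1 ≠ -(q + 1) := by
    intro h1
    have h3 : 2 * (q + 1) = 0 := by linear_combination h1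
    rcases mul_eq_zero.mp h3 with h4 | h4
    · exact h2 h4
    · exact hq h4
  have hneg : ∀ M : Matrix (Fin 2) (Fin 2) A, (-M).trace = q + 1 → M.trace = -(q + 1) := by
    intro M hM
    rw [Matrix.trace_neg] at hM
    linear_combination -hM
  have trace_of : ∀ T : Ty, T.Holds q F N → T = .unr ∨ (F.trace = q + 1 ∧ (T = .stp ∨ T = .pp)) ∨
      (F.trace = -(q + 1) ∧ (T = .stm ∨ T = .pm)) := by
    intro T hT
    cases T
    · exact Or.inl rfl
    · exact Or.inr (Or.inl ⟨IsSt.trF hT, Or.inl rfl⟩)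
    · exact Or.inr (Or.inr ⟨hneg _ (IsSt.trF hT), Or.inl rfl⟩)
    · exact Or.inr (Or.inl ⟨IsP.trF hT, Or.inr rfl⟩)
    · exact Or.inr (Or.inr ⟨hneg _ (IsP.trF hT), Or.inr rfl⟩)
  have nz_of : N ≠ 0 → T = .stp ∨ T = .stm := by
    intro hN
    cases T
    · exact absurd (IsUnr.N0 h) hN
    · exact Or.inl rfl
    · exact Or.inr rfl
    · exact absurd (IsP.N0 h) hN
    · exact absurd (IsP.N0 h) hN
  have htr := trace_of T h
  cases T'
  · rcases htr with rfl | ⟨h1, -⟩ | ⟨h1, -⟩
    · exact Or.inl rfl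
    · exact absurd h1 hnz.1
    · exact absurd h1 hnz.2
  · rcases nz_of hnz with rfl | rfl
    · exact Or.inl rfl
    · have h3 := IsSt.trF h'
      have h4 := hneg _ (IsSt.trF h)
      exact absurd (h3.symm.trans h4) h2q
  · rcases nz_of hnz with rfl | rfl
    · have h3 := hneg _ (IsSt.trF h')
      have h4 := IsSt.trF h
      exact absurd (h4.symm.trans h3) h2q
    · exact Or.inl rfl
  · have h3 := IsP.trF h'
    rcases htr with rfl | ⟨-, rfl | rfl⟩ | ⟨h1, -⟩
    · exact Or.inr (Or.inl ⟨rfl, Or.inl rfl⟩)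
    · exact Or.inr (Or.inl ⟨rfl, Or.inr rfl⟩)
    · exact Or.inl rfl
    · exact absurd (h3.symm.trans h1) h2q
  · have h3 := hneg _ (IsP.trF h')
    rcases htr with rfl | ⟨h1, -⟩ | ⟨-, rfl | rfl⟩
    · exact Or.inr (Or.inr ⟨rfl, Or.inl rfl⟩)
    · exact absurd (h1.symm.trans h3) h2q
    · exact Or.inr (Or.inr ⟨rfl, Or.inr rfl⟩)
    · exact Or.inl rfl

end spec

/-- The universal ring of families of unipotent pairs. -/
structure UPkg {O : Type u} [CommRing O] [IsLocalRing O] {Λ : Type v} (γ : Type w)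
    (q : Λ → O) (F₀ N₀ : Λ → Matrix (Fin 2) (Fin 2) O) where
  /-- the ring -/
  R : Type u
  [commRing : CommRing R]
  [isLocalRing : IsLocalRing R]
  [isNoetherianRing : IsNoetherianRing R]
  [isAdicComplete : IsAdicComplete (maximalIdeal R) R]
  /-- structure map -/
  ι : O →+* R
  isLocalHom : IsLocalHom ι
  /-- universal Frobenius -/
  F : Λ → Matrix (Fin 2) (Fin 2) R
  /-- universal monodromy -/
  N : Λ → Matrix (Fin 2) (Fin 2) R
  /-- the variables -/
  x : γ → R
  x_mem : ∀ i, x i ∈ maximalIdeal R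
  uni : ∀ l, IsUni (ι (q l)) (F l) (N l)
  resF : ∀ l i j, F l i j - ι (F₀ l i j) ∈ maximalIdeal R
  resN : ∀ l i j, N l i j - ι (N₀ l i j) ∈ maximalIdeal R
  resSurj : ∀ r : R, ∃ b : O, r - ι b ∈ maximalIdeal R
  gen : maximalIdeal R ≤ (maximalIdeal O).map ι ⊔ Ideal.span
    (Set.range fun p : Λ × Fin 2 × Fin 2 => F p.1 p.2.1 p.2.2 - ι (F₀ p.1 p.2.1 p.2.2)) ⊔
    Ideal.span
    (Set.range fun p : Λ × Fin 2 × Fin 2 => N p.1 p.2.1 p.2.2 - ι (N₀ p.1 p.2.1 p.2.2)) ⊔
    Ideal.span (Set.range x)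
  lift : ∀ {A : Type u} [CommRing A] [IsLocalRing A] [IsAdicComplete (maximalIdeal A) A]
    (φ : O →+* A), IsLocalHom φ → ∀ F' N' : Λ → Matrix (Fin 2) (Fin 2) A,
    (∀ l, IsUni (φ (q l)) (F' l) (N' l)) →
    (∀ l i j, F' l i j - φ (F₀ l i j) ∈ maximalIdeal A) →
    (∀ l i j, N' l i j - φ (N₀ l i j) ∈ maximalIdeal A) →
    ∀ x' : γ → A, (∀ i, x' i ∈ maximalIdeal A) →
    ∃ ψ : R →+* A, IsLocalHom ψ ∧ ψ.comp ι = φ ∧ (∀ l, (F l).map ψ = F' l) ∧
      (∀ l, (N l).map ψ = N' l) ∧ ∀ i, ψ (x i) = x' i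
  uniq : ∀ {A : Type u} [CommRing A] [IsLocalRing A] [IsAdicComplete (maximalIdeal A) A]
    (ψ ψ' : R →+* A), IsLocalHom ψ → IsLocalHom ψ' → ψ.comp ι = ψ'.comp ι →
    (∀ l, (F l).map ψ = (F l).map ψ') → (∀ l, (N l).map ψ = (N l).map ψ') →
    (∀ i, ψ (x i) = ψ' (x i)) → ψ = ψ'

attribute [instance] UPkg.commRing UPkg.isLocalRing UPkg.isNoetherianRing
  UPkg.isAdicComplete

/-- The ideal of type `c`. -/
def UPkg.qI {O : Type u} [CommRing O] [IsLocalRing O] {Λ : Type v} {γ : Type w}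
    {q : Λ → O} {F₀ N₀ : Λ → Matrix (Fin 2) (Fin 2) O} (U : UPkg γ q F₀ N₀) (c : Λ → Ty) :
    Ideal U.R :=
  Ideal.span (⋃ l, (c l).rel (U.ι (q l)) (U.F l) (U.N l))

section

variable {O : Type u} [CommRing O] [IsDomain O] [IsLocalRing O] [IsNoetherianRing O]
  [IsAdicComplete (maximalIdeal O) O] {Λ : Type v} {γ : Type w}
    {q : Λ → O} {F₀ N₀ : Λ → Matrix (Fin 2) (Fin 2) O} (U : UPkg γ q F₀ N₀)

theorem UPkg.qI_le_ker_iff {A : Type*} [CommRing A] (f : U.R →+* A) (c : Λ → Ty) :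
    U.qI c ≤ RingHom.ker f ↔
      ∀ l, (c l).Holds (f (U.ι (q l))) ((U.F l).map f) ((U.N l).map f) := by
  rw [UPkg.qI, Ideal.span_le]
  simp only [Set.iUnion_subset_iff]
  refine forall_congr' fun l => ?_
  rw [Ty.holds_map_iff]
  rfl

variable {U}

/-- comparison with the package of type `c` -/
theorem UPkg.exists_ker_eq {c : Λ → Ty} {d : ℕ} (P : MPkg γ c q F₀ N₀ d) :
    ∃ θ : U.R →+* P.R, IsLocalHom θ ∧ Function.Surjective θ ∧ RingHom.ker θ = U.qI c ∧
      θ.comp U.ι = P.ι ∧ (∀ l, (U.F l).map θ = P.F l) ∧ (∀ l, (U.N l).map θ = P.N l) ∧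
      (∀ i, θ (U.x i) = P.x i) := by
  obtain ⟨θ, h0, h1, h2, h3, h4⟩ := U.lift P.ι P.isLocalHom P.F P.N
    (fun l => (P.holds l).isUni) P.resF P.resN P.x P.x_mem
  have h1' : ∀ b, θ (U.ι b) = P.ι b := fun b => DFunLike.congr_fun h1 b
  have hle : U.qI c ≤ RingHom.ker θ := by
    rw [U.qI_le_ker_iff]
    intro l
    rw [h1', h2, h3]
    exact P.holds l
  -- the quotient ring
  have hne : U.qI c ≠ ⊤ := by
    intro h
    rw [h, top_le_iff] at hle
    have : θ 1 = 0 := by rw [← RingHom.mem_ker, hle]; trivial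
    rw [map_one] at this
    exact one_ne_zero this
  have hnt : Nontrivial (U.R ⧸ U.qI c) := Ideal.Quotient.nontrivial_iff.mpr hne
  have hsurj : Function.Surjective (Ideal.Quotient.mk (U.qI c)) := Ideal.Quotient.mk_surjective
  have hlocq : IsLocalRing (U.R ⧸ U.qI c) := IsLocalRing.of_surjective' _ hsurj
  have hlh : IsLocalHom (Ideal.Quotient.mk (U.qI c)) := IsLocalHom.of_surjective _ hsurj
  have hcomp : IsAdicComplete (maximalIdeal (U.R ⧸ U.qI c)) (U.R ⧸ U.qI c) := by
    have : IsLocalHom (algebraMap U.R (U.R ⧸ U.qI c)) := hlh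
    exact IsLocalRing.isAdicComplete_of_module_finite (𝒪 := U.R)
  set π := Ideal.Quotient.mk (U.qI c) with hπ
  have hιl := U.isLocalHom
  obtain ⟨χ, k0, k1, k2, k3, k4⟩ := P.lift (π.comp U.ι) inferInstance
    (fun l => (U.F l).map π) (fun l => (U.N l).map π)
    (fun l => (U.qI_le_ker_iff π c).mp (by rw [hπ, Ideal.mk_ker]) l)
    (fun l i j => by
      have := mem_of_isLocalHom hlh (U.resF l i j)
      rwa [map_sub] at this)
    (fun l i j => by
      have := mem_of_isLocalHom hlh (U.resN l i j)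
      rwa [map_sub] at this)
    (fun i => π (U.x i)) (fun i => mem_of_isLocalHom hlh (U.x_mem i))
  have k1' : ∀ b, χ (P.ι b) = π (U.ι b) := fun b => DFunLike.congr_fun k1 b
  have hcomp1 : χ.comp θ = π := by
    refine U.uniq _ _ inferInstance inferInstance ?_ (fun l => ?_) (fun l => ?_) (fun i => ?_)
    · rw [RingHom.comp_assoc, h1, k1]
    · rw [← k2 l, ← h2 l]; rfl
    · rw [← k3 l, ← h3 l]; rfl
    · rw [RingHom.comp_apply, h4, k4]
  have hker : RingHom.ker θ ≤ U.qI c := by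
    intro r hr
    rw [RingHom.mem_ker] at hr
    rw [← Ideal.Quotient.eq_zero_iff_mem, ← hπ, ← hcomp1, RingHom.comp_apply, hr, map_zero]
  have hker' : RingHom.ker θ = U.qI c := le_antisymm hker hle
  refine ⟨θ, h0, ?_, hker', h1, h2, h3, h4⟩
  -- surjectivity: the map P.R → R/q → P.R is the identity
  let θ' : (U.R ⧸ U.qI c) →+* P.R := Ideal.Quotient.lift (U.qI c) θ (fun a ha => hle ha)
  have hθ' : ∀ r, θ' (π r) = θ r := fun r => Ideal.Quotient.lift_mk _ _ _
  have hθ'loc : IsLocalHom θ' := by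
    refine isLocalHom_of_mem _ fun r hr => ?_
    obtain ⟨s, rfl⟩ := hsurj r
    rw [hθ']
    refine mem_of_isLocalHom h0 ?_
    rw [mem_maximalIdeal, mem_nonunits_iff] at hr ⊢
    exact fun h => hr (h.map _)
  have hid : θ'.comp χ = RingHom.id P.R := by
    refine P.uniq _ _ inferInstance inferInstance ?_ (fun l => ?_) (fun l => ?_) (fun i => ?_)
    · ext b
      simp only [RingHom.comp_apply, k1', hθ', h1', RingHom.id_apply]
    · ext i j
      have e1 : χ (P.F l i j) = π (U.F l i j) := congrFun (congrFun (k2 l) i) j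
      have e2 : θ (U.F l i j) = P.F l i j := congrFun (congrFun (h2 l) i) j
      simp only [Matrix.map_apply, RingHom.comp_apply, e1, hθ', e2, RingHom.id_apply]
    · ext i j
      have e1 : χ (P.N l i j) = π (U.N l i j) := congrFun (congrFun (k3 l) i) j
      have e2 : θ (U.N l i j) = P.N l i j := congrFun (congrFun (h3 l) i) j
      simp only [Matrix.map_apply, RingHom.comp_apply, e1, hθ', e2, RingHom.id_apply]
    · rw [RingHom.comp_apply, k4, hθ', h4]; rfl
  intro y
  obtain ⟨s, hs⟩ := hsurj (χ y)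
  refine ⟨s, ?_⟩
  rw [← hθ', hs]
  exact DFunLike.congr_fun hid y

end

end Fermat.Agent.LocRing
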