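import Fermat.Agent.LocRing.PS3

/-!
# Smooth charts
-/

set_option autoImplicit false
set_option linter.unusedSectionVars false

open IsLocalRing PowerSeries

namespace Fermat.Agent.LocRing

universe u v

theorem res_iff {A : Type*} [CommRing A] [IsLocalRing A] {x y : A} :
    x - y ∈ maximalIdeal A ↔ residue A x = residue A y := by
  rw [← residue_eq_zero_iff, map_sub, sub_eq_zero]

theorem isUnit_of_res {A : Type*} [CommRing A] [IsLocalRing A] {x y : A}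
    (h : residue A x = residue A y) (hy : IsUnit y) : IsUnit x := by
  rw [← residue_ne_zero_iff_isUnit] at hy ⊢
  rwa [h]

/-- the residual condition, over the residue field -/
def ResHolds (T : Ty) {B : Type u} [CommRing B] [IsLocalRing B] (q : B)
    (F₀ N₀ : Matrix (Fin 2) (Fin 2) B) : Prop :=
  T.Holds (residue B q) (F₀.map (residue B)) (N₀.map (residue B))

theorem ps_ne_of_coeff_one {R : Type*} [CommRing R] {f g : R⟦X⟧} (h : coeff 1 f ≠ coeff 1 g) :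
    f ≠ g := fun h' => h (by rw [h'])

theorem nz_aux1 (B : Type u) [CommRing B] [Nontrivial B] (a b c q s a' : B⟦X⟧⟦X⟧⟦X⟧)
    (a₀ b₀ c₀ q₀ s₀ : B)
    (ha : a = ι3 B a₀ + C (C X)) (hb : b = ι3 B b₀ + C X) (hc : c = ι3 B c₀ + X)
    (hq : q = ι3 B q₀) (hs : s = ι3 B s₀) (haa : a * a' = 1) :
    a + (q + b * c) * a' ≠ s := by
  intro h
  have h1 : a * a + q + b * c = s * a := by
    linear_combination a * h - (q + b * c) * haa
  have h2 := congrArg (coeff 1) h1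
  have e : ∀ x : B⟦X⟧⟦X⟧, coeff 1 (C x : B⟦X⟧⟦X⟧⟦X⟧) = 0 := fun x => by
    rw [coeff_C]; simp
  obtain ⟨p, hp⟩ : ∃ p : B⟦X⟧⟦X⟧, a * a + q = C p :=
    ⟨(ι2 B a₀ + C X) * (ι2 B a₀ + C X) + ι2 B q₀, by rw [ha, hq]; simp [ι3]⟩
  obtain ⟨r, hr⟩ : ∃ r : B⟦X⟧⟦X⟧, s * a = C r :=
    ⟨ι2 B s₀ * (ι2 B a₀ + C X), by rw [ha, hs]; simp [ι3]⟩
  obtain ⟨m, n, hmn, hn⟩ : ∃ m n : B⟦X⟧⟦X⟧, b * c = C m + C n * X ∧ n = ι2 B b₀ + X :=
    ⟨(ι2 B b₀ + X) * ι2 B c₀, ι2 B b₀ + X, by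
      rw [hb, hc]; simp only [ι3, RingHom.comp_apply, map_add, map_mul]; ring, rfl⟩
  rw [hp, hr, hmn, map_add, map_add, e, e, e, coeff_C_mul, coeff_one_X, mul_one, zero_add,
    zero_add, hn] at h2
  have h3 := congrArg (coeff 1) h2
  have e4 : coeff 1 (ι2 B b₀) = 0 := by
    rw [ι2, RingHom.comp_apply, coeff_C]; simp
  rw [map_add, coeff_one_X, map_zero, e4, zero_add] at h3
  exact one_ne_zero h3

theorem nz_aux2 (B : Type u) [CommRing B] [Nontrivial B] (a d s : B⟦X⟧⟦X⟧⟦X⟧)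
    (a₀ d₀ s₀ : B) (ha : a = ι3 B a₀ + C (C X)) (hd : d = ι3 B d₀ + X)
    (hs : s = ι3 B s₀) : a + d ≠ s := by
  intro h
  have h2 := congrArg (coeff 1) h
  have e : ∀ x : B⟦X⟧⟦X⟧, coeff 1 (C x : B⟦X⟧⟦X⟧⟦X⟧) = 0 := fun x => by
    rw [coeff_C]; simp
  obtain ⟨p, hp⟩ : ∃ p : B⟦X⟧⟦X⟧, a + d = C p + X := ⟨ι2 B a₀ + C X + ι2 B d₀, by
    rw [ha, hd]; simp only [ι3, RingHom.comp_apply, map_add]; ring⟩
  have e2 : s = C (ι2 B s₀) := by rw [hs]; rfl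
  rw [hp, e2, map_add, e, e, coeff_one_X, zero_add] at h2
  exact one_ne_zero h2

/-! ### unramified charts -/

section unr

variable {B : Type u} [CommRing B] [IsDomain B] [IsLocalRing B] [IsNoetherianRing B]
  [IsAdicComplete (maximalIdeal B) B] {q : B} {F₀ N₀ : Matrix (Fin 2) (Fin 2) B}

theorem unr_res (h : ResHolds .unr q F₀ N₀) :
    residue B (F₀ 0 0) * residue B (F₀ 1 1) - residue B (F₀ 0 1) * residue B (F₀ 1 0) =
      residue B q ∧ ∀ i j, residue B (N₀ i j) = 0 := by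
  have h' : IsUnr (residue B q) (F₀.map (residue B)) (N₀.map (residue B)) := h
  refine ⟨?_, fun i j => ?_⟩
  · have := h'.detF
    rw [Matrix.det_fin_two] at this
    simpa using this
  · have := congrFun (congrFun h'.N0 i) j
    simpa using this

theorem unr_chart1 (h : ResHolds .unr q F₀ N₀) (hu : IsUnit (F₀ 0 0)) :
    Nonempty (LocPkg .unr B q F₀ N₀ 3) := by
  obtain ⟨hdet, hN₀⟩ := unr_res h
  set ι := ι3 B with hι
  have hιloc : IsLocalHom ι := ι3_local B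
  set x₁ : PS3 B := C (C X) with hx₁
  set x₂ : PS3 B := C X with hx₂
  set x₃ : PS3 B := X with hx₃
  have hm1 : x₁ ∈ maximalIdeal (PS3 B) := C_mem (C_mem X_mem_maximalIdeal)
  have hm2 : x₂ ∈ maximalIdeal (PS3 B) := C_mem X_mem_maximalIdeal
  have hm3 : x₃ ∈ maximalIdeal (PS3 B) := X_mem_maximalIdeal
  have hr1 : residue (PS3 B) x₁ = 0 := (residue_eq_zero_iff _).mpr hm1
  have hr2 : residue (PS3 B) x₂ = 0 := (residue_eq_zero_iff _).mpr hm2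
  have hr3 : residue (PS3 B) x₃ = 0 := (residue_eq_zero_iff _).mpr hm3
  have hunit : IsUnit (ι (F₀ 0 0) + x₁) :=
    isUnit_of_res (y := ι (F₀ 0 0)) (by rw [map_add, hr1, add_zero]) (hu.map ι)
  obtain ⟨a', ha'⟩ := isUnit_iff_exists_inv.mp hunit
  have hdet' : residue (PS3 B) (ι (F₀ 0 0)) * residue (PS3 B) (ι (F₀ 1 1)) -
      residue (PS3 B) (ι (F₀ 0 1)) * residue (PS3 B) (ι (F₀ 1 0)) = residue (PS3 B) (ι q) := by
    have h1 := congrArg (ResidueField.map ι) hdet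
    simpa only [map_sub, map_mul, ResidueField.map_residue] using h1
  have hN₀' : ∀ i j, ι (N₀ i j) ∈ maximalIdeal (PS3 B) := fun i j =>
    ι3_mem ((residue_eq_zero_iff _).mp (hN₀ i j))
  let F : Matrix (Fin 2) (Fin 2) (PS3 B) :=
    !![ι (F₀ 0 0) + x₁, ι (F₀ 0 1) + x₂; ι (F₀ 1 0) + x₃,
      (ι q + (ι (F₀ 0 1) + x₂) * (ι (F₀ 1 0) + x₃)) * a']
  have hgenmem : ∀ i j, F i j - ι (F₀ i j) ∈ (maximalIdeal B).map ι ⊔ Ideal.span
    (Set.range fun p : Fin 2 × Fin 2 => F p.1 p.2 - ι (F₀ p.1 p.2)) ⊔ Ideal.span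
    (Set.range fun p : Fin 2 × Fin 2 => (0 : Matrix (Fin 2) (Fin 2) (PS3 B)) p.1 p.2
      - ι (N₀ p.1 p.2)) := fun i j =>
    Ideal.mem_sup_left (Ideal.mem_sup_right (Ideal.subset_span ⟨(i, j), rfl⟩))
  have hnz : Ty.NZ .unr (ι q) F 0 := by
    refine ⟨?_, ?_⟩
    · rw [Matrix.trace_fin_two]
      exact nz_aux1 B (ι (F₀ 0 0) + x₁) (ι (F₀ 0 1) + x₂) (ι (F₀ 1 0) + x₃) (ι q) (ι q + 1) a'
        (F₀ 0 0) (F₀ 0 1) (F₀ 1 0) q (q + 1) rfl rfl rfl rfl (by rw [map_add, map_one]) ha'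
    · rw [Matrix.trace_fin_two]
      exact nz_aux1 B (ι (F₀ 0 0) + x₁) (ι (F₀ 0 1) + x₂) (ι (F₀ 1 0) + x₃) (ι q) (-(ι q + 1)) a'
        (F₀ 0 0) (F₀ 0 1) (F₀ 1 0) q (-(q + 1)) rfl rfl rfl rfl
        (by rw [map_neg, map_add, map_one]) ha'
  refine ⟨mk3 .unr q F₀ N₀ F 0 ⟨?_, rfl⟩ hnz ?_ ?_ ?_ ?_ ?_⟩
  · rw [Matrix.det_fin_two]
    change (ι (F₀ 0 0) + x₁) * ((ι q + (ι (F₀ 0 1) + x₂) * (ι (F₀ 1 0) + x₃)) * a') -
      (ι (F₀ 0 1) + x₂) * (ι (F₀ 1 0) + x₃) = ι q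
    linear_combination (ι q + (ι (F₀ 0 1) + x₂) * (ι (F₀ 1 0) + x₃)) * ha'
  · intro i j
    fin_cases i <;> fin_cases j
    · change ι (F₀ 0 0) + x₁ - ι (F₀ 0 0) ∈ _
      rwa [add_sub_cancel_left]
    · change ι (F₀ 0 1) + x₂ - ι (F₀ 0 1) ∈ _
      rwa [add_sub_cancel_left]
    · change ι (F₀ 1 0) + x₃ - ι (F₀ 1 0) ∈ _
      rwa [add_sub_cancel_left]
    · change (ι q + (ι (F₀ 0 1) + x₂) * (ι (F₀ 1 0) + x₃)) * a' - ι (F₀ 1 1) ∈ _
      rw [res_iff]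
      have ha'' := congrArg (residue (PS3 B)) ha'
      rw [map_mul, map_add, hr1, add_zero, map_one] at ha''
      simp only [map_mul, map_add, hr2, hr3, add_zero]
      linear_combination (-residue (PS3 B) a') * hdet' + residue (PS3 B) (ι (F₀ 1 1)) * ha''
  · intro i j
    rw [Matrix.zero_apply, zero_sub]
    exact neg_mem (hN₀' i j)
  · rw [Ideal.span_le]
    rintro y (rfl | rfl | hy)
    · have := hgenmem 0 0
      change ι (F₀ 0 0) + x₁ - ι (F₀ 0 0) ∈ _ at this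
      rwa [add_sub_cancel_left] at this
    · have := hgenmem 0 1
      change ι (F₀ 0 1) + x₂ - ι (F₀ 0 1) ∈ _ at this
      rwa [add_sub_cancel_left] at this
    · rw [Set.mem_singleton_iff] at hy
      subst hy
      have := hgenmem 1 0
      change ι (F₀ 1 0) + x₃ - ι (F₀ 1 0) ∈ _ at this
      rwa [add_sub_cancel_left] at this
  · intro A _ _ _ φ hφ F' N' hT hF hN
    have hT' : IsUnr (φ q) F' N' := hT
    refine ⟨F' 0 0 - φ (F₀ 0 0), F' 0 1 - φ (F₀ 0 1), F' 1 0 - φ (F₀ 1 0), hF 0 0, hF 0 1,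
      hF 1 0, ?_, ?_⟩
    · set ψ := lift3 φ (F' 0 0 - φ (F₀ 0 0)) (F' 0 1 - φ (F₀ 0 1)) (F' 1 0 - φ (F₀ 1 0)) (hF 0 0)
        (hF 0 1) (hF 1 0) with hψ
      have e0 : ∀ b, ψ (ι b) = φ b := fun b => lift3_ι _ _ _ _ _ _ _ b
      have e1 : ψ x₁ = F' 0 0 - φ (F₀ 0 0) := lift3_X₁ _ _ _ _ _ _ _
      have e2 : ψ x₂ = F' 0 1 - φ (F₀ 0 1) := lift3_X₂ _ _ _ _ _ _ _
      have e3 : ψ x₃ = F' 1 0 - φ (F₀ 1 0) := lift3_X₃ _ _ _ _ _ _ _
      have ha'' := congrArg ψ ha'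
      rw [map_mul, map_add, e0, e1, add_sub_cancel, map_one] at ha''
      have hdet2 := hT'.detF
      rw [Matrix.det_fin_two] at hdet2
      ext i j
      fin_cases i <;> fin_cases j
      · change ψ (ι (F₀ 0 0) + x₁) = F' 0 0
        rw [map_add, e0, e1, add_sub_cancel]
      · change ψ (ι (F₀ 0 1) + x₂) = F' 0 1
        rw [map_add, e0, e2, add_sub_cancel]
      · change ψ (ι (F₀ 1 0) + x₃) = F' 1 0
        rw [map_add, e0, e3, add_sub_cancel]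
      · change ψ ((ι q + (ι (F₀ 0 1) + x₂) * (ι (F₀ 1 0) + x₃)) * a') = F' 1 1
        simp only [map_mul, map_add, e0, e2, e3, add_sub_cancel]
        linear_combination F' 1 1 * ha'' - ψ a' * hdet2
    · rw [hT'.N0]
      ext i j
      simp
  · intro A _ _ ψ ψ' hψ hψ' h0 h1 h2
    have h0' : ∀ b, ψ (ι b) = ψ' (ι b) := fun b => DFunLike.congr_fun h0 b
    refine ⟨?_, ?_, ?_⟩
    · have h3 : ψ (ι (F₀ 0 0) + x₁) = ψ' (ι (F₀ 0 0) + x₁) := congrFun (congrFun h1 0) 0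
      rw [map_add, map_add, h0'] at h3
      exact add_left_cancel h3
    · have h3 : ψ (ι (F₀ 0 1) + x₂) = ψ' (ι (F₀ 0 1) + x₂) := congrFun (congrFun h1 0) 1
      rw [map_add, map_add, h0'] at h3
      exact add_left_cancel h3
    · have h3 : ψ (ι (F₀ 1 0) + x₃) = ψ' (ι (F₀ 1 0) + x₃) := congrFun (congrFun h1 1) 0
      rw [map_add, map_add, h0'] at h3
      exact add_left_cancel h3

theorem unr_chart2 (h : ResHolds .unr q F₀ N₀) (hu : IsUnit (F₀ 0 1)) :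
    Nonempty (LocPkg .unr B q F₀ N₀ 3) := by
  obtain ⟨hdet, hN₀⟩ := unr_res h
  set ι := ι3 B with hι
  have hιloc : IsLocalHom ι := ι3_local B
  set x₁ : PS3 B := C (C X) with hx₁
  set x₂ : PS3 B := C X with hx₂
  set x₃ : PS3 B := X with hx₃
  have hm1 : x₁ ∈ maximalIdeal (PS3 B) := C_mem (C_mem X_mem_maximalIdeal)
  have hm2 : x₂ ∈ maximalIdeal (PS3 B) := C_mem X_mem_maximalIdeal
  have hm3 : x₃ ∈ maximalIdeal (PS3 B) := X_mem_maximalIdeal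
  have hr1 : residue (PS3 B) x₁ = 0 := (residue_eq_zero_iff _).mpr hm1
  have hr2 : residue (PS3 B) x₂ = 0 := (residue_eq_zero_iff _).mpr hm2
  have hr3 : residue (PS3 B) x₃ = 0 := (residue_eq_zero_iff _).mpr hm3
  have hunit : IsUnit (ι (F₀ 0 1) + x₂) :=
    isUnit_of_res (y := ι (F₀ 0 1)) (by rw [map_add, hr2, add_zero]) (hu.map ι)
  obtain ⟨a', ha'⟩ := isUnit_iff_exists_inv.mp hunit
  have hdet' : residue (PS3 B) (ι (F₀ 0 0)) * residue (PS3 B) (ι (F₀ 1 1)) -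
      residue (PS3 B) (ι (F₀ 0 1)) * residue (PS3 B) (ι (F₀ 1 0)) = residue (PS3 B) (ι q) := by
    have h1 := congrArg (ResidueField.map ι) hdet
    simpa only [map_sub, map_mul, ResidueField.map_residue] using h1
  have hN₀' : ∀ i j, ι (N₀ i j) ∈ maximalIdeal (PS3 B) := fun i j =>
    ι3_mem ((residue_eq_zero_iff _).mp (hN₀ i j))
  let F : Matrix (Fin 2) (Fin 2) (PS3 B) :=
    !![ι (F₀ 0 0) + x₁, ι (F₀ 0 1) + x₂;
      ((ι (F₀ 0 0) + x₁) * (ι (F₀ 1 1) + x₃) - ι q) * a', ι (F₀ 1 1) + x₃]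
  have hgenmem : ∀ i j, F i j - ι (F₀ i j) ∈ (maximalIdeal B).map ι ⊔ Ideal.span
    (Set.range fun p : Fin 2 × Fin 2 => F p.1 p.2 - ι (F₀ p.1 p.2)) ⊔ Ideal.span
    (Set.range fun p : Fin 2 × Fin 2 => (0 : Matrix (Fin 2) (Fin 2) (PS3 B)) p.1 p.2
      - ι (N₀ p.1 p.2)) := fun i j =>
    Ideal.mem_sup_left (Ideal.mem_sup_right (Ideal.subset_span ⟨(i, j), rfl⟩))
  have hnz : Ty.NZ .unr (ι q) F 0 := by
    refine ⟨?_, ?_⟩
    · rw [Matrix.trace_fin_two]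
      exact nz_aux2 B (ι (F₀ 0 0) + x₁) (ι (F₀ 1 1) + x₃) (ι q + 1)
        (F₀ 0 0) (F₀ 1 1) (q + 1) rfl rfl (by rw [map_add, map_one])
    · rw [Matrix.trace_fin_two]
      exact nz_aux2 B (ι (F₀ 0 0) + x₁) (ι (F₀ 1 1) + x₃) (-(ι q + 1))
        (F₀ 0 0) (F₀ 1 1) (-(q + 1)) rfl rfl (by rw [map_neg, map_add, map_one])
  refine ⟨mk3 .unr q F₀ N₀ F 0 ⟨?_, rfl⟩ hnz ?_ ?_ ?_ ?_ ?_⟩
  · rw [Matrix.det_fin_two]
    change (ι (F₀ 0 0) + x₁) * (ι (F₀ 1 1) + x₃) -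
      (ι (F₀ 0 1) + x₂) * (((ι (F₀ 0 0) + x₁) * (ι (F₀ 1 1) + x₃) - ι q) * a') = ι q
    linear_combination (-((ι (F₀ 0 0) + x₁) * (ι (F₀ 1 1) + x₃) - ι q)) * ha'
  · intro i j
    fin_cases i <;> fin_cases j
    · change ι (F₀ 0 0) + x₁ - ι (F₀ 0 0) ∈ _
      rwa [add_sub_cancel_left]
    · change ι (F₀ 0 1) + x₂ - ι (F₀ 0 1) ∈ _
      rwa [add_sub_cancel_left]
    · change ((ι (F₀ 0 0) + x₁) * (ι (F₀ 1 1) + x₃) - ι q) * a' - ι (F₀ 1 0) ∈ _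
      rw [res_iff]
      have ha'' := congrArg (residue (PS3 B)) ha'
      rw [map_mul, map_add, hr2, add_zero, map_one] at ha''
      simp only [map_mul, map_add, map_sub, hr1, hr3, add_zero]
      linear_combination (residue (PS3 B) a') * hdet' + residue (PS3 B) (ι (F₀ 1 0)) * ha''
    · change ι (F₀ 1 1) + x₃ - ι (F₀ 1 1) ∈ _
      rwa [add_sub_cancel_left]
  · intro i j
    rw [Matrix.zero_apply, zero_sub]
    exact neg_mem (hN₀' i j)
  · rw [Ideal.span_le]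
    rintro y (rfl | rfl | hy)
    · have := hgenmem 0 0
      change ι (F₀ 0 0) + x₁ - ι (F₀ 0 0) ∈ _ at this
      rwa [add_sub_cancel_left] at this
    · have := hgenmem 0 1
      change ι (F₀ 0 1) + x₂ - ι (F₀ 0 1) ∈ _ at this
      rwa [add_sub_cancel_left] at this
    · rw [Set.mem_singleton_iff] at hy
      subst hy
      have := hgenmem 1 1
      change ι (F₀ 1 1) + x₃ - ι (F₀ 1 1) ∈ _ at this
      rwa [add_sub_cancel_left] at this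
  · intro A _ _ _ φ hφ F' N' hT hF hN
    have hT' : IsUnr (φ q) F' N' := hT
    refine ⟨F' 0 0 - φ (F₀ 0 0), F' 0 1 - φ (F₀ 0 1), F' 1 1 - φ (F₀ 1 1), hF 0 0, hF 0 1,
      hF 1 1, ?_, ?_⟩
    · set ψ := lift3 φ (F' 0 0 - φ (F₀ 0 0)) (F' 0 1 - φ (F₀ 0 1)) (F' 1 1 - φ (F₀ 1 1)) (hF 0 0)
        (hF 0 1) (hF 1 1) with hψ
      have e0 : ∀ b, ψ (ι b) = φ b := fun b => lift3_ι _ _ _ _ _ _ _ b
      have e1 : ψ x₁ = F' 0 0 - φ (F₀ 0 0) := lift3_X₁ _ _ _ _ _ _ _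
      have e2 : ψ x₂ = F' 0 1 - φ (F₀ 0 1) := lift3_X₂ _ _ _ _ _ _ _
      have e3 : ψ x₃ = F' 1 1 - φ (F₀ 1 1) := lift3_X₃ _ _ _ _ _ _ _
      have ha'' := congrArg ψ ha'
      rw [map_mul, map_add, e0, e2, add_sub_cancel, map_one] at ha''
      have hdet2 := hT'.detF
      rw [Matrix.det_fin_two] at hdet2
      ext i j
      fin_cases i <;> fin_cases j
      · change ψ (ι (F₀ 0 0) + x₁) = F' 0 0
        rw [map_add, e0, e1, add_sub_cancel]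
      · change ψ (ι (F₀ 0 1) + x₂) = F' 0 1
        rw [map_add, e0, e2, add_sub_cancel]
      · change ψ (((ι (F₀ 0 0) + x₁) * (ι (F₀ 1 1) + x₃) - ι q) * a') = F' 1 0
        simp only [map_mul, map_add, map_sub, e0, e1, e3, add_sub_cancel]
        linear_combination F' 1 0 * ha'' + ψ a' * hdet2
      · change ψ (ι (F₀ 1 1) + x₃) = F' 1 1
        rw [map_add, e0, e3, add_sub_cancel]
    · rw [hT'.N0]
      ext i j
      simp
  · intro A _ _ ψ ψ' hψ hψ' h0 h1 h2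
    have h0' : ∀ b, ψ (ι b) = ψ' (ι b) := fun b => DFunLike.congr_fun h0 b
    refine ⟨?_, ?_, ?_⟩
    · have h3 : ψ (ι (F₀ 0 0) + x₁) = ψ' (ι (F₀ 0 0) + x₁) := congrFun (congrFun h1 0) 0
      rw [map_add, map_add, h0'] at h3
      exact add_left_cancel h3
    · have h3 : ψ (ι (F₀ 0 1) + x₂) = ψ' (ι (F₀ 0 1) + x₂) := congrFun (congrFun h1 0) 1
      rw [map_add, map_add, h0'] at h3
      exact add_left_cancel h3
    · have h3 : ψ (ι (F₀ 1 1) + x₃) = ψ' (ι (F₀ 1 1) + x₃) := congrFun (congrFun h1 1) 1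
      rw [map_add, map_add, h0'] at h3
      exact add_left_cancel h3

/-- The unramified package always exists. -/
theorem unr_pkg (hq : IsUnit q) (h : ResHolds .unr q F₀ N₀) :
    Nonempty (LocPkg .unr B q F₀ N₀ 3) := by
  by_cases h0 : IsUnit (F₀ 0 0)
  · exact unr_chart1 h h0
  · by_cases h1 : IsUnit (F₀ 0 1)
    · exact unr_chart2 h h1
    · exfalso
      obtain ⟨hdet, -⟩ := unr_res h
      rw [← residue_ne_zero_iff_isUnit, not_not] at h0 h1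
      rw [← residue_ne_zero_iff_isUnit] at hq
      apply hq
      rw [← hdet, h0, h1]
      ring

end unr

end Fermat.Agent.LocRing
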