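import Fermat.Agent.LocRing.Family

/-!
# The components cover the unipotent ring
-/

set_option autoImplicit false
set_option linter.unusedSectionVars false

open IsLocalRing

namespace Fermat.Agent.LocRing

universe u v w

section cover

variable {A : Type*} [CommRing A] [IsDomain A] {q : A} {F N : Matrix (Fin 2) (Fin 2) A}

theorem IsUni.sw' {A : Type*} [CommRing A] {q : A} {F N : Matrix (Fin 2) (Fin 2) A}
    (h : IsUni q F N) : IsUni q (sw F) (sw N) where
  detF := by rw [sw_det, h.detF]
  FN := by rw [← sw_mul, h.FN, sw_smul, sw_mul]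
  NN := by rw [← sw_mul, h.NN, sw_zero]
  trN := by rw [sw_trace, h.trN]
  detN := by rw [sw_det, h.detN]

theorem IsUni.cover_aux (hq : q ≠ 0) (h : IsUni q F N) (hb : N 0 1 ≠ 0) :
    IsSt q F N ∨ IsSt q (-F) N := by
  have htr := h.trN
  rw [Matrix.trace_fin_two] at htr
  have hdn := h.detN
  rw [Matrix.det_fin_two] at hdn
  have hd := h.detF
  rw [Matrix.det_fin_two] at hd
  have e := fun i j => congrFun (congrFun h.FN i) j
  simp only [Matrix.mul_apply, Fin.sum_univ_two, Matrix.smul_apply, smul_eq_mul] at e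
  have e00 := e 0 0
  have e01 := e 0 1
  have e10 := e 1 0
  have e11 := e 1 1
  have hN : N 1 1 = -N 0 0 := by linear_combination htr
  rw [hN] at hdn e01 e10 e11
  set a := N 0 0
  set b := N 0 1
  set c := N 1 0
  -- (N F) N = 0
  have hNFN : N * F * N = 0 := by
    rw [mul_assoc, h.FN, mul_smul_comm, ← mul_assoc, h.NN, zero_mul, smul_zero]
  have g := fun i j => congrFun (congrFun hNFN i) j
  simp only [Matrix.mul_apply, Fin.sum_univ_two, Matrix.zero_apply] at g
  have g01 := g 0 1
  have g11 := g 1 1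
  rw [hN] at g01 g11
  -- NF row 0 = (r, s), with r b = s a
  set r := a * F 0 0 + b * F 1 0 with hr
  set s := a * F 0 1 + b * F 1 1 with hs
  have k1 : r * b = s * a := by linear_combination g01
  set r' := c * F 0 0 + -a * F 1 0 with hr'
  set s' := c * F 0 1 + -a * F 1 1 with hs'
  have k2 : r' * b = s' * a := by linear_combination g11
  -- row 1 of N is (-a / b) times row 0
  have hc : c * b = -(a * a) := by linear_combination -hdn
  have k3 : s' * b = -(a * s) := by
    rw [hs', hs]; linear_combination F 0 1 * hc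
  have k4 : r' * b = -(a * r) := by
    rw [hr', hr]; linear_combination F 0 0 * hc
  -- F N = q N F: (0,1) entry
  have m01 : F 0 0 * b + F 0 1 * -a = q * s := by rw [hs]; linear_combination e01
  have m11 : F 1 0 * b + F 1 1 * -a = q * s' := by rw [hs']; linear_combination e11
  -- trace: (F00 + F11) b = q s + s
  have t1 : (F 0 0 + F 1 1) * b = q * s + s := by
    rw [hs] at m01 ⊢; linear_combination m01
  -- s^2 = b^2
  have t2 : q * (s * s) = q * (b * b) := by
    have h1 : s * (q * s) = (F 0 0 * F 1 1 - F 0 1 * F 1 0) * (b * b) := by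
      rw [← m01, hs]
      have k1' : (a * F 0 0 + b * F 1 0) * b = (a * F 0 1 + b * F 1 1) * a := by
        rw [← hr, ← hs]; exact k1
      linear_combination F 0 1 * k1'
    rw [hd] at h1
    linear_combination h1
  have t3 := mul_left_cancel₀ hq t2
  have t4 : (s - b) * (s + b) = 0 := by linear_combination t3
  have finish : ∀ ε : A, ε * ε = 1 → s = ε * b →
      (F 0 0 + F 1 1 = ε * (q + 1)) ∧ N * F = ε • N := by
    intro ε hε hsε
    constructor
    · apply mul_right_cancel₀ hb
      rw [t1, hsε]; ring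
    · ext i j
      rw [Matrix.mul_apply, Fin.sum_univ_two, Matrix.smul_apply, smul_eq_mul]
      match i, j with
      | 0, 0 =>
        change r = ε * a
        apply mul_right_cancel₀ hb
        rw [k1, hsε]; ring
      | 0, 1 => exact hsε
      | 1, 0 =>
        rw [hN]
        change r' = ε * c
        apply mul_right_cancel₀ hb
        have k5 : r * b = ε * b * a := by rw [k1, hsε]
        have k6 : (r' * b) * b = (ε * c * b) * b := by
          rw [k4]; linear_combination (-a) * k5 - ε * b * hc
        exact mul_right_cancel₀ hb k6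
      | 1, 1 =>
        rw [hN]
        change s' = ε * -a
        apply mul_right_cancel₀ hb
        rw [k3, hsε]; ring
  rcases mul_eq_zero.mp t4 with h1 | h1
  · left
    obtain ⟨f1, f2⟩ := finish 1 (one_mul 1) (by linear_combination h1)
    rw [one_smul] at f2
    refine ⟨?_, h.detF, h.trN, h.detN, ?_, f2⟩
    · rw [Matrix.trace_fin_two, f1, one_mul]
    · rw [h.FN, f2]
  · right
    obtain ⟨f1, f2⟩ := finish (-1) (by ring) (by linear_combination h1)
    refine ⟨?_, ?_, h.trN, h.detN, ?_, ?_⟩
    · rw [Matrix.trace_neg, Matrix.trace_fin_two, f1]; ring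
    · rw [Matrix.det_neg]
      simpa using h.detF
    · rw [neg_mul, h.FN, f2]; simp
    · rw [mul_neg, f2]; simp

/-- Every unipotent pair over a domain has one of the three types. -/
theorem IsUni.cover (hq : q ≠ 0) (h : IsUni q F N) :
    IsUnr q F N ∨ IsSt q F N ∨ IsSt q (-F) N := by
  by_cases hN : N = 0
  · exact Or.inl ⟨h.detF, hN⟩
  right
  by_cases hb : N 0 1 = 0
  · by_cases hc : N 1 0 = 0
    · exfalso
      apply hN
      have htr := h.trN
      rw [Matrix.trace_fin_two] at htr
      have hdn := h.detN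
      rw [Matrix.det_fin_two, hb, hc, mul_zero, sub_zero] at hdn
      have h1 : N 1 1 = -N 0 0 := by linear_combination htr
      rw [h1] at hdn
      have h2 : N 0 0 * N 0 0 = 0 := by linear_combination -hdn
      have h3 : N 0 0 = 0 := mul_self_eq_zero.mp h2
      ext i j
      match i, j with
      | 0, 0 => exact h3
      | 0, 1 => exact hb
      | 1, 0 => exact hc
      | 1, 1 => rw [h1, h3, neg_zero]; rfl
    · have h1 := h.sw'.cover_aux hq (by exact hc)
      rcases h1 with h1 | h1
      · left
        have := h1.sw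
        rwa [sw_sw, sw_sw] at this
      · right
        have := h1.sw
        rwa [← sw_neg, sw_sw, sw_sw] at this
  · exact h.cover_aux hq hb

end cover

/-- the types that give components -/
def Ty.IsComp (T : Ty) : Prop := T = .unr ∨ T = .stp ∨ T = .stm

theorem Ty.IsComp.dim {T : Ty} (h : T.IsComp) : T.dim = 3 := by
  rcases h with rfl | rfl | rfl <;> rfl

/-- For component types, specialization is equality. -/
theorem Ty.IsComp.spec_iff {T T' : Ty} (hT : T'.IsComp) : T'.Spec T ↔ T' = T := by
  constructor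
  · rintro (h | ⟨rfl, -⟩ | ⟨rfl, -⟩)
    · exact h
    · rcases hT with h | h | h <;> exact absurd h (by decide)
    · rcases hT with h | h | h <;> exact absurd h (by decide)
  · exact fun h => Or.inl h

section

variable {O : Type u} [CommRing O] [IsDomain O] [IsLocalRing O] [IsNoetherianRing O]
  [IsAdicComplete (maximalIdeal O) O] {Λ γ : Type}
  {q : Λ → O} {F₀ N₀ : Λ → Matrix (Fin 2) (Fin 2) O} (U : UPkg γ q F₀ N₀)

theorem Ty.Holds.of_injective {A A' : Type*} [CommRing A] [CommRing A'] {f : A →+* A'}
    (hf : Function.Injective f) {T : Ty} {q : A} {F N : Matrix (Fin 2) (Fin 2) A}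
    (h : T.Holds (f q) (F.map f) (N.map f)) : T.Holds q F N := by
  have h1 := (Ty.holds_map_iff f T).mp h
  have h2 := (Ty.holds_map_iff (q := q) (F := F) (N := N) (RingHom.id A) T).mpr
    fun r hr => hf ((h1 r hr).trans (map_zero f).symm)
  exact h2

/-- Every prime of the unipotent ring contains the ideal of a component. -/
theorem UPkg.exists_qI_le (hq : ∀ l, IsUnit (q l)) (p : Ideal U.R) (hp : p.IsPrime) :
    ∃ c : Λ → Ty, (∀ l, (c l).IsComp) ∧ (∀ l, ResHolds (c l) (q l) (F₀ l) (N₀ l)) ∧
      U.qI c ≤ p := by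
  set π := Ideal.Quotient.mk p with hπ
  have key : ∀ l, ∃ T : Ty, T.IsComp ∧ T.Holds (π (U.ι (q l))) ((U.F l).map π)
      ((U.N l).map π) := by
    intro l
    have h1 := (U.uni l).map π
    have h2 : π (U.ι (q l)) ≠ 0 := (((hq l).map U.ι).map π).ne_zero
    rcases h1.cover h2 with h | h | h
    · exact ⟨.unr, Or.inl rfl, h⟩
    · exact ⟨.stp, Or.inr (Or.inl rfl), h⟩
    · exact ⟨.stm, Or.inr (Or.inr rfl), h⟩
  choose c hc1 hc2 using key
  have hle : U.qI c ≤ p := by
    have := (U.qI_le_ker_iff π c).mpr hc2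
    rwa [hπ, Ideal.mk_ker] at this
  refine ⟨c, hc1, fun l => ?_, hle⟩
  have hmax : p ≤ maximalIdeal U.R := IsLocalRing.le_maximalIdeal hp.ne_top
  have h3 := (U.qI_le_ker_iff (residue U.R) c).mp (by
    intro r hr
    rw [RingHom.mem_ker, residue_eq_zero_iff]
    exact hmax (hle hr)) l
  have hι := U.isLocalHom
  refine Ty.Holds.of_injective (f := ResidueField.map U.ι) (RingHom.injective _) ?_
  have e1 : ((F₀ l).map (residue O)).map (ResidueField.map U.ι) = (U.F l).map (residue U.R) := by
    ext i j
    simp only [Matrix.map_apply, ResidueField.map_residue]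
    exact (res_iff.mp (U.resF l i j)).symm
  have e2 : ((N₀ l).map (residue O)).map (ResidueField.map U.ι) = (U.N l).map (residue U.R) := by
    ext i j
    simp only [Matrix.map_apply, ResidueField.map_residue]
    exact (res_iff.mp (U.resN l i j)).symm
  rw [ResidueField.map_residue, e1, e2]
  exact h3

/-- The intersection of the component ideals consists of nilpotent elements. -/
theorem UPkg.isNilpotent_of_mem (hq : ∀ l, IsUnit (q l)) (r : U.R)
    (hr : ∀ c : Λ → Ty, (∀ l, (c l).IsComp) → (∀ l, ResHolds (c l) (q l) (F₀ l) (N₀ l)) →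
      r ∈ U.qI c) : IsNilpotent r := by
  rw [← mem_nilradical, nilradical_eq_sInf, Ideal.mem_sInf]
  intro p hp
  obtain ⟨c, h1, h2, h3⟩ := U.exists_qI_le hq p hp
  exact h3 (hr c h1 h2)

theorem DimLE.dvr {O : Type u} [CommRing O] [IsDomain O] [IsDiscreteValuationRing O] :
    DimLE O 1 := by
  obtain ⟨ϖ, hϖ⟩ := IsDiscreteValuationRing.exists_irreducible O
  refine ⟨fun _ => ϖ, fun _ => ?_, 1, ?_⟩
  · rw [hϖ.maximalIdeal_eq]; exact Ideal.mem_span_singleton_self ϖ
  · rw [pow_one, hϖ.maximalIdeal_eq]
    exact Ideal.span_mono (by rintro _ rfl; exact ⟨0, rfl⟩)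

theorem UPkg.finite_residueField [Finite (ResidueField O)] : Finite (ResidueField U.R) := by
  have hι := U.isLocalHom
  refine Finite.of_surjective (ResidueField.map U.ι) fun x => ?_
  obtain ⟨r, rfl⟩ := residue_surjective x
  obtain ⟨b, hb⟩ := U.resSurj r
  refine ⟨residue O b, ?_⟩
  rw [ResidueField.map_residue]
  exact (res_iff.mp hb).symm

end

section comps

variable {O : Type u} [CommRing O] [IsDomain O] [IsDiscreteValuationRing O]
  [IsAdicComplete (maximalIdeal O) O] {Λ γ : Type} [Fintype Λ] [Fintype γ]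
  {q : Λ → O} {F₀ N₀ : Λ → Matrix (Fin 2) (Fin 2) O} (U : UPkg γ q F₀ N₀)

/-- The index set of the components. -/
def CompIdx (q : Λ → O) (F₀ N₀ : Λ → Matrix (Fin 2) (Fin 2) O) : Type :=
  {c : Λ → Ty // (∀ l, (c l).IsComp) ∧ ∀ l, ResHolds (c l) (q l) (F₀ l) (N₀ l)}

instance : Finite (CompIdx q F₀ N₀) := by
  classical
  exact Subtype.finite

/-- Dimension of the components, over a DVR. -/
theorem UPkg.dim_le (hq : ∀ l, IsUnit (q l)) (c : CompIdx q F₀ N₀) :
    ringKrullDim (U.R ⧸ U.qI c.1) ≤
      ((Fintype.card γ + 3 * Fintype.card Λ + 1 : ℕ) : WithBot ℕ∞) := by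
  have h := (U.component hq c.1 c.2.2).2.2.1 1 DimLE.dvr
  have e : ∑ l, (c.1 l).dim = 3 * Fintype.card Λ := by
    rw [Finset.sum_congr rfl fun l _ => (c.2.1 l).dim]
    simp [mul_comm]
  rw [e] at h
  refine h.trans (le_of_eq ?_)
  congr 1
  ring

/-- Dimension of the strata of types with one intersection type: `q c'` has dimension one less. -/
theorem UPkg.dim_le' (hq : ∀ l, IsUnit (q l)) (c : Λ → Ty)
    (hc : ∀ l, ResHolds (c l) (q l) (F₀ l) (N₀ l)) :
    ringKrullDim (U.R ⧸ U.qI c) ≤
      ((Fintype.card γ + ∑ l, (c l).dim + 1 : ℕ) : WithBot ℕ∞) := by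
  have h := (U.component hq c hc).2.2.1 1 DimLE.dvr
  refine h.trans (le_of_eq ?_)
  congr 1
  ring

end comps

end Fermat.Agent.LocRing
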