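import Fermat.Agent.LocRing.Uni
import Fermat.Agent.RT1.PowSer

/-!
# Existence of the universal ring of unipotent pairs, and its components
-/

set_option autoImplicit false
set_option linter.unusedSectionVars false

open IsLocalRing

namespace Fermat.Agent.LocRing

universe u v w

section

variable {O : Type u} [CommRing O] [IsLocalRing O] {σ : Type} [Finite σ]

theorem mv_mem_maximalIdeal (f : MvPowerSeries σ O) :
    f ∈ maximalIdeal (MvPowerSeries σ O) ↔ MvPowerSeries.constantCoeff f ∈ maximalIdeal O := by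
  rw [mem_maximalIdeal, mem_maximalIdeal, mem_nonunits_iff, mem_nonunits_iff,
    MvPowerSeries.isUnit_iff_constantCoeff]

theorem mv_mem_span (f : MvPowerSeries σ O) (hf : MvPowerSeries.constantCoeff f = 0) :
    f ∈ Ideal.span (Set.range (MvPowerSeries.X : σ → MvPowerSeries σ O)) := by
  have h1 := RT1.mem_of_truncTotal 1 f (by
    have : MvPowerSeries.truncTotal 1 f = 0 := by
      ext x
      rw [MvPowerSeries.coeff_truncTotal_eq_ite, MvPolynomial.coeff_zero]
      split_ifs with h
      · have hx : x = 0 := by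
          rw [← Finsupp.degree_eq_zero_iff]; omega
        subst hx
        exact hf
      · rfl
    rw [this]
    exact Ideal.zero_mem _)
  rwa [pow_one] at h1

theorem mv_max_le : maximalIdeal (MvPowerSeries σ O) ≤
    (maximalIdeal O).map (MvPowerSeries.C : O →+* MvPowerSeries σ O) ⊔
      Ideal.span (Set.range (MvPowerSeries.X : σ → MvPowerSeries σ O)) := by
  intro f hf
  rw [mv_mem_maximalIdeal] at hf
  have e : f = MvPowerSeries.C (MvPowerSeries.constantCoeff f) +
      (f - MvPowerSeries.C (MvPowerSeries.constantCoeff f)) := by ring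
  rw [e]
  refine Ideal.add_mem _ (Ideal.mem_sup_left (Ideal.mem_map_of_mem _ hf))
    (Ideal.mem_sup_right (mv_mem_span _ ?_))
  simp

end

section

variable {O : Type u} [CommRing O] [IsLocalRing O] [IsNoetherianRing O]
  [IsAdicComplete (maximalIdeal O) O] {Λ γ : Type} [Finite Λ] [Finite γ]

/-- Existence of the universal ring of unipotent pairs lifting a given residual family. -/
theorem exists_upkg (q : Λ → O) (F₀ N₀ : Λ → Matrix (Fin 2) (Fin 2) O)
    (hres : ∀ l, IsUni (residue O (q l)) ((F₀ l).map (residue O)) ((N₀ l).map (residue O))) :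
    Nonempty (UPkg γ q F₀ N₀) := by
  let σ := ((Λ × Fin 2 × Fin 2) ⊕ (Λ × Fin 2 × Fin 2)) ⊕ γ
  let S := MvPowerSeries σ O
  let iC : O →+* MvPowerSeries σ O := MvPowerSeries.C
  let vF : Λ → Fin 2 → Fin 2 → MvPowerSeries σ O := fun l i j =>
    MvPowerSeries.X (Sum.inl (Sum.inl (l, i, j)))
  let vN : Λ → Fin 2 → Fin 2 → MvPowerSeries σ O := fun l i j =>
    MvPowerSeries.X (Sum.inl (Sum.inr (l, i, j)))
  let vx : γ → MvPowerSeries σ O := fun i => MvPowerSeries.X (Sum.inr i)
  let Fs : Λ → Matrix (Fin 2) (Fin 2) (MvPowerSeries σ O) := fun l i j => iC (F₀ l i j) + vF l i j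
  let Ns : Λ → Matrix (Fin 2) (Fin 2) (MvPowerSeries σ O) := fun l i j => iC (N₀ l i j) + vN l i j
  have hXm : ∀ s : σ, (MvPowerSeries.X s : MvPowerSeries σ O) ∈
      maximalIdeal (MvPowerSeries σ O) := fun s => by
    rw [mv_mem_maximalIdeal]; simp
  have hCloc : IsLocalHom iC := isLocalHom_of_mem _ fun b hb => by
    rw [mv_mem_maximalIdeal]
    simpa [iC] using hb
  set J : Ideal (MvPowerSeries σ O) := Ideal.span (⋃ l, uniRel (iC (q l)) (Fs l) (Ns l)) with hJ
  have hJle : J ≤ maximalIdeal (MvPowerSeries σ O) := by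
    rw [hJ, Ideal.span_le]
    simp only [Set.iUnion_subset_iff]
    intro l r hr
    have h1 : IsUni (residue (MvPowerSeries σ O) (iC (q l)))
        ((Fs l).map (residue (MvPowerSeries σ O))) ((Ns l).map (residue (MvPowerSeries σ O))) := by
      have h2 : IsUni (ResidueField.map iC (residue O (q l)))
          (((F₀ l).map (residue O)).map (ResidueField.map iC))
          (((N₀ l).map (residue O)).map (ResidueField.map iC)) :=
        (hres l).map (ResidueField.map iC)
      have e1 : (Fs l).map (residue (MvPowerSeries σ O)) =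
          ((F₀ l).map (residue O)).map (ResidueField.map iC) := by
        ext i j
        simp only [Matrix.map_apply, ResidueField.map_residue]
        rw [← res_iff]
        change iC (F₀ l i j) + vF l i j - iC (F₀ l i j) ∈ _
        rw [add_sub_cancel_left]
        exact hXm _
      have e2 : (Ns l).map (residue (MvPowerSeries σ O)) =
          ((N₀ l).map (residue O)).map (ResidueField.map iC) := by
        ext i j
        simp only [Matrix.map_apply, ResidueField.map_residue]
        rw [← res_iff]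
        change iC (N₀ l i j) + vN l i j - iC (N₀ l i j) ∈ _
        rw [add_sub_cancel_left]
        exact hXm _
      rw [e1, e2, ← ResidueField.map_residue]
      exact h2
    have := (isUni_map_iff (residue (MvPowerSeries σ O))).mp h1 r hr
    exact (residue_eq_zero_iff _).mp this
  have hne : J ≠ ⊤ := fun h => by
    rw [h, top_le_iff] at hJle
    exact (Ideal.IsPrime.ne_top inferInstance) hJle
  have hnt : Nontrivial (MvPowerSeries σ O ⧸ J) := Ideal.Quotient.nontrivial_iff.mpr hne
  have hsurj : Function.Surjective (Ideal.Quotient.mk J) := Ideal.Quotient.mk_surjective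
  have hlocq : IsLocalRing (MvPowerSeries σ O ⧸ J) := IsLocalRing.of_surjective' _ hsurj
  have hlh : IsLocalHom (Ideal.Quotient.mk J) := IsLocalHom.of_surjective _ hsurj
  have hcomp : IsAdicComplete (maximalIdeal (MvPowerSeries σ O ⧸ J)) (MvPowerSeries σ O ⧸ J) :=
    RT1.isAdicComplete_quotient J
  set π := Ideal.Quotient.mk J with hπ
  have hmaxeq : maximalIdeal (MvPowerSeries σ O ⧸ J) ≤
      (maximalIdeal (MvPowerSeries σ O)).map π := by
    intro y hy
    obtain ⟨s, rfl⟩ := hsurj y
    refine Ideal.mem_map_of_mem _ ?_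
    rw [mem_maximalIdeal, mem_nonunits_iff] at hy ⊢
    exact fun h => hy (h.map _)
  have hπF : ∀ l i j, π (vF l i j) = (Fs l).map π i j - π (iC (F₀ l i j)) := by
    intro l i j
    change _ = π (iC (F₀ l i j) + vF l i j) - _
    rw [map_add, add_sub_cancel_left]
  have hπN : ∀ l i j, π (vN l i j) = (Ns l).map π i j - π (iC (N₀ l i j)) := by
    intro l i j
    change _ = π (iC (N₀ l i j) + vN l i j) - _
    rw [map_add, add_sub_cancel_left]
  refine ⟨{
    R := MvPowerSeries σ O ⧸ J
    ι := π.comp iC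
    isLocalHom := inferInstance
    F := fun l => (Fs l).map π
    N := fun l => (Ns l).map π
    x := fun i => π (vx i)
    x_mem := fun i => mem_of_isLocalHom hlh (hXm _)
    uni := ?_
    resF := ?_
    resN := ?_
    resSurj := ?_
    gen := ?_
    lift := ?_
    uniq := ?_ }⟩
  · intro l
    refine (isUni_map_iff π).mpr fun r hr => ?_
    rw [hπ, Ideal.Quotient.eq_zero_iff_mem]
    exact Ideal.subset_span (Set.mem_iUnion.mpr ⟨l, hr⟩)
  · intro l i j
    rw [RingHom.comp_apply, ← hπF]
    exact mem_of_isLocalHom hlh (hXm _)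
  · intro l i j
    rw [RingHom.comp_apply, ← hπN]
    exact mem_of_isLocalHom hlh (hXm _)
  · intro r
    obtain ⟨s, rfl⟩ := hsurj r
    refine ⟨MvPowerSeries.constantCoeff s, ?_⟩
    rw [RingHom.comp_apply, ← map_sub]
    refine mem_of_isLocalHom hlh ?_
    rw [mv_mem_maximalIdeal]
    simp [iC]
  · refine hmaxeq.trans ((Ideal.map_mono mv_max_le).trans ?_)
    rw [Ideal.map_sup, Ideal.map_map, Ideal.map_span]
    refine sup_le ?_ ?_
    · exact le_sup_of_le_left (le_sup_of_le_left le_sup_left)
    · rw [Ideal.span_le]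
      rintro _ ⟨_, ⟨s, rfl⟩, rfl⟩
      rcases s with (⟨l, i, j⟩ | ⟨l, i, j⟩) | i
      · refine Ideal.mem_sup_left (Ideal.mem_sup_left (Ideal.mem_sup_right
          (Ideal.subset_span ⟨(l, i, j), ?_⟩)))
        exact (hπF l i j).symm
      · refine Ideal.mem_sup_left (Ideal.mem_sup_right
          (Ideal.subset_span ⟨(l, i, j), ?_⟩))
        exact (hπN l i j).symm
      · exact Ideal.mem_sup_right (Ideal.subset_span ⟨i, rfl⟩)
  · intro A _ _ _ φ hφ F' N' hT hF hN x' hx'
    let _ := φ.toAlgebra
    let y : σ → A := fun s => match s with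
      | Sum.inl (Sum.inl p) => F' p.1 p.2.1 p.2.2 - φ (F₀ p.1 p.2.1 p.2.2)
      | Sum.inl (Sum.inr p) => N' p.1 p.2.1 p.2.2 - φ (N₀ p.1 p.2.1 p.2.2)
      | Sum.inr i => x' i
    have hy : ∀ s, y s ∈ maximalIdeal A := by
      rintro ((⟨l, i, j⟩ | ⟨l, i, j⟩) | i)
      · exact hF l i j
      · exact hN l i j
      · exact hx' i
    let ev : MvPowerSeries σ O →+* A :=
      (RT1.evalHom (maximalIdeal A) y hy : MvPowerSeries σ O →ₐ[O] A).toRingHom
    have ev0 : ∀ b, ev (iC b) = φ b := fun b =>
      (RT1.evalHom (maximalIdeal A) y hy : MvPowerSeries σ O →ₐ[O] A).commutes b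
    have evX : ∀ s, ev (MvPowerSeries.X s) = y s := fun s =>
      RT1.evalHom_X (maximalIdeal A) y hy s
    have evF : ∀ l, (Fs l).map ev = F' l := by
      intro l
      ext i j
      change ev (iC (F₀ l i j) + vF l i j) = _
      rw [map_add, ev0, evX]
      change φ (F₀ l i j) + (F' l i j - φ (F₀ l i j)) = _
      ring
    have evN : ∀ l, (Ns l).map ev = N' l := by
      intro l
      ext i j
      change ev (iC (N₀ l i j) + vN l i j) = _
      rw [map_add, ev0, evX]
      change φ (N₀ l i j) + (N' l i j - φ (N₀ l i j)) = _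
      ring
    have hker : ∀ a ∈ J, ev a = 0 := by
      have : J ≤ RingHom.ker ev := by
        rw [hJ, Ideal.span_le]
        simp only [Set.iUnion_subset_iff]
        intro l r hr
        exact (isUni_map_iff ev).mp (by rw [ev0, evF, evN]; exact hT l) r hr
      exact this
    let ψ : (MvPowerSeries σ O ⧸ J) →+* A := Ideal.Quotient.lift J ev hker
    have hψ : ∀ s, ψ (π s) = ev s := fun s => Ideal.Quotient.lift_mk _ _ _
    have hevloc : ∀ s ∈ maximalIdeal (MvPowerSeries σ O), ev s ∈ maximalIdeal A := by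
      intro s hs
      have h1 := mv_max_le hs
      have h2 : (maximalIdeal O).map iC ⊔ Ideal.span (Set.range
          (MvPowerSeries.X : σ → MvPowerSeries σ O)) ≤ (maximalIdeal A).comap ev := by
        refine sup_le ?_ ?_
        · rw [Ideal.map_le_iff_le_comap]
          intro b hb
          rw [Ideal.mem_comap, Ideal.mem_comap, ev0]
          exact mem_of_isLocalHom hφ hb
        · rw [Ideal.span_le]
          rintro _ ⟨s, rfl⟩
          rw [SetLike.mem_coe, Ideal.mem_comap, evX]
          exact hy s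
      exact h2 h1
    refine ⟨ψ, ?_, ?_, ?_, ?_, ?_⟩
    · refine isLocalHom_of_mem _ fun r hr => ?_
      obtain ⟨s, rfl⟩ := hsurj r
      rw [hψ]
      refine hevloc s ?_
      rw [mem_maximalIdeal, mem_nonunits_iff] at hr ⊢
      exact fun h => hr (h.map _)
    · ext b
      change ψ (π (iC b)) = _
      rw [hψ, ev0]
    · intro l
      rw [← evF l]
      ext i j
      exact hψ _
    · intro l
      rw [← evN l]
      ext i j
      exact hψ _
    · intro i
      rw [hψ, evX]
  · intro A _ _ _ ψ ψ' h1 h2 h3 h4 h5 h6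
    have h3' : ∀ b, ψ (π (iC b)) = ψ' (π (iC b)) := fun b => DFunLike.congr_fun h3 b
    have key : ψ.comp π = ψ'.comp π := by
      refine RT1.hom_ext (maximalIdeal A) _ _ h3' ?_ ?_
      · rintro ((⟨l, i, j⟩ | ⟨l, i, j⟩) | i)
        · change ψ (π (vF l i j)) = ψ' (π (vF l i j))
          rw [hπF, map_sub, map_sub, h3']
          have := congrFun (congrFun (h4 l) i) j
          simp only [Matrix.map_apply] at this ⊢
          rw [this]
        · change ψ (π (vN l i j)) = ψ' (π (vN l i j))
          rw [hπN, map_sub, map_sub, h3']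
          have := congrFun (congrFun (h5 l) i) j
          simp only [Matrix.map_apply] at this ⊢
          rw [this]
        · exact h6 i
      · intro s
        exact mem_of_isLocalHom h1 (mem_of_isLocalHom hlh (hXm s))
    exact Ideal.Quotient.ringHom_ext key

end

section main

variable {O : Type u} [CommRing O] [IsDomain O] [IsLocalRing O] [IsNoetherianRing O]
  [IsAdicComplete (maximalIdeal O) O] {Λ γ : Type} [Fintype Λ] [Fintype γ]
  {q : Λ → O} {F₀ N₀ : Λ → Matrix (Fin 2) (Fin 2) O} (U : UPkg γ q F₀ N₀)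

include U in
/-- **The components.** For a residually compatible family of types `c`, the ideal `U.qI c` is
prime; the quotient is a domain containing `O`, of dimension at most
`dim O + #γ + ∑ dim (c l)`; and the genericity conditions hold in the quotient. -/
theorem UPkg.component (hq : ∀ l, IsUnit (q l)) (c : Λ → Ty)
    (hc : ∀ l, ResHolds (c l) (q l) (F₀ l) (N₀ l)) :
    (U.qI c).IsPrime ∧ (∀ b, U.ι b ∈ U.qI c → b = 0) ∧
    (∀ m, DimLE O m → ringKrullDim (U.R ⧸ U.qI c) ≤
      ((m + (Fintype.card γ + ∑ l, (c l).dim) : ℕ) : WithBot ℕ∞)) ∧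
    (∀ l, (c l).NZ (Ideal.Quotient.mk (U.qI c) (U.ι (q l)))
      ((U.F l).map (Ideal.Quotient.mk (U.qI c))) ((U.N l).map (Ideal.Quotient.mk (U.qI c)))) := by
  obtain ⟨P⟩ := exists_mpkg (γ := γ) c q F₀ N₀ hq hc
  obtain ⟨θ, h0, hs, hker, h1, h2, h3, h4⟩ := UPkg.exists_ker_eq (U := U) P
  have h1' : ∀ b, θ (U.ι b) = P.ι b := fun b => DFunLike.congr_fun h1 b
  have hprime : (U.qI c).IsPrime := by
    rw [← hker]; exact RingHom.ker_isPrime θ
  refine ⟨hprime, ?_, ?_, ?_⟩
  · intro b hb
    rw [← hker, RingHom.mem_ker, h1'] at hb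
    exact P.inj (hb.trans (map_zero _).symm)
  · intro m hm
    obtain ⟨t, ht, k, hk⟩ := P.dim m hm
    have h5 := RT1.ringKrullDim_le_of_pow_le (R := P.R) _ t ht k hk
    have e : (U.R ⧸ U.qI c) ≃+* P.R :=
      (Ideal.quotEquivOfEq hker.symm).trans (RingHom.quotientKerEquivOfSurjective hs)
    rw [ringKrullDim_eq_of_ringEquiv e]
    exact h5
  · intro l
    let θ' : (U.R ⧸ U.qI c) →+* P.R := Ideal.Quotient.lift (U.qI c) θ
      (fun a ha => by rw [← hker] at ha; exact ha)
    have hθ' : ∀ r, θ' (Ideal.Quotient.mk (U.qI c) r) = θ r :=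
      fun r => Ideal.Quotient.lift_mk _ _ _
    refine Ty.NZ.of_map (f := θ') ?_
    have e1 : ((U.F l).map (Ideal.Quotient.mk (U.qI c))).map θ' = P.F l := by
      rw [← h2 l]; ext i j; exact hθ' _
    have e2 : ((U.N l).map (Ideal.Quotient.mk (U.qI c))).map θ' = P.N l := by
      rw [← h3 l]; ext i j; exact hθ' _
    rw [hθ', h1', e1, e2]
    exact P.nz l

/-- Inclusions between the components. -/
theorem UPkg.qI_le_qI_iff (hq : ∀ l, IsUnit (q l)) (h2 : (2 : O) ≠ 0)
    (hq1 : ∀ l, q l + 1 ≠ 0) (c c' : Λ → Ty)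
    (hc' : ∀ l, ResHolds (c' l) (q l) (F₀ l) (N₀ l)) :
    U.qI c ≤ U.qI c' ↔ ∀ l, (c' l).Spec (c l) := by
  obtain ⟨hprime, hinj, -, hnz⟩ := U.component hq c' hc'
  have hholds : ∀ l, (c' l).Holds (Ideal.Quotient.mk (U.qI c') (U.ι (q l)))
      ((U.F l).map (Ideal.Quotient.mk (U.qI c')))
      ((U.N l).map (Ideal.Quotient.mk (U.qI c'))) :=
    (U.qI_le_ker_iff (Ideal.Quotient.mk (U.qI c')) c').mp (by rw [Ideal.mk_ker])
  constructor
  · intro h l
    have h3 : ∀ l, (c l).Holds (Ideal.Quotient.mk (U.qI c') (U.ι (q l)))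
      ((U.F l).map (Ideal.Quotient.mk (U.qI c')))
      ((U.N l).map (Ideal.Quotient.mk (U.qI c'))) :=
      (U.qI_le_ker_iff (Ideal.Quotient.mk (U.qI c')) c).mp (by rw [Ideal.mk_ker]; exact h)
    have key : ∀ b : O, b ≠ 0 → Ideal.Quotient.mk (U.qI c') (U.ι b) ≠ 0 := by
      intro b hb h4
      rw [Ideal.Quotient.eq_zero_iff_mem] at h4
      exact hb (hinj b h4)
    refine Ty.Spec.of_holds ?_ ?_ (hholds l) (hnz l) (h3 l)
    · have := key 2 h2
      rwa [map_ofNat, map_ofNat] at this
    · have := key _ (hq1 l)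
      rwa [map_add, map_add, map_one, map_one] at this
  · intro h
    have h3 := (U.qI_le_ker_iff (Ideal.Quotient.mk (U.qI c')) c).mpr
      fun l => (h l).holds (hholds l)
    rwa [Ideal.mk_ker] at h3

end main

end Fermat.Agent.LocRing
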