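import Fermat.Agent.LocRing.Scalar

/-!
# Several primes and framing variables
-/

set_option autoImplicit false
set_option linter.unusedSectionVars false

open IsLocalRing PowerSeries

namespace Fermat.Agent.LocRing

universe u v w

/-- A package for a family of pairs of types `T l` (`l : Λ`) and variables indexed by `γ`. -/
structure MPkg {O : Type u} [CommRing O] [IsLocalRing O] {Λ : Type v} (γ : Type w) (T : Λ → Ty)
    (q : Λ → O) (F₀ N₀ : Λ → Matrix (Fin 2) (Fin 2) O) (d : ℕ) where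
  /-- the ring -/
  R : Type u
  [commRing : CommRing R]
  [isDomain : IsDomain R]
  [isLocalRing : IsLocalRing R]
  [isNoetherianRing : IsNoetherianRing R]
  [isAdicComplete : IsAdicComplete (maximalIdeal R) R]
  /-- structure map -/
  ι : O →+* R
  inj : Function.Injective ι
  isLocalHom : IsLocalHom ι
  /-- universal Frobenius -/
  F : Λ → Matrix (Fin 2) (Fin 2) R
  /-- universal monodromy -/
  N : Λ → Matrix (Fin 2) (Fin 2) R
  /-- the variables -/
  x : γ → R
  x_mem : ∀ i, x i ∈ maximalIdeal R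
  holds : ∀ l, (T l).Holds (ι (q l)) (F l) (N l)
  nz : ∀ l, (T l).NZ (ι (q l)) (F l) (N l)
  resF : ∀ l i j, F l i j - ι (F₀ l i j) ∈ maximalIdeal R
  resN : ∀ l i j, N l i j - ι (N₀ l i j) ∈ maximalIdeal R
  resSurj : ∀ r : R, ∃ b : O, r - ι b ∈ maximalIdeal R
  dim : ∀ m, DimLE O m → DimLE R (m + d)
  lift : ∀ {A : Type u} [CommRing A] [IsLocalRing A] [IsAdicComplete (maximalIdeal A) A]
    (φ : O →+* A), IsLocalHom φ → ∀ F' N' : Λ → Matrix (Fin 2) (Fin 2) A,
    (∀ l, (T l).Holds (φ (q l)) (F' l) (N' l)) →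
    (∀ l i j, F' l i j - φ (F₀ l i j) ∈ maximalIdeal A) →
    (∀ l i j, N' l i j - φ (N₀ l i j) ∈ maximalIdeal A) →
    ∀ x' : γ → A, (∀ i, x' i ∈ maximalIdeal A) →
    ∃ ψ : R →+* A, IsLocalHom ψ ∧ ψ.comp ι = φ ∧ (∀ l, (F l).map ψ = F' l) ∧
      (∀ l, (N l).map ψ = N' l) ∧ ∀ i, ψ (x i) = x' i
  uniq : ∀ {A : Type u} [CommRing A] [IsLocalRing A] [IsAdicComplete (maximalIdeal A) A]
    (ψ ψ' : R →+* A), IsLocalHom ψ → IsLocalHom ψ' → ψ.comp ι = ψ'.comp ι →
    (∀ l, (F l).map ψ = (F l).map ψ') → (∀ l, (N l).map ψ = (N l).map ψ') →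
    (∀ i, ψ (x i) = ψ' (x i)) → ψ = ψ'

attribute [instance] MPkg.commRing MPkg.isDomain MPkg.isLocalRing MPkg.isNoetherianRing
  MPkg.isAdicComplete

section

variable {O : Type u} [CommRing O] [IsDomain O] [IsLocalRing O] [IsNoetherianRing O]
  [IsAdicComplete (maximalIdeal O) O]

/-- the empty package -/
def MPkg.base (T : Fin 0 → Ty) (q : Fin 0 → O) (F₀ N₀ : Fin 0 → Matrix (Fin 2) (Fin 2) O) :
    MPkg (Fin 0) T q F₀ N₀ 0 where
  R := O
  ι := RingHom.id O
  inj := Function.injective_id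
  isLocalHom := inferInstance
  F l := l.elim0
  N l := l.elim0
  x i := i.elim0
  x_mem i := i.elim0
  holds l := l.elim0
  nz l := l.elim0
  resF l := l.elim0
  resN l := l.elim0
  resSurj r := ⟨r, by simp⟩
  dim m hm := hm
  lift := by
    intro A _ _ _ φ hφ F' N' _ _ _ x' _
    exact ⟨φ, hφ, rfl, fun l => l.elim0, fun l => l.elim0, fun i => i.elim0⟩
  uniq := by
    intro A _ _ _ ψ ψ' _ _ h _ _ _
    exact h

/-- adding a variable -/
noncomputable def MPkg.addVar {Λ : Type v} {T : Λ → Ty} {q : Λ → O}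
    {F₀ N₀ : Λ → Matrix (Fin 2) (Fin 2) O} {d g : ℕ} (P : MPkg (Fin g) T q F₀ N₀ d) :
    MPkg (Fin (g + 1)) T q F₀ N₀ (d + 1) where
  R := P.R⟦X⟧
  ι := (C : P.R →+* _).comp P.ι
  inj := (C_injective (R := P.R)).comp P.inj
  isLocalHom := by
    have := P.isLocalHom
    infer_instance
  F l := (P.F l).map (C : P.R →+* P.R⟦X⟧)
  N l := (P.N l).map (C : P.R →+* P.R⟦X⟧)
  x := Fin.snoc (fun i => C (P.x i)) X
  x_mem i := by
    refine Fin.lastCases ?_ (fun i => ?_) i
    · rw [Fin.snoc_last]; exact X_mem_maximalIdeal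
    · rw [Fin.snoc_castSucc]; exact C_mem (P.x_mem i)
  holds l := (P.holds l).map (C : P.R →+* P.R⟦X⟧)
  nz l := (P.nz l).map (f := (C : P.R →+* P.R⟦X⟧)) (C_injective (R := P.R))
  resF l i j := by
    have := C_mem (P.resF l i j)
    rwa [map_sub] at this
  resN l i j := by
    have := C_mem (P.resN l i j)
    rwa [map_sub] at this
  resSurj r := by
    obtain ⟨b, hb⟩ := P.resSurj (constantCoeff r)
    refine ⟨b, ?_⟩
    rw [mem_maximalIdeal_ps]
    simpa using hb
  dim m hm := (P.dim m hm).ps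
  lift := by
    intro A _ _ _ φ hφ F' N' hT hF hN x' hx'
    obtain ⟨ψ, h0, h1, h2, h3, h4⟩ := P.lift φ hφ F' N' hT hF hN (fun i => x' i.castSucc)
      (fun i => hx' _)
    refine ⟨psLift (maximalIdeal A) ψ (x' (Fin.last g)) (hx' _), ?_, ?_, ?_, ?_, ?_⟩
    · refine isLocalHom_of_mem _ fun r hr => ?_
      rw [mem_maximalIdeal_ps] at hr
      exact psLift_mem_of_constantCoeff _ _ _ _ (mem_of_isLocalHom h0 hr)
    · rw [← RingHom.comp_assoc, psLift_comp_C, h1]
    · intro l
      ext i j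
      change psLift _ _ _ _ (C (P.F l i j)) = _
      rw [psLift_C]
      exact congrFun (congrFun (h2 l) i) j
    · intro l
      ext i j
      change psLift _ _ _ _ (C (P.N l i j)) = _
      rw [psLift_C]
      exact congrFun (congrFun (h3 l) i) j
    · intro i
      refine Fin.lastCases ?_ (fun i => ?_) i
      · rw [Fin.snoc_last, psLift_X]
      · rw [Fin.snoc_castSucc, psLift_C, h4]
  uniq := by
    intro A _ _ _ ψ ψ' h1 h2 h3 h4 h5 h6
    have hX : ψ X = ψ' X := by
      have := h6 (Fin.last g)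
      rwa [Fin.snoc_last] at this
    refine ps_hom_ext (I := maximalIdeal A) ?_ hX (mem_of_isLocalHom h1 X_mem_maximalIdeal)
    refine P.uniq _ _ inferInstance inferInstance h3 (fun l => h4 l) (fun l => h5 l) fun i => ?_
    have := h6 i.castSucc
    rw [Fin.snoc_castSucc] at this
    exact this

theorem resHolds_map {B : Type u} [CommRing B] [IsLocalRing B] (ι : O →+* B) (hι : IsLocalHom ι)
    {T : Ty} {q : O} {F₀ N₀ : Matrix (Fin 2) (Fin 2) O} (h : ResHolds T q F₀ N₀) :
    ResHolds T (ι q) (F₀.map ι) (N₀.map ι) := by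
  have h1 := Ty.Holds.map (ResidueField.map ι) h
  have e : ∀ M : Matrix (Fin 2) (Fin 2) O,
      (M.map (residue O)).map (ResidueField.map ι) = (M.map ι).map (residue B) := by
    intro M
    ext i j
    simp
  rw [e, e, ResidueField.map_residue] at h1
  exact h1

/-- adding a prime -/
noncomputable def MPkg.addPrime {γ : Type w} {n : ℕ} {T : Fin (n + 1) → Ty} {q : Fin (n + 1) → O}
    {F₀ N₀ : Fin (n + 1) → Matrix (Fin 2) (Fin 2) O} {d d' : ℕ}
    (P : MPkg γ (fun i : Fin n => T i.castSucc) (fun i => q i.castSucc) (fun i => F₀ i.castSucc)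
      (fun i => N₀ i.castSucc) d)
    (Q : LocPkg (T (Fin.last n)) P.R (P.ι (q (Fin.last n))) ((F₀ (Fin.last n)).map P.ι)
      ((N₀ (Fin.last n)).map P.ι) d') : MPkg γ T q F₀ N₀ (d + d') where
  R := Q.R
  ι := Q.ι.comp P.ι
  inj := Q.inj.comp P.inj
  isLocalHom := by
    have := P.isLocalHom
    have := Q.isLocalHom
    infer_instance
  F := Fin.snoc (fun l => (P.F l).map Q.ι) Q.F
  N := Fin.snoc (fun l => (P.N l).map Q.ι) Q.N
  x i := Q.ι (P.x i)
  x_mem i := mem_of_isLocalHom Q.isLocalHom (P.x_mem i)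
  holds l := by
    refine Fin.lastCases ?_ (fun l => ?_) l
    · rw [Fin.snoc_last, Fin.snoc_last]; exact Q.holds
    · rw [Fin.snoc_castSucc, Fin.snoc_castSucc]; exact (P.holds l).map Q.ι
  nz l := by
    refine Fin.lastCases ?_ (fun l => ?_) l
    · rw [Fin.snoc_last, Fin.snoc_last]; exact Q.nz
    · rw [Fin.snoc_castSucc, Fin.snoc_castSucc]; exact (P.nz l).map Q.inj
  resF l i j := by
    refine Fin.lastCases ?_ (fun l => ?_) l
    · rw [Fin.snoc_last]; exact Q.resF i j
    · rw [Fin.snoc_castSucc]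
      have := mem_of_isLocalHom Q.isLocalHom (P.resF l i j)
      rwa [map_sub] at this
  resN l i j := by
    refine Fin.lastCases ?_ (fun l => ?_) l
    · rw [Fin.snoc_last]; exact Q.resN i j
    · rw [Fin.snoc_castSucc]
      have := mem_of_isLocalHom Q.isLocalHom (P.resN l i j)
      rwa [map_sub] at this
  resSurj r := by
    obtain ⟨b, hb⟩ := Q.resSurj r
    obtain ⟨c, hc⟩ := P.resSurj b
    refine ⟨c, ?_⟩
    have := mem_of_isLocalHom Q.isLocalHom hc
    rw [map_sub] at this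
    have h2 := Ideal.add_mem _ hb this
    rwa [sub_add_sub_cancel] at h2
  dim m hm := by
    have := Q.dim _ (P.dim m hm)
    rwa [add_assoc] at this
  lift := by
    intro A _ _ _ φ hφ F' N' hT hF hN x' hx'
    obtain ⟨ψ, h0, h1, h2, h3, h4⟩ := P.lift φ hφ (fun l => F' l.castSucc)
      (fun l => N' l.castSucc) (fun l => hT _) (fun l => hF _) (fun l => hN _) x' hx'
    have h1' : ∀ b, ψ (P.ι b) = φ b := fun b => DFunLike.congr_fun h1 b
    obtain ⟨χ, k0, k1, k2, k3⟩ := Q.lift ψ h0 (F' (Fin.last n)) (N' (Fin.last n))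
      (by rw [h1']; exact hT _)
      (fun i j => by
        rw [Matrix.map_apply, h1']; exact hF _ i j)
      (fun i j => by
        rw [Matrix.map_apply, h1']; exact hN _ i j)
    have k1' : ∀ b, χ (Q.ι b) = ψ b := fun b => DFunLike.congr_fun k1 b
    refine ⟨χ, k0, ?_, ?_, ?_, ?_⟩
    · rw [← RingHom.comp_assoc, k1, h1]
    · intro l
      refine Fin.lastCases ?_ (fun l => ?_) l
      · rw [Fin.snoc_last]; exact k2
      · rw [Fin.snoc_castSucc]
        rw [← h2 l]
        ext i j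
        exact k1' _
    · intro l
      refine Fin.lastCases ?_ (fun l => ?_) l
      · rw [Fin.snoc_last]; exact k3
      · rw [Fin.snoc_castSucc]
        rw [← h3 l]
        ext i j
        exact k1' _
    · intro i
      rw [k1', h4]
  uniq := by
    intro A _ _ _ ψ ψ' h1 h2 h3 h4 h5 h6
    have hQ := Q.isLocalHom
    refine Q.uniq ψ ψ' h1 h2 ?_ ?_ ?_
    · refine P.uniq _ _ inferInstance inferInstance h3 (fun l => ?_) (fun l => ?_) fun i => h6 i
      · have := h4 l.castSucc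
        rw [Fin.snoc_castSucc] at this
        exact this
      · have := h5 l.castSucc
        rw [Fin.snoc_castSucc] at this
        exact this
    · have := h4 (Fin.last n)
      rwa [Fin.snoc_last] at this
    · have := h5 (Fin.last n)
      rwa [Fin.snoc_last] at this

theorem exists_mpkg_zero (T : Fin 0 → Ty) (q : Fin 0 → O)
    (F₀ N₀ : Fin 0 → Matrix (Fin 2) (Fin 2) O) (g : ℕ) :
    Nonempty (MPkg (Fin g) T q F₀ N₀ g) := by
  induction g with
  | zero => exact ⟨MPkg.base T q F₀ N₀⟩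
  | succ g ih =>
    obtain ⟨P⟩ := ih
    exact ⟨P.addVar⟩

theorem exists_mpkg_fin (n : ℕ) (T : Fin n → Ty) (q : Fin n → O)
    (F₀ N₀ : Fin n → Matrix (Fin 2) (Fin 2) O) (g : ℕ) (hq : ∀ l, IsUnit (q l))
    (h : ∀ l, ResHolds (T l) (q l) (F₀ l) (N₀ l)) :
    Nonempty (MPkg (Fin g) T q F₀ N₀ (g + ∑ l, (T l).dim)) := by
  induction n with
  | zero =>
    obtain ⟨P⟩ := exists_mpkg_zero T q F₀ N₀ g
    rw [Fin.sum_univ_zero, add_zero]
    exact ⟨P⟩
  | succ n ih =>
    obtain ⟨P⟩ := ih (fun i : Fin n => T i.castSucc) (fun i => q i.castSucc) (fun i => F₀ i.castSucc)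
      (fun i => N₀ i.castSucc) (fun l => hq _) (fun l => h _)
    obtain ⟨Q⟩ := exists_locPkg (T (Fin.last n)) (hq := (hq (Fin.last n)).map P.ι)
      (resHolds_map P.ι P.isLocalHom (h (Fin.last n)))
    rw [Fin.sum_univ_castSucc, ← add_assoc]
    exact ⟨P.addPrime Q⟩

/-- reindexing -/
def MPkg.reindex {Λ Λ' : Type*} {γ γ' : Type*} (e : Λ ≃ Λ') (e' : γ ≃ γ') {T : Λ' → Ty}
    {q : Λ' → O} {F₀ N₀ : Λ' → Matrix (Fin 2) (Fin 2) O} {d : ℕ}
    (P : MPkg γ (fun l => T (e l)) (fun l => q (e l)) (fun l => F₀ (e l)) (fun l => N₀ (e l)) d) :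
    MPkg γ' T q F₀ N₀ d where
  R := P.R
  ι := P.ι
  inj := P.inj
  isLocalHom := P.isLocalHom
  F l := P.F (e.symm l)
  N l := P.N (e.symm l)
  x i := P.x (e'.symm i)
  x_mem i := P.x_mem _
  holds l := by
    have := P.holds (e.symm l)
    rwa [e.apply_symm_apply] at this
  nz l := by
    have := P.nz (e.symm l)
    rwa [e.apply_symm_apply] at this
  resF l := by
    have := P.resF (e.symm l)
    rwa [e.apply_symm_apply] at this
  resN l := by
    have := P.resN (e.symm l)
    rwa [e.apply_symm_apply] at this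
  resSurj := P.resSurj
  dim := P.dim
  lift := by
    intro A _ _ _ φ hφ F' N' hT hF hN x' hx'
    obtain ⟨ψ, h0, h1, h2, h3, h4⟩ := P.lift φ hφ (fun l => F' (e l))
      (fun l => N' (e l)) (fun l => hT _) (fun l => hF _) (fun l => hN _) (fun i => x' (e' i))
      (fun i => hx' _)
    refine ⟨ψ, h0, h1, fun l => ?_, fun l => ?_, fun i => ?_⟩
    · rw [h2, e.apply_symm_apply]
    · rw [h3, e.apply_symm_apply]
    · rw [h4, e'.apply_symm_apply]
  uniq := by
    intro A _ _ _ ψ ψ' h1 h2 h3 h4 h5 h6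
    refine P.uniq ψ ψ' h1 h2 h3 (fun l => ?_) (fun l => ?_) (fun i => ?_)
    · have := h4 (e l)
      rwa [e.symm_apply_apply] at this
    · have := h5 (e l)
      rwa [e.symm_apply_apply] at this
    · have := h6 (e' i)
      rwa [e'.symm_apply_apply] at this

/-- The package of a family exists. -/
theorem exists_mpkg {Λ : Type v} {γ : Type w} [Fintype Λ] [Fintype γ] (T : Λ → Ty)
    (q : Λ → O) (F₀ N₀ : Λ → Matrix (Fin 2) (Fin 2) O) (hq : ∀ l, IsUnit (q l))
    (h : ∀ l, ResHolds (T l) (q l) (F₀ l) (N₀ l)) :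
    Nonempty (MPkg γ T q F₀ N₀ (Fintype.card γ + ∑ l, (T l).dim)) := by
  have e := (Fintype.equivFin Λ).symm
  have e' := (Fintype.equivFin γ).symm
  obtain ⟨P⟩ := exists_mpkg_fin (Fintype.card Λ) (fun l => T (e l)) (fun l => q (e l))
    (fun l => F₀ (e l)) (fun l => N₀ (e l)) (Fintype.card γ) (fun l => hq _) (fun l => h _)
  rw [← Equiv.sum_comp e (fun l => (T l).dim)]
  exact ⟨P.reindex e e'⟩

end

end Fermat.Agent.LocRing
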