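import Mathlib

/-!
# One variable power series over complete local rings

For a complete local ring `B`: `B⟦X⟧` is complete local, lifting property of `B⟦X⟧`, and
the behaviour of the "number of parameters".
-/

set_option autoImplicit false
set_option linter.unusedSectionVars false

open IsLocalRing PowerSeries

namespace Fermat.Agent.LocRing

universe u v

/-! ### Adic completeness in terms of membership -/

theorem isAdicComplete_iff_mem {R : Type u} [CommRing R] (I : Ideal R) :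
    IsAdicComplete I R ↔ (∀ x : R, (∀ n, x ∈ I ^ n) → x = 0) ∧
      (∀ f : ℕ → R, (∀ n, f (n + 1) - f n ∈ I ^ n) → ∃ L, ∀ n, f n - L ∈ I ^ n) := by
  rw [isAdicComplete_iff, isHausdorff_iff, isPrecomplete_iff]
  simp only [smul_eq_mul, Ideal.mul_top, SModEq.sub_mem, sub_zero]
  refine and_congr Iff.rfl ⟨fun h f hf => ?_, fun h f hf => ?_⟩
  · refine h f ?_
    intro m n hmn
    induction n, hmn using Nat.le_induction with
    | base => simp
    | succ n hmn ih =>
      have h2 : f m - f (n + 1) = (f m - f n) - (f (n + 1) - f n) := by ring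
      rw [h2]
      exact (I ^ m).sub_mem ih (Ideal.pow_le_pow_right hmn (hf n))
  · refine h f fun n => ?_
    have := hf (Nat.le_succ n)
    rw [← neg_sub]
    exact (I ^ n).neg_mem this

theorem mem_ext {A : Type u} [CommRing A] {I : Ideal A} [IsAdicComplete I A] {x y : A}
    (h : ∀ n, x - y ∈ I ^ n) : x = y :=
  sub_eq_zero.mp (((isAdicComplete_iff_mem I).mp inferInstance).1 _ h)

/-! ### The maximal ideal of `B⟦X⟧` -/

section
variable {B : Type u} [CommRing B] [IsLocalRing B]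

theorem mem_maximalIdeal_ps (f : B⟦X⟧) :
    f ∈ maximalIdeal B⟦X⟧ ↔ constantCoeff f ∈ maximalIdeal B := by
  rw [mem_maximalIdeal, mem_maximalIdeal, mem_nonunits_iff, mem_nonunits_iff,
    isUnit_iff_constantCoeff]

/-- the coefficient filtration -/
def coeffIdeal (I : Ideal B) (n : ℕ) : Ideal B⟦X⟧ where
  carrier := {f | ∀ i, coeff i f ∈ I ^ (n - i)}
  zero_mem' i := by simp
  add_mem' {a b} ha hb i := by
    rw [map_add]; exact (I ^ (n - i)).add_mem (ha i) (hb i)
  smul_mem' c f hf i := by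
    rw [smul_eq_mul, coeff_mul]
    refine Ideal.sum_mem _ fun p hp => ?_
    rw [Finset.HasAntidiagonal.mem_antidiagonal] at hp
    exact Ideal.mul_mem_left _ _ (Ideal.pow_le_pow_right (by omega) (hf p.2))

theorem mem_coeffIdeal {I : Ideal B} {n : ℕ} {f : B⟦X⟧} :
    f ∈ coeffIdeal I n ↔ ∀ i, coeff i f ∈ I ^ (n - i) := Iff.rfl

theorem mul_mem_coeffIdeal {I : Ideal B} {m n : ℕ} {f g : B⟦X⟧} (hf : f ∈ coeffIdeal I m)
    (hg : g ∈ coeffIdeal I n) : f * g ∈ coeffIdeal I (m + n) := by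
  intro i
  rw [coeff_mul]
  refine Ideal.sum_mem _ fun p hp => ?_
  rw [Finset.HasAntidiagonal.mem_antidiagonal] at hp
  have h1 := Ideal.mul_mem_mul (hf p.1) (hg p.2)
  rw [← pow_add] at h1
  exact Ideal.pow_le_pow_right (by omega) h1

theorem maximalIdeal_pow_le (n : ℕ) : maximalIdeal B⟦X⟧ ^ n ≤ coeffIdeal (maximalIdeal B) n := by
  induction n with
  | zero => intro f _ i; simp
  | succ n ih =>
    rw [pow_succ]
    refine Ideal.mul_le.mpr fun f hf g hg => ?_
    refine mul_mem_coeffIdeal (ih hf) ?_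
    intro i
    rcases i with _ | i
    · simpa using (mem_maximalIdeal_ps g).mp hg
    · simp

theorem C_mem_pow {n : ℕ} {b : B} (hb : b ∈ maximalIdeal B ^ n) :
    C b ∈ maximalIdeal B⟦X⟧ ^ n := by
  have h1 : (maximalIdeal B).map (C : B →+* B⟦X⟧) ≤ maximalIdeal B⟦X⟧ := by
    rw [Ideal.map_le_iff_le_comap]
    intro x hx
    rw [Ideal.mem_comap, mem_maximalIdeal_ps]
    simpa using hx
  have h2 := Ideal.mem_map_of_mem (C : B →+* B⟦X⟧) hb
  rw [Ideal.map_pow] at h2
  exact Ideal.pow_right_mono h1 n h2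

theorem X_mem_maximalIdeal : (X : B⟦X⟧) ∈ maximalIdeal B⟦X⟧ := by
  rw [mem_maximalIdeal_ps]; simp

theorem trunc_decomp (f : B⟦X⟧) (n : ℕ) :
    ∃ g : B⟦X⟧, f = (∑ i ∈ Finset.range n, C (coeff i f) * X ^ i) + X ^ n * g := by
  have h1 : X ^ n ∣ f - ∑ i ∈ Finset.range n, C (coeff i f) * X ^ i := by
    rw [X_pow_dvd_iff]
    intro m hm
    rw [map_sub, map_sum]
    simp only [coeff_C_mul, coeff_X_pow, mul_ite, mul_one, mul_zero]
    rw [Finset.sum_ite_eq]
    simp [hm]
  obtain ⟨g, hg⟩ := h1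
  exact ⟨g, by rw [← hg]; ring⟩

theorem coeffIdeal_le (n : ℕ) : coeffIdeal (maximalIdeal B) n ≤ maximalIdeal B⟦X⟧ ^ n := by
  intro f hf
  obtain ⟨g, hg⟩ := trunc_decomp f n
  rw [hg]
  refine Ideal.add_mem _ (Ideal.sum_mem _ fun i hi => ?_) ?_
  · rw [Finset.mem_range] at hi
    have h1 : C (coeff i f) ∈ maximalIdeal B⟦X⟧ ^ (n - i) := C_mem_pow (hf i)
    have h2 := Ideal.mul_mem_mul h1 (Ideal.pow_mem_pow (X_mem_maximalIdeal (B := B)) i)
    rw [← pow_add] at h2
    rwa [Nat.sub_add_cancel hi.le] at h2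
  · exact Ideal.mul_mem_right _ _ (Ideal.pow_mem_pow X_mem_maximalIdeal n)

theorem maximalIdeal_pow_eq (n : ℕ) :
    maximalIdeal B⟦X⟧ ^ n = coeffIdeal (maximalIdeal B) n :=
  le_antisymm (maximalIdeal_pow_le n) (coeffIdeal_le n)

instance isAdicComplete_ps [IsAdicComplete (maximalIdeal B) B] :
    IsAdicComplete (maximalIdeal B⟦X⟧) B⟦X⟧ := by
  obtain ⟨hH, hP⟩ := (isAdicComplete_iff_mem (maximalIdeal B)).mp inferInstance
  rw [isAdicComplete_iff_mem]
  refine ⟨fun f hf => ?_, fun f hf => ?_⟩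
  · ext i
    rw [map_zero]
    refine hH _ fun n => ?_
    have h1 := hf (n + i)
    rw [maximalIdeal_pow_eq] at h1
    simpa using h1 i
  · have h1 : ∀ i, ∃ L : B, ∀ n, coeff i (f (n + i)) - L ∈ maximalIdeal B ^ n := by
      intro i
      refine hP (fun n => coeff i (f (n + i))) fun n => ?_
      have h2 := hf (n + i)
      rw [maximalIdeal_pow_eq] at h2
      have h3 := h2 i
      rw [Nat.add_sub_cancel, map_sub] at h3
      rwa [show n + i + 1 = n + 1 + i by omega] at h3
    choose L hL using h1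
    refine ⟨PowerSeries.mk L, fun n => ?_⟩
    rw [maximalIdeal_pow_eq]
    intro i
    rw [map_sub, coeff_mk]
    rcases le_or_gt i n with h | h
    · have h3 := hL i (n - i)
      rwa [Nat.sub_add_cancel h] at h3
    · rw [Nat.sub_eq_zero_of_le h.le, pow_zero, Ideal.one_eq_top]; trivial

end

/-! ### Lifting -/

section lift

variable {B : Type u} [CommRing B] {A : Type v} [CommRing A] {I : Ideal A}

/-- Two ring homs out of `B⟦X⟧` agreeing on constants and `X ↦ a ∈ I` are equal. -/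
theorem ps_hom_ext [IsAdicComplete I A] {f g : B⟦X⟧ →+* A}
    (hC : f.comp (C : B →+* B⟦X⟧) = g.comp C)
    (hX : f X = g X) (ha : f X ∈ I) : f = g := by
  ext x
  refine mem_ext (I := I) fun n => ?_
  have h1 : ∃ y : B⟦X⟧, x = (∑ i ∈ Finset.range n, C (coeff i x) * X ^ i) + X ^ n * y := by
    have h1 : X ^ n ∣ x - ∑ i ∈ Finset.range n, C (coeff i x) * X ^ i := by
      rw [X_pow_dvd_iff]
      intro m hm
      rw [map_sub, map_sum]
      simp only [coeff_C_mul, coeff_X_pow, mul_ite, mul_one, mul_zero]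
      rw [Finset.sum_ite_eq]
      simp [hm]
    obtain ⟨g, hg⟩ := h1
    exact ⟨g, by rw [← hg]; ring⟩
  obtain ⟨y, hy⟩ := h1
  have hC' : ∀ b, f (C b) = g (C b) := fun b => DFunLike.congr_fun hC b
  have h2 : f x - g x = (f X) ^ n * (f y - g y) := by
    rw [hy]
    simp only [map_add, map_sum, map_mul, map_pow, hC', hX]
    ring
  rw [h2]
  exact Ideal.mul_mem_right _ _ (Ideal.pow_mem_pow ha n)

/-- truncated evaluation -/
noncomputable def evN (φ : B →+* A) (a : A) (n : ℕ) (f : B⟦X⟧) : A :=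
  (trunc n f).eval₂ φ a

theorem evN_eq (φ : B →+* A) (a : A) (n : ℕ) (f : B⟦X⟧) :
    evN φ a n f = ∑ i ∈ Finset.range n, φ (coeff i f) * a ^ i := by
  rw [evN, eval₂_trunc_eq_sum_range]

theorem evN_sub_mem (φ : B →+* A) {a : A} (ha : a ∈ I) (m n : ℕ) (h : m ≤ n) (f : B⟦X⟧) :
    evN φ a n f - evN φ a m f ∈ I ^ m := by
  rw [evN_eq, evN_eq, ← Finset.sum_range_add_sum_Ico _ h, add_sub_cancel_left]
  refine Ideal.sum_mem _ fun i hi => ?_
  rw [Finset.mem_Ico] at hi
  exact Ideal.mul_mem_left _ _ (Ideal.pow_le_pow_right hi.1 (Ideal.pow_mem_pow ha i))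

theorem evN_mul_sub_mem (φ : B →+* A) {a : A} (ha : a ∈ I) (n : ℕ) (f g : B⟦X⟧) :
    evN φ a n (f * g) - evN φ a n f * evN φ a n g ∈ I ^ n := by
  have h1 : (Polynomial.X : Polynomial B) ^ n ∣ trunc n (f * g) - trunc n f * trunc n g := by
    rw [Polynomial.X_pow_dvd_iff]
    intro d hd
    have h2 : trunc n (f * g) = trunc n ((trunc n f : B⟦X⟧) * (trunc n g : B⟦X⟧)) := by
      rw [trunc_trunc_mul_trunc]
    rw [Polynomial.coeff_sub, h2, coeff_trunc, if_pos hd, ← Polynomial.coe_mul,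
      Polynomial.coeff_coe, sub_self]
  obtain ⟨c, hc⟩ := h1
  have h3 : evN φ a n (f * g) - evN φ a n f * evN φ a n g = a ^ n * c.eval₂ φ a := by
    rw [evN, evN, evN, ← Polynomial.eval₂_mul, ← Polynomial.eval₂_sub, hc,
      Polynomial.eval₂_mul, Polynomial.eval₂_pow, Polynomial.eval₂_X]
  rw [h3]
  exact Ideal.mul_mem_right _ _ (Ideal.pow_mem_pow ha n)

/-- evaluation modulo `I ^ n` -/
noncomputable def evHom (I : Ideal A) (φ : B →+* A) (a : A) (ha : a ∈ I) (n : ℕ) :
    B⟦X⟧ →+* A ⧸ I ^ n where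
  toFun f := Ideal.Quotient.mk (I ^ n) (evN φ a n f)
  map_one' := by
    rcases n with _ | n
    · have : Subsingleton (A ⧸ I ^ 0) := by
        rw [pow_zero, Ideal.one_eq_top]
        exact Ideal.Quotient.subsingleton_iff.mpr rfl
      exact Subsingleton.elim _ _
    · rw [evN, trunc_one, Polynomial.eval₂_one, map_one]
  map_zero' := by simp [evN_eq]
  map_add' f g := by
    rw [← map_add]
    congr 1
    simp [evN_eq, add_mul, Finset.sum_add_distrib]
  map_mul' f g := by
    rw [← map_mul, Ideal.Quotient.eq]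
    exact evN_mul_sub_mem φ ha n f g

theorem evHom_compat (I : Ideal A) (φ : B →+* A) (a : A) (ha : a ∈ I) {m n : ℕ} (hmn : m ≤ n) :
    (Ideal.Quotient.factorPow I hmn).comp (evHom I φ a ha n) = evHom I φ a ha m := by
  ext f
  simp only [RingHom.comp_apply]
  change Ideal.Quotient.factorPow I hmn (Ideal.Quotient.mk (I ^ n) (evN φ a n f)) =
    Ideal.Quotient.mk (I ^ m) (evN φ a m f)
  rw [Ideal.Quotient.factorPow, Ideal.Quotient.factor_mk, Ideal.Quotient.eq]
  exact evN_sub_mem φ ha m n hmn f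

/-- The lift of `φ : B → A` to `B⟦X⟧ → A` with `X ↦ a`. -/
noncomputable def psLift (I : Ideal A) [IsAdicComplete I A] (φ : B →+* A) (a : A) (ha : a ∈ I) :
    B⟦X⟧ →+* A :=
  IsAdicComplete.liftRingHom I (evHom I φ a ha) (evHom_compat I φ a ha)

section
variable (I) [IsAdicComplete I A] (φ : B →+* A) (a : A) (ha : a ∈ I)

theorem psLift_sub_mem (n : ℕ) (f : B⟦X⟧) : psLift I φ a ha f - evN φ a n f ∈ I ^ n := by
  rw [← Ideal.Quotient.eq]
  exact IsAdicComplete.mk_liftRingHom I (evHom I φ a ha) (evHom_compat I φ a ha) n f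

@[simp] theorem psLift_C (b : B) : psLift I φ a ha (C b) = φ b := by
  refine mem_ext (I := I) fun n => ?_
  have h1 := psLift_sub_mem I φ a ha (n + 1) (C b)
  have h2 : evN φ a (n + 1) (C b) = φ b := by
    rw [evN, trunc_C, Polynomial.eval₂_C]
  rw [h2] at h1
  exact Ideal.pow_le_pow_right (Nat.le_succ n) h1

theorem psLift_comp_C : (psLift I φ a ha).comp C = φ := by
  ext b; simp

@[simp] theorem psLift_X : psLift I φ a ha X = a := by
  refine mem_ext (I := I) fun n => ?_
  have h1 := psLift_sub_mem I φ a ha (n + 2) X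
  have h2 : evN φ a (n + 2) X = a := by
    rw [evN, trunc_X, Polynomial.eval₂_X]
  rw [h2] at h1
  exact Ideal.pow_le_pow_right (Nat.le_add_right n 2) h1

theorem psLift_mem_of_constantCoeff {f : B⟦X⟧} (hf : φ (constantCoeff f) ∈ I) :
    psLift I φ a ha f ∈ I := by
  have h1 := psLift_sub_mem I φ a ha 1 f
  rw [pow_one, evN_eq, Finset.sum_range_one, pow_zero, mul_one, coeff_zero_eq_constantCoeff_apply]
    at h1
  have h2 := I.add_mem h1 hf
  rwa [sub_add_cancel] at h2

theorem psLift_sub_mem' (f : B⟦X⟧) : psLift I φ a ha f - φ (constantCoeff f) ∈ I := by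
  have h1 := psLift_sub_mem I φ a ha 1 f
  rwa [pow_one, evN_eq, Finset.sum_range_one, pow_zero, mul_one, coeff_zero_eq_constantCoeff_apply]
    at h1

theorem psLift_unique (ψ : B⟦X⟧ →+* A) (h1 : ψ.comp C = φ) (h2 : ψ X = a) :
    ψ = psLift I φ a ha := by
  refine ps_hom_ext (I := I) ?_ ?_ ?_
  · rw [h1, psLift_comp_C]
  · rw [h2, psLift_X]
  · rw [h2]; exact ha

end

end lift

/-! ### Number of parameters -/

/-- `R` has `m` elements of the maximal ideal generating an ideal containing a power of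
the maximal ideal, i.e. `dim R ≤ m`. -/
def DimLE (R : Type u) [CommRing R] [IsLocalRing R] (m : ℕ) : Prop :=
  ∃ t : Fin m → R, (∀ i, t i ∈ maximalIdeal R) ∧ ∃ k, maximalIdeal R ^ k ≤ Ideal.span (Set.range t)

theorem DimLE.field (k : Type u) [Field k] : DimLE k 0 :=
  ⟨Fin.elim0, fun i => i.elim0, 1, by
    rw [IsLocalRing.maximalIdeal_eq_bot]
    simp⟩

theorem DimLE.ps {B : Type u} [CommRing B] [IsLocalRing B] {m : ℕ} (h : DimLE B m) :
    DimLE B⟦X⟧ (m + 1) := by
  obtain ⟨t, ht, k, hk⟩ := h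
  refine ⟨Fin.snoc (fun i => C (t i)) X, ?_, k + 1, ?_⟩
  · intro i
    refine Fin.lastCases ?_ (fun i => ?_) i
    · rw [Fin.snoc_last]; exact X_mem_maximalIdeal
    · rw [Fin.snoc_castSucc, mem_maximalIdeal_ps]; simpa using ht i
  · intro f hf
    rw [maximalIdeal_pow_eq] at hf
    have h0 := hf 0
    have hXmem : (X : B⟦X⟧) ∈ Ideal.span (Set.range
        (Fin.snoc (fun i => C (t i)) X : Fin (m + 1) → B⟦X⟧)) :=
      Ideal.subset_span ⟨Fin.last m, by rw [Fin.snoc_last]⟩
    have hf' : f = C (coeff 0 f) + X * (PowerSeries.mk fun p => coeff (p + 1) f) := by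
      rw [add_comm, coeff_zero_eq_constantCoeff_apply, ← eq_X_mul_shift_add_const]
    rw [hf']
    refine Ideal.add_mem _ ?_ (Ideal.mul_mem_right _ _ hXmem)
    have h1 : coeff 0 f ∈ Ideal.span (Set.range t) :=
      hk (Ideal.pow_le_pow_right (by omega) h0)
    have h2 := Ideal.mem_map_of_mem (C : B →+* B⟦X⟧) h1
    rw [Ideal.map_span] at h2
    refine Ideal.span_mono ?_ h2
    rintro _ ⟨_, ⟨i, rfl⟩, rfl⟩
    exact ⟨i.castSucc, by rw [Fin.snoc_castSucc]⟩

end Fermat.Agent.LocRing
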