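import Fermat.Agent.LocRing.Types

/-!
# Power series in two and three variables, as iterated power series
-/

set_option autoImplicit false
set_option linter.unusedSectionVars false

open IsLocalRing PowerSeries

namespace Fermat.Agent.LocRing

universe u v

section one

variable {B : Type u} [CommRing B] [IsLocalRing B]

theorem maximalIdeal_ps_eq :
    maximalIdeal B⟦X⟧ = (maximalIdeal B).map (C : B →+* B⟦X⟧) ⊔ Ideal.span {X} := by
  apply le_antisymm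
  · intro f hf
    rw [mem_maximalIdeal_ps] at hf
    have hf' : f = C (constantCoeff f) + X * (PowerSeries.mk fun p => coeff (p + 1) f) := by
      rw [add_comm, ← eq_X_mul_shift_add_const]
    rw [hf']
    refine Ideal.add_mem _ (Ideal.mem_sup_left (Ideal.mem_map_of_mem _ hf)) ?_
    exact Ideal.mem_sup_right (Ideal.mul_mem_right _ _ (Ideal.mem_span_singleton_self _))
  · refine sup_le ?_ ?_
    · rw [Ideal.map_le_iff_le_comap]
      intro x hx
      rw [Ideal.mem_comap, mem_maximalIdeal_ps]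
      simpa using hx
    · rw [Ideal.span_singleton_le_iff_mem]
      exact X_mem_maximalIdeal

theorem isLocalHom_of_mem {R A : Type*} [CommRing R] [IsLocalRing R] [CommRing A] [IsLocalRing A]
    (ψ : R →+* A) (h : ∀ r ∈ maximalIdeal R, ψ r ∈ maximalIdeal A) : IsLocalHom ψ := by
  refine ⟨fun r hr => ?_⟩
  by_contra hcon
  exact (mem_maximalIdeal _).mp (h r ((mem_maximalIdeal _).mpr hcon)) hr

theorem mem_of_isLocalHom {R A : Type*} [CommRing R] [IsLocalRing R] [CommRing A] [IsLocalRing A]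
    {ψ : R →+* A} (h : IsLocalHom ψ) {r : R} (hr : r ∈ maximalIdeal R) :
    ψ r ∈ maximalIdeal A := by
  rw [mem_maximalIdeal, mem_nonunits_iff] at hr ⊢
  exact fun h1 => hr (h.map_nonunit _ h1)

instance isLocalHom_C' : IsLocalHom (C : B →+* B⟦X⟧) := by
  refine isLocalHom_of_mem _ fun r hr => ?_
  rw [mem_maximalIdeal_ps]; simpa using hr

theorem C_mem {b : B} (hb : b ∈ maximalIdeal B) : (C b : B⟦X⟧) ∈ maximalIdeal B⟦X⟧ := by
  rw [mem_maximalIdeal_ps]; simpa using hb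

end one

/-! ### two variables -/

section two

variable (B : Type u) [CommRing B]

/-- `B[[x₁, x₂]]` -/
abbrev PS2 : Type u := PowerSeries (PowerSeries B)

/-- `B[[x₁, x₂, x₃]]` -/
abbrev PS3 : Type u := PowerSeries (PowerSeries (PowerSeries B))

/-- structure map -/
noncomputable def ι2 : B →+* PS2 B := (C : B⟦X⟧ →+* _).comp C
/-- structure map -/
noncomputable def ι3 : B →+* PS3 B := (C : (PS2 B) →+* _).comp (ι2 B)

theorem ι2_inj : Function.Injective (ι2 B) :=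
  (C_injective (R := B⟦X⟧)).comp (C_injective (R := B))
theorem ι3_inj : Function.Injective (ι3 B) :=
  (C_injective (R := PS2 B)).comp (ι2_inj B)

variable [IsLocalRing B]

theorem ι2_local : IsLocalHom (ι2 B) := by
  unfold ι2; infer_instance
theorem ι3_local : IsLocalHom (ι3 B) := by
  have := ι2_local B
  unfold ι3; infer_instance

variable {B}

theorem ι2_mem {b : B} (hb : b ∈ maximalIdeal B) : ι2 B b ∈ maximalIdeal (PS2 B) :=
  mem_of_isLocalHom (ι2_local B) hb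
theorem ι3_mem {b : B} (hb : b ∈ maximalIdeal B) : ι3 B b ∈ maximalIdeal (PS3 B) :=
  mem_of_isLocalHom (ι3_local B) hb

theorem resSurj2 (r : PS2 B) : ∃ b : B, r - ι2 B b ∈ maximalIdeal (PS2 B) := by
  refine ⟨constantCoeff (constantCoeff r), ?_⟩
  rw [mem_maximalIdeal_ps, mem_maximalIdeal_ps]
  simp [ι2]

theorem resSurj3 (r : PS3 B) : ∃ b : B, r - ι3 B b ∈ maximalIdeal (PS3 B) := by
  refine ⟨constantCoeff (constantCoeff (constantCoeff r)), ?_⟩
  rw [mem_maximalIdeal_ps, mem_maximalIdeal_ps, mem_maximalIdeal_ps]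
  simp [ι3, ι2]

theorem max2_le : maximalIdeal (PS2 B) ≤
    (maximalIdeal B).map (ι2 B) ⊔ Ideal.span {C X, X} := by
  rw [maximalIdeal_ps_eq, maximalIdeal_ps_eq, Ideal.map_sup, Ideal.map_map, Ideal.map_span,
    Set.image_singleton, Ideal.span_insert, ι2]
  rw [sup_assoc]

theorem max3_le : maximalIdeal (PS3 B) ≤
    (maximalIdeal B).map (ι3 B) ⊔ Ideal.span {C (C X), C X, X} := by
  rw [maximalIdeal_ps_eq]
  refine sup_le ?_ ?_
  · refine (Ideal.map_mono max2_le).trans ?_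
    rw [Ideal.map_sup, Ideal.map_map, Ideal.map_span]
    refine sup_le_sup_left ?_ _
    refine Ideal.span_mono ?_
    rintro _ ⟨x, hx, rfl⟩
    rcases hx with rfl | hx
    · simp
    · rw [Set.mem_singleton_iff] at hx
      subst hx
      simp
  · refine le_sup_of_le_right (Ideal.span_mono ?_)
    intro x hx
    rw [Set.mem_singleton_iff] at hx
    subst hx
    simp

section lift
variable {A : Type v} [CommRing A] [IsLocalRing A] [IsAdicComplete (maximalIdeal A) A]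
  (φ : B →+* A) (hφ : IsLocalHom φ) (a₁ a₂ a₃ : A) (h₁ : a₁ ∈ maximalIdeal A)
  (h₂ : a₂ ∈ maximalIdeal A) (h₃ : a₃ ∈ maximalIdeal A)

/-- lift to two variables -/
noncomputable def lift2 : PS2 B →+* A :=
  psLift (maximalIdeal A) (psLift (maximalIdeal A) φ a₁ h₁) a₂ h₂

/-- lift to three variables -/
noncomputable def lift3 : PS3 B →+* A :=
  psLift (maximalIdeal A) (lift2 φ a₁ a₂ h₁ h₂) a₃ h₃

@[simp] theorem lift2_ι (b : B) : lift2 φ a₁ a₂ h₁ h₂ (ι2 B b) = φ b := by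
  simp [lift2, ι2]
@[simp] theorem lift2_X₁ : lift2 φ a₁ a₂ h₁ h₂ (C X) = a₁ := by simp [lift2]
@[simp] theorem lift2_X₂ : lift2 φ a₁ a₂ h₁ h₂ X = a₂ := by simp [lift2]
@[simp] theorem lift3_ι (b : B) : lift3 φ a₁ a₂ a₃ h₁ h₂ h₃ (ι3 B b) = φ b := by
  simp [lift3, ι3]
@[simp] theorem lift3_X₁ : lift3 φ a₁ a₂ a₃ h₁ h₂ h₃ (C (C X)) = a₁ := by simp [lift3]
@[simp] theorem lift3_X₂ : lift3 φ a₁ a₂ a₃ h₁ h₂ h₃ (C X) = a₂ := by simp [lift3]
@[simp] theorem lift3_X₃ : lift3 φ a₁ a₂ a₃ h₁ h₂ h₃ X = a₃ := by simp [lift3]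

include hφ in
theorem lift2_local : IsLocalHom (lift2 φ a₁ a₂ h₁ h₂) := by
  refine isLocalHom_of_mem _ fun r hr => ?_
  rw [mem_maximalIdeal_ps, mem_maximalIdeal_ps] at hr
  exact psLift_mem_of_constantCoeff _ _ _ _
    (psLift_mem_of_constantCoeff _ _ _ _ (mem_of_isLocalHom hφ hr))

include hφ in
theorem lift3_local : IsLocalHom (lift3 φ a₁ a₂ a₃ h₁ h₂ h₃) := by
  refine isLocalHom_of_mem _ fun r hr => ?_
  rw [mem_maximalIdeal_ps] at hr
  exact psLift_mem_of_constantCoeff _ _ _ _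
    (mem_of_isLocalHom (lift2_local φ hφ a₁ a₂ h₁ h₂) hr)

theorem ext2 {ψ ψ' : PS2 B →+* A} (hψ : IsLocalHom ψ)
    (h0 : ψ.comp (ι2 B) = ψ'.comp (ι2 B)) (h1 : ψ (C X) = ψ' (C X)) (h2 : ψ X = ψ' X) :
    ψ = ψ' := by
  refine ps_hom_ext (I := maximalIdeal A) ?_ h2 (mem_of_isLocalHom hψ X_mem_maximalIdeal)
  exact ps_hom_ext (I := maximalIdeal A) h0 h1
    (mem_of_isLocalHom hψ (C_mem X_mem_maximalIdeal))

theorem ext3 {ψ ψ' : PS3 B →+* A} (hψ : IsLocalHom ψ)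
    (h0 : ψ.comp (ι3 B) = ψ'.comp (ι3 B)) (h1 : ψ (C (C X)) = ψ' (C (C X)))
    (h2 : ψ (C X) = ψ' (C X)) (h3 : ψ X = ψ' X) : ψ = ψ' := by
  refine ps_hom_ext (I := maximalIdeal A) ?_ h3 (mem_of_isLocalHom hψ X_mem_maximalIdeal)
  refine ext2 (B := B) (ψ := ψ.comp C) (ψ' := ψ'.comp C) ?_ h0 h1 h2
  infer_instance

end lift

end two

/-! ### builders -/

section builders

variable {B : Type u} [CommRing B] [IsDomain B] [IsLocalRing B] [IsNoetherianRing B]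
  [IsAdicComplete (maximalIdeal B) B]

/-- builder for smooth charts of dimension 3 -/
noncomputable def mk3 (T : Ty) (q : B) (F₀ N₀ : Matrix (Fin 2) (Fin 2) B)
    (F N : Matrix (Fin 2) (Fin 2) (PS3 B)) (holds : T.Holds (ι3 B q) F N)
    (nz : T.NZ (ι3 B q) F N)
    (resF : ∀ i j, F i j - ι3 B (F₀ i j) ∈ maximalIdeal (PS3 B))
    (resN : ∀ i j, N i j - ι3 B (N₀ i j) ∈ maximalIdeal (PS3 B))
    (gen : Ideal.span {C (C X), C X, X} ≤ (maximalIdeal B).map (ι3 B) ⊔ Ideal.span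
    (Set.range fun p : Fin 2 × Fin 2 => F p.1 p.2 - ι3 B (F₀ p.1 p.2)) ⊔ Ideal.span
    (Set.range fun p : Fin 2 × Fin 2 => N p.1 p.2 - ι3 B (N₀ p.1 p.2)))
    (lft : ∀ {A : Type u} [CommRing A] [IsLocalRing A] [IsAdicComplete (maximalIdeal A) A]
      (φ : B →+* A), IsLocalHom φ → ∀ F' N' : Matrix (Fin 2) (Fin 2) A, T.Holds (φ q) F' N' →
      (∀ i j, F' i j - φ (F₀ i j) ∈ maximalIdeal A) →
      (∀ i j, N' i j - φ (N₀ i j) ∈ maximalIdeal A) →
      ∃ (a₁ a₂ a₃ : A) (h₁ : a₁ ∈ maximalIdeal A)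
        (h₂ : a₂ ∈ maximalIdeal A) (h₃ : a₃ ∈ maximalIdeal A),
        F.map (lift3 φ a₁ a₂ a₃ h₁ h₂ h₃) = F' ∧ N.map (lift3 φ a₁ a₂ a₃ h₁ h₂ h₃) = N')
    (unq : ∀ {A : Type u} [CommRing A] [IsLocalRing A] (ψ ψ' : PS3 B →+* A), IsLocalHom ψ →
      IsLocalHom ψ' → ψ.comp (ι3 B) = ψ'.comp (ι3 B) →
      F.map ψ = F.map ψ' → N.map ψ = N.map ψ' →
      ψ (C (C X)) = ψ' (C (C X)) ∧ ψ (C X) = ψ' (C X) ∧ ψ X = ψ' X) :
    LocPkg T B q F₀ N₀ 3 where
  R := PS3 B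
  ι := ι3 B
  inj := ι3_inj B
  isLocalHom := ι3_local B
  F := F
  N := N
  holds := holds
  nz := nz
  resF := resF
  resN := resN
  resSurj := resSurj3
  gen := by
    refine max3_le.trans (sup_le ?_ gen)
    rw [sup_assoc]
    exact le_sup_left
  dim m hm := hm.ps.ps.ps
  lift := by
    intro A _ _ _ φ hφ F' N' hT hF hN
    obtain ⟨a₁, a₂, a₃, h₁, h₂, h₃, hF', hN'⟩ := lft φ hφ F' N' hT hF hN
    refine ⟨lift3 φ a₁ a₂ a₃ h₁ h₂ h₃, lift3_local φ hφ a₁ a₂ a₃ h₁ h₂ h₃, ?_, hF', hN'⟩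
    ext b
    simp
  uniq := by
    intro A _ _ _ ψ ψ' h1 h2 h3 h4 h5
    obtain ⟨h6, h7, h8⟩ := unq ψ ψ' h1 h2 h3 h4 h5
    exact ext3 h1 h3 h6 h7 h8

/-- builder for smooth charts of dimension 2 -/
noncomputable def mk2 (T : Ty) (q : B) (F₀ N₀ : Matrix (Fin 2) (Fin 2) B)
    (F N : Matrix (Fin 2) (Fin 2) (PS2 B)) (holds : T.Holds (ι2 B q) F N)
    (nz : T.NZ (ι2 B q) F N)
    (resF : ∀ i j, F i j - ι2 B (F₀ i j) ∈ maximalIdeal (PS2 B))
    (resN : ∀ i j, N i j - ι2 B (N₀ i j) ∈ maximalIdeal (PS2 B))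
    (gen : Ideal.span {C X, X} ≤ (maximalIdeal B).map (ι2 B) ⊔ Ideal.span
    (Set.range fun p : Fin 2 × Fin 2 => F p.1 p.2 - ι2 B (F₀ p.1 p.2)) ⊔ Ideal.span
    (Set.range fun p : Fin 2 × Fin 2 => N p.1 p.2 - ι2 B (N₀ p.1 p.2)))
    (lft : ∀ {A : Type u} [CommRing A] [IsLocalRing A] [IsAdicComplete (maximalIdeal A) A]
      (φ : B →+* A), IsLocalHom φ → ∀ F' N' : Matrix (Fin 2) (Fin 2) A, T.Holds (φ q) F' N' →
      (∀ i j, F' i j - φ (F₀ i j) ∈ maximalIdeal A) →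
      (∀ i j, N' i j - φ (N₀ i j) ∈ maximalIdeal A) →
      ∃ (a₁ a₂ : A) (h₁ : a₁ ∈ maximalIdeal A)
        (h₂ : a₂ ∈ maximalIdeal A),
        F.map (lift2 φ a₁ a₂ h₁ h₂) = F' ∧ N.map (lift2 φ a₁ a₂ h₁ h₂) = N')
    (unq : ∀ {A : Type u} [CommRing A] [IsLocalRing A] (ψ ψ' : PS2 B →+* A), IsLocalHom ψ →
      IsLocalHom ψ' → ψ.comp (ι2 B) = ψ'.comp (ι2 B) →
      F.map ψ = F.map ψ' → N.map ψ = N.map ψ' →
      ψ (C X) = ψ' (C X) ∧ ψ X = ψ' X) :
    LocPkg T B q F₀ N₀ 2 where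
  R := PS2 B
  ι := ι2 B
  inj := ι2_inj B
  isLocalHom := ι2_local B
  F := F
  N := N
  holds := holds
  nz := nz
  resF := resF
  resN := resN
  resSurj := resSurj2
  gen := by
    refine max2_le.trans (sup_le ?_ gen)
    rw [sup_assoc]
    exact le_sup_left
  dim m hm := hm.ps.ps
  lift := by
    intro A _ _ _ φ hφ F' N' hT hF hN
    obtain ⟨a₁, a₂, h₁, h₂, hF', hN'⟩ := lft φ hφ F' N' hT hF hN
    refine ⟨lift2 φ a₁ a₂ h₁ h₂, lift2_local φ hφ a₁ a₂ h₁ h₂, ?_, hF', hN'⟩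
    ext b
    simp
  uniq := by
    intro A _ _ _ ψ ψ' h1 h2 h3 h4 h5
    obtain ⟨h6, h7⟩ := unq ψ ψ' h1 h2 h3 h4 h5
    exact ext2 h1 h3 h6 h7

end builders

end Fermat.Agent.LocRing
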