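import Fermat.Agent.LocRing.StCharts

/-!
# Steinberg and intersection packages at the trivial residual pair
-/

set_option autoImplicit false
set_option linter.unusedSectionVars false

open IsLocalRing PowerSeries

namespace Fermat.Agent.LocRing

universe u v

section sep

variable {B : Type u} [CommRing B] [IsDomain B] [IsLocalRing B]
  [IsAdicComplete (maximalIdeal B) B] {w : B}

theorem sep_of_mem (hw : w ∈ maximalIdeal B) (x : B) (h : ∀ n : ℕ, w ^ n ∣ x) : x = 0 := by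
  refine mem_ext (I := maximalIdeal B) fun n => ?_
  rw [sub_zero]
  exact (maximalIdeal B ^ n).mem_of_dvd (h n) (Ideal.pow_mem_pow hw n)

theorem sep_C (hw : w ∈ maximalIdeal B) (x : B⟦X⟧) (h : ∀ n : ℕ, (C w) ^ n ∣ x) : x = 0 := by
  ext i
  rw [map_zero]
  refine sep_of_mem hw _ fun n => ?_
  obtain ⟨y, hy⟩ := h n
  rw [hy, ← map_pow, coeff_C_mul]
  exact Dvd.intro _ rfl

theorem reg_C (w : B) : (∀ x : B⟦X⟧, C w * x = 0 → x = 0) ∨ (C w : B⟦X⟧) = 0 := by
  by_cases h : w = 0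
  · right; rw [h, map_zero]
  · left
    intro x hx
    rcases mul_eq_zero.mp hx with h1 | h1
    · exact absurd (C_injective (h1.trans (map_zero C).symm)) h
    · exact h1

/-- reduction mod `w` on power series -/
noncomputable def redW (w : B) : B⟦X⟧ →+* (B ⧸ Ideal.span {w})⟦X⟧ :=
  PowerSeries.map (Ideal.Quotient.mk (Ideal.span {w}))

theorem redW_w (w : B) : redW w (C w) = 0 := by
  rw [redW, map_C]
  rw [Ideal.Quotient.eq_zero_iff_mem.mpr (Ideal.mem_span_singleton_self w), map_zero]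

theorem redW_dvd (w : B) (x : B⟦X⟧) (h : redW w x = 0) : C w ∣ x := by
  obtain ⟨f', hf'⟩ := exists_factor (π := Ideal.Quotient.mk (Ideal.span {w})) (w := w)
    (fun y hy => by
      rw [Ideal.Quotient.eq_zero_iff_mem, Ideal.mem_span_singleton] at hy
      exact hy) h
  exact ⟨f', hf'⟩

theorem redW_X (w : B) (x : (B ⧸ Ideal.span {w})⟦X⟧) (h : redW w X * x = 0) : x = 0 := by
  rw [redW, map_X] at h
  ext n
  have := congrArg (coeff (n + 1)) h
  rwa [coeff_succ_X_mul, map_zero] at this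

end sep

section st

variable (B : Type u) [CommRing B] (w : B)

/-- The Steinberg algebra over `B[[y₁, y₂, y₃]]`. -/
abbrev StR : Type u :=
  StAlg (S := PS3 B) (C (C (C w))) (C (C X)) (C X) X

variable [IsDomain B] [IsLocalRing B] [IsNoetherianRing B]
  [IsAdicComplete (maximalIdeal B) B]

theorem isDomain_stR (hw : w ∈ maximalIdeal B) : IsDomain (StR B w) := by
  have h1 : IsDomain (StAlg (S := B⟦X⟧⟦X⟧) (C (C w)) (C X) X 0) :=
    StAlg.isDomain_y₃_zero (C w) X (reg_C w) (sep_C hw) (redW w) (redW_w w) (redW_dvd w)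
      (redW_X w)
  exact StAlg.isDomain_step2 (S := B⟦X⟧⟦X⟧) (C (C w)) (C X) X

/-- The intersection algebra over `B[[y₁, y₃]]`. -/
abbrev QR (B : Type u) [CommRing B] (w : B) : Type u :=
  QuadraticAlgebra (PS2 B) (-(C X * X)) (C (C w))

theorem isDomain_QR (hw : w ∈ maximalIdeal B) : IsDomain (QR B w) :=
  isDomain_quad (C w) X (reg_C w) (sep_C hw) (redW w) (redW_w w) (redW_dvd w) (redW_X w)

end st

namespace StAlg

variable {S : Type u} [CommRing S] [IsLocalRing S] {t y₁ y₂ y₃ : S}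

/-- residue map of `StAlg` -/
noncomputable def eps (h₁ : y₁ ∈ maximalIdeal S) : StAlg t y₁ y₂ y₃ →+* ResidueField S where
  toFun a := residue S a.c0
  map_zero' := by simp
  map_one' := by simp
  map_add' a b := by simp
  map_mul' a b := by
    have e1 := (residue_eq_zero_iff _).mpr h₁
    rw [mul_c0]
    simp only [map_sub, map_mul, e1]
    ring

theorem mem_map_of_coords {I : Ideal S} {a : StAlg t y₁ y₂ y₃} (h0 : a.c0 ∈ I) (h1 : a.c1 ∈ I)
    (h2 : a.c2 ∈ I) (h3 : a.c3 ∈ I) : a ∈ I.map (algebraMap S (StAlg t y₁ y₂ y₃)) := by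
  rw [eq_lin a]
  simp only [Algebra.smul_def]
  exact Ideal.add_mem _ (Ideal.add_mem _ (Ideal.add_mem _ (Ideal.mem_map_of_mem _ h0)
    (Ideal.mul_mem_right _ _ (Ideal.mem_map_of_mem _ h1)))
    (Ideal.mul_mem_right _ _ (Ideal.mem_map_of_mem _ h2)))
    (Ideal.mul_mem_right _ _ (Ideal.mem_map_of_mem _ h3))

theorem eps_mul (ht : t ∈ maximalIdeal S) (h₁ : y₁ ∈ maximalIdeal S) (h₂ : y₂ ∈ maximalIdeal S)
    (h₃ : y₃ ∈ maximalIdeal S) (a b : StAlg t y₁ y₂ y₃) (ha : eps h₁ a = 0)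
    (hb : eps h₁ b = 0) :
    a * b ∈ (maximalIdeal S).map (algebraMap S (StAlg t y₁ y₂ y₃)) := by
  have ha' : a.c0 ∈ maximalIdeal S := (residue_eq_zero_iff _).mp ha
  have hb' : b.c0 ∈ maximalIdeal S := (residue_eq_zero_iff _).mp hb
  have e1 := (residue_eq_zero_iff _).mpr h₁
  have e2 := (residue_eq_zero_iff _).mpr h₂
  have e3 := (residue_eq_zero_iff _).mpr h₃
  have et := (residue_eq_zero_iff _).mpr ht
  have ea := (residue_eq_zero_iff _).mpr ha'
  have eb := (residue_eq_zero_iff _).mpr hb'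
  refine mem_map_of_coords ?_ ?_ ?_ ?_
  all_goals
    rw [← residue_eq_zero_iff]
    simp only [mul_c0, mul_c1, mul_c2, mul_c3, map_add, map_sub, map_mul, e1, e2, e3, et, ea, eb]
    ring

end StAlg

section package

variable {B : Type u} [CommRing B] [IsDomain B] [IsLocalRing B] [IsNoetherianRing B]
  [IsAdicComplete (maximalIdeal B) B] {q : B} {F₀ N₀ : Matrix (Fin 2) (Fin 2) B}

theorem st_scalar (w : B) (hw : w = q - 1) (hq : w ∈ maximalIdeal B) (h0 : ∀ j, row0 F₀ N₀ j ∈ maximalIdeal B)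
    (h1 : ∀ j, row1 F₀ N₀ j ∈ maximalIdeal B) : Nonempty (LocPkg .stp B q F₀ N₀ 3) := by
  set S := PS3 B with hS
  have hmt : (C (C (C w)) : PS3 B) ∈ maximalIdeal (PS3 B) := C_mem (C_mem (C_mem hq))
  have hm1 : (C (C X) : PS3 B) ∈ maximalIdeal (PS3 B) := C_mem (C_mem X_mem_maximalIdeal)
  have hm2 : (C X : PS3 B) ∈ maximalIdeal (PS3 B) := C_mem X_mem_maximalIdeal
  have hm3 : (X : PS3 B) ∈ maximalIdeal (PS3 B) := X_mem_maximalIdeal
  have hdom : IsDomain (StR B w) := isDomain_stR B w hq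
  obtain ⟨hloc, hnoeth, hcomp, hmem, hdim⟩ := local_package (S := PS3 B) (D := StR B w)
    (StAlg.eps hm1) (fun s => rfl) (StAlg.eps_mul hmt hm1 hm2 hm3)
  set σ : PS3 B →+* StR B w := algebraMap _ _ with hσ
  set ι : B →+* StR B w := σ.comp (ι3 B) with hι
  have hmem' : ∀ a : StR B w, a ∈ maximalIdeal (StR B w) ↔
      a.c0 ∈ maximalIdeal (PS3 B) := by
    intro a
    rw [hmem, ← residue_eq_zero_iff]; rfl
  have hσm : ∀ s ∈ maximalIdeal (PS3 B), σ s ∈ maximalIdeal (StR B w) := fun s hs =>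
    (hmem' _).mpr hs
  have hιm : ∀ b ∈ maximalIdeal B, ι b ∈ maximalIdeal (StR B w) := fun b hb =>
    hσm _ (ι3_mem hb)
  have hιloc : IsLocalHom ι := isLocalHom_of_mem _ hιm
  have hιw : ι w = ι q - 1 := by rw [← map_one ι, ← map_sub ι, ← hw]
  set e₁ : StR B w := StAlg.e₁
  set e₂ : StR B w := StAlg.e₂
  set e₃ : StR B w := StAlg.e₃
  have he1 : e₁ ∈ maximalIdeal (StR B w) := (hmem' _).mpr (Ideal.zero_mem _)
  have he2 : e₂ ∈ maximalIdeal (StR B w) := (hmem' _).mpr (Ideal.zero_mem _)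
  have he3 : e₃ ∈ maximalIdeal (StR B w) := (hmem' _).mpr (Ideal.zero_mem _)
  set F : Matrix (Fin 2) (Fin 2) (StR B w) :=
    !![1 + e₁, σ (C (C X)); σ X - e₃, 1 + (ι w - e₁)] with hF
  set N : Matrix (Fin 2) (Fin 2) (StR B w) := !![e₂, e₃; σ (C X), -e₂] with hN
  have hholds : IsSt (ι q) F N := by
    rw [isSt_iff]
    refine ⟨?_, ?_, ?_⟩
    · change 1 + e₁ + (1 + (ι w - e₁)) = ι q + 1
      rw [hιw]; ring
    · change e₂ + -e₂ = 0
      ring
    · change StAlg.Rel (ι q - 1) (σ (C (C X))) (σ (C X)) (σ X - e₃ + e₃) (1 + e₁ - 1) e₂ e₃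
      rw [sub_add_cancel, add_sub_cancel_left]
      have := StAlg.rel_e (S := PS3 B) (t := C (C (C w))) (y₁ := C (C X)) (y₂ := C X)
        (y₃ := X)
      have h2 : ι q - 1 = σ (C (C (C w))) := by
        have h3 : σ (C (C (C w))) = ι w := rfl
        rw [h3, hιw]
      rw [h2]
      exact this
  have a00 : F₀ 0 0 - 1 ∈ maximalIdeal B := h0 0
  have a01 : F₀ 0 1 ∈ maximalIdeal B := h0 1
  have b00 : N₀ 0 0 ∈ maximalIdeal B := h0 2
  have b01 : N₀ 0 1 ∈ maximalIdeal B := h0 3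
  have a10 : F₀ 1 0 ∈ maximalIdeal B := h1 0
  have a11 : F₀ 1 1 - 1 ∈ maximalIdeal B := h1 1
  have b10 : N₀ 1 0 ∈ maximalIdeal B := h1 2
  have b11 : N₀ 1 1 ∈ maximalIdeal B := h1 3
  have hFm : ∀ i j, F i j - ι (F₀ i j) ∈ maximalIdeal (StR B w) := by
    intro i j
    match i, j with
    | 0, 0 =>
      have e : F 0 0 - ι (F₀ 0 0) = e₁ - ι (F₀ 0 0 - 1) := by
        rw [map_sub, map_one]; change 1 + e₁ - ι (F₀ 0 0) = _; ring
      rw [e]; exact Ideal.sub_mem _ he1 (hιm _ a00)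
    | 0, 1 => exact Ideal.sub_mem _ (hσm _ hm1) (hιm _ a01)
    | 1, 0 => exact Ideal.sub_mem _ (Ideal.sub_mem _ (hσm _ hm3) he3) (hιm _ a10)
    | 1, 1 =>
      have e : F 1 1 - ι (F₀ 1 1) = ι w - e₁ - ι (F₀ 1 1 - 1) := by
        rw [map_sub ι (F₀ 1 1), map_one]
        change 1 + (ι w - e₁) - ι (F₀ 1 1) = _
        ring
      rw [e]
      exact Ideal.sub_mem _ (Ideal.sub_mem _ (hιm _ hq) he1) (hιm _ a11)
  have hNm : ∀ i j, N i j - ι (N₀ i j) ∈ maximalIdeal (StR B w) := by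
    intro i j
    match i, j with
    | 0, 0 => exact Ideal.sub_mem _ he2 (hιm _ b00)
    | 0, 1 => exact Ideal.sub_mem _ he3 (hιm _ b01)
    | 1, 0 => exact Ideal.sub_mem _ (hσm _ hm2) (hιm _ b10)
    | 1, 1 => exact Ideal.sub_mem _ (Ideal.neg_mem_iff _ |>.mpr he2) (hιm _ b11)
  set J : Ideal (StR B w) := (maximalIdeal B).map ι ⊔ Ideal.span
    (Set.range fun p : Fin 2 × Fin 2 => F p.1 p.2 - ι (F₀ p.1 p.2)) ⊔ Ideal.span
    (Set.range fun p : Fin 2 × Fin 2 => N p.1 p.2 - ι (N₀ p.1 p.2)) with hJ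
  have hgF : ∀ i j, F i j - ι (F₀ i j) ∈ J := fun i j =>
    Ideal.mem_sup_left (Ideal.mem_sup_right (Ideal.subset_span ⟨(i, j), rfl⟩))
  have hgN : ∀ i j, N i j - ι (N₀ i j) ∈ J := fun i j =>
    Ideal.mem_sup_right (Ideal.subset_span ⟨(i, j), rfl⟩)
  have hgB : ∀ b ∈ maximalIdeal B, ι b ∈ J := fun b hb =>
    Ideal.mem_sup_left (Ideal.mem_sup_left (Ideal.mem_map_of_mem _ hb))
  have j1 : e₁ ∈ J := by
    have e : e₁ = (F 0 0 - ι (F₀ 0 0)) + ι (F₀ 0 0 - 1) := by
      rw [map_sub, map_one]; change e₁ = 1 + e₁ - ι (F₀ 0 0) + _; ring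
    rw [e]; exact J.add_mem (hgF 0 0) (hgB _ a00)
  have j2 : e₂ ∈ J := by
    have e : e₂ = (N 0 0 - ι (N₀ 0 0)) + ι (N₀ 0 0) := by
      change e₂ = e₂ - ι (N₀ 0 0) + _; ring
    rw [e]; exact J.add_mem (hgN 0 0) (hgB _ b00)
  have j3 : e₃ ∈ J := by
    have e : e₃ = (N 0 1 - ι (N₀ 0 1)) + ι (N₀ 0 1) := by
      change e₃ = e₃ - ι (N₀ 0 1) + _; ring
    rw [e]; exact J.add_mem (hgN 0 1) (hgB _ b01)
  have jx1 : σ (C (C X)) ∈ J := by
    have e : σ (C (C X)) = (F 0 1 - ι (F₀ 0 1)) + ι (F₀ 0 1) := by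
      change σ (C (C X)) = σ (C (C X)) - ι (F₀ 0 1) + _; ring
    rw [e]; exact J.add_mem (hgF 0 1) (hgB _ a01)
  have jx2 : σ (C X) ∈ J := by
    have e : σ (C X) = (N 1 0 - ι (N₀ 1 0)) + ι (N₀ 1 0) := by
      change σ (C X) = σ (C X) - ι (N₀ 1 0) + _; ring
    rw [e]; exact J.add_mem (hgN 1 0) (hgB _ b10)
  have jx3 : σ X ∈ J := by
    have e : σ X = (F 1 0 - ι (F₀ 1 0)) + ι (F₀ 1 0) + e₃ := by
      change σ X = σ X - e₃ - ι (F₀ 1 0) + ι (F₀ 1 0) + e₃; ring
    rw [e]; exact J.add_mem (J.add_mem (hgF 1 0) (hgB _ a10)) j3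
  refine ⟨{
    R := StR B w
    ι := ι
    inj := ?_
    isLocalHom := hιloc
    F := F
    N := N
    holds := hholds
    nz := ?_
    resF := hFm
    resN := hNm
    resSurj := ?_
    gen := ?_
    dim := fun m hm => hdim _ hm.ps.ps.ps
    lift := ?_
    uniq := ?_ }⟩
  · intro a b hab
    have := congrArg StAlg.c0 hab
    exact ι3_inj B this
  · intro h2
    have h3 : e₂ = 0 := congrFun (congrFun h2 0) 0
    have h4 : (1 : PS3 B) = 0 := congrArg StAlg.c2 h3
    exact one_ne_zero h4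
  · intro r
    obtain ⟨b, hb⟩ := resSurj3 (B := B) r.c0
    exact ⟨b, (hmem' _).mpr hb⟩
  · intro a ha
    have hc0 := (hmem' a).mp ha
    change a ∈ J
    rw [StAlg.eq_lin a]
    simp only [Algebra.smul_def]
    refine J.add_mem (J.add_mem (J.add_mem ?_ (J.mul_mem_left _ j1)) (J.mul_mem_left _ j2))
      (J.mul_mem_left _ j3)
    have h2 := Ideal.mem_map_of_mem σ (max3_le hc0)
    rw [Ideal.map_sup, Ideal.map_map, Ideal.map_span] at h2
    refine (sup_le ?_ ?_ : _ ≤ J) h2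
    · rw [Ideal.map_le_iff_le_comap]
      exact fun b hb => hgB b hb
    · rw [Ideal.span_le]
      rintro _ ⟨y, (rfl | rfl | hy), rfl⟩
      · exact jx1
      · exact jx2
      · rw [Set.mem_singleton_iff] at hy
        subst hy
        exact jx3
  · intro A _ _ _ φ hφ F' N' hT hF' hN'
    have hT' : IsSt (φ q) F' N' := hT
    obtain ⟨htr, htn, hrel⟩ := isSt_iff.mp hT'
    have hφm : ∀ b ∈ maximalIdeal B, φ b ∈ maximalIdeal A := fun b hb => mem_of_isLocalHom hφ hb
    have c1 : F' 0 1 ∈ maximalIdeal A := by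
      have := Ideal.add_mem _ (hF' 0 1) (hφm _ a01)
      rwa [sub_add_cancel] at this
    have c2 : N' 1 0 ∈ maximalIdeal A := by
      have := Ideal.add_mem _ (hN' 1 0) (hφm _ b10)
      rwa [sub_add_cancel] at this
    have c4 : N' 0 1 ∈ maximalIdeal A := by
      have := Ideal.add_mem _ (hN' 0 1) (hφm _ b01)
      rwa [sub_add_cancel] at this
    have c5 : N' 0 0 ∈ maximalIdeal A := by
      have := Ideal.add_mem _ (hN' 0 0) (hφm _ b00)
      rwa [sub_add_cancel] at this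
    have c3 : F' 1 0 + N' 0 1 ∈ maximalIdeal A := by
      have := Ideal.add_mem _ (hF' 1 0) (hφm _ a10)
      rw [sub_add_cancel] at this
      exact Ideal.add_mem _ this c4
    have c6 : F' 0 0 - 1 ∈ maximalIdeal A := by
      have := Ideal.add_mem _ (hF' 0 0) (hφm _ a00)
      rwa [map_sub, map_one, sub_add_sub_cancel] at this
    set χ := lift3 φ (F' 0 1) (N' 1 0) (F' 1 0 + N' 0 1) c1 c2 c3 with hχ
    have k0 : ∀ b, χ (ι3 B b) = φ b := fun b => lift3_ι _ _ _ _ _ _ _ b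
    have k1 : χ (C (C X)) = F' 0 1 := lift3_X₁ _ _ _ _ _ _ _
    have k2 : χ (C X) = N' 1 0 := lift3_X₂ _ _ _ _ _ _ _
    have k3 : χ X = F' 1 0 + N' 0 1 := lift3_X₃ _ _ _ _ _ _ _
    have kt : χ (C (C (C w))) = φ q - 1 := by
      have : (C (C (C w)) : PS3 B) = ι3 B w := rfl
      rw [this, k0, hw, map_sub, map_one]
    have hχloc : IsLocalHom χ := lift3_local φ hφ _ _ _ _ _ _
    have hrel' : StAlg.Rel (χ (C (C (C w)))) (χ (C (C X))) (χ (C X)) (χ X) (F' 0 0 - 1)
        (N' 0 0) (N' 0 1) := by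
      rw [kt, k1, k2, k3]; exact hrel
    set ψ := StAlg.liftHom χ (F' 0 0 - 1) (N' 0 0) (N' 0 1) hrel' with hψ
    have g0 : ∀ s, ψ (σ s) = χ s := fun s => StAlg.liftHom_algebraMap _ _ _ _ _ s
    have g1 : ψ e₁ = F' 0 0 - 1 := StAlg.liftHom_e₁ _ _ _ _ _
    have g2 : ψ e₂ = N' 0 0 := StAlg.liftHom_e₂ _ _ _ _ _
    have g3 : ψ e₃ = N' 0 1 := StAlg.liftHom_e₃ _ _ _ _ _
    refine ⟨ψ, ?_, ?_, ?_, ?_⟩
    · refine isLocalHom_of_mem _ fun a ha => ?_
      rw [hmem'] at ha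
      rw [hψ, StAlg.liftHom_apply]
      exact Ideal.add_mem _ (Ideal.add_mem _ (Ideal.add_mem _ (mem_of_isLocalHom hχloc ha)
        (Ideal.mul_mem_left _ _ c6)) (Ideal.mul_mem_left _ _ c5)) (Ideal.mul_mem_left _ _ c4)
    · ext b
      change ψ (σ (ι3 B b)) = φ b
      rw [g0, k0]
    · ext i j
      match i, j with
      | 0, 0 =>
        change ψ (1 + e₁) = F' 0 0
        rw [map_add, map_one, g1, add_sub_cancel]
      | 0, 1 =>
        change ψ (σ (C (C X))) = F' 0 1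
        rw [g0, k1]
      | 1, 0 =>
        change ψ (σ X - e₃) = F' 1 0
        rw [map_sub, g0, k3, g3, add_sub_cancel_right]
      | 1, 1 =>
        change ψ (1 + (σ (ι3 B w) - e₁)) = F' 1 1
        rw [map_add, map_one, map_sub, g0, k0, g1, hw, map_sub, map_one]
        linear_combination -htr
    · ext i j
      match i, j with
      | 0, 0 => exact g2
      | 0, 1 => exact g3
      | 1, 0 =>
        change ψ (σ (C X)) = N' 1 0
        rw [g0, k2]
      | 1, 1 =>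
        change ψ (-e₂) = N' 1 1
        rw [map_neg, g2]
        linear_combination -htn
  · intro A _ _ _ ψ ψ' hψ hψ' k0 k1 k2
    have l : ∀ i j, ψ (F i j) = ψ' (F i j) := fun i j => congrFun (congrFun k1 i) j
    have l' : ∀ i j, ψ (N i j) = ψ' (N i j) := fun i j => congrFun (congrFun k2 i) j
    have n1 : ψ e₁ = ψ' e₁ := by
      have h2 : ψ (1 + e₁) = ψ' (1 + e₁) := l 0 0
      rw [map_add, map_add, map_one, map_one] at h2
      exact add_left_cancel h2
    have n2 : ψ e₂ = ψ' e₂ := l' 0 0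
    have n3 : ψ e₃ = ψ' e₃ := l' 0 1
    refine StAlg.hom_ext ?_ n1 n2 n3
    have hloc : IsLocalHom (ψ.comp σ) := isLocalHom_of_mem _ fun r hr =>
      mem_of_isLocalHom hψ (hσm r hr)
    refine ext3 (B := B) (ψ := ψ.comp σ) (ψ' := ψ'.comp σ) hloc k0 ?_ ?_ ?_
    · exact l 0 1
    · exact l' 1 0
    · have h2 : ψ (σ X - e₃) = ψ' (σ X - e₃) := l 1 0
      rw [map_sub, map_sub, n3] at h2
      exact sub_left_inj.mp h2

/-! ### the intersection package -/

theorem quad_coords {S : Type u} [CommRing S] {a b : S} {I : Ideal S}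
    {z : QuadraticAlgebra S a b} (h0 : z.re ∈ I) (h1 : z.im ∈ I) :
    z ∈ I.map (algebraMap S (QuadraticAlgebra S a b)) := by
  have e : z = algebraMap S _ z.re + algebraMap S _ z.im * ⟨0, 1⟩ := by
    ext <;> simp [QuadraticAlgebra.algebraMap_re, QuadraticAlgebra.algebraMap_im]
  rw [e]
  exact Ideal.add_mem _ (Ideal.mem_map_of_mem _ h0)
    (Ideal.mul_mem_right _ _ (Ideal.mem_map_of_mem _ h1))

/-- residue map of the quadratic algebra -/
noncomputable def qeps {S : Type u} [CommRing S] [IsLocalRing S] {a b : S}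
    (ha : a ∈ maximalIdeal S) : QuadraticAlgebra S a b →+* ResidueField S where
  toFun z := residue S z.re
  map_zero' := by simp
  map_one' := by simp [QuadraticAlgebra.re_one]
  map_add' z z' := by simp
  map_mul' z z' := by
    have e1 := (residue_eq_zero_iff _).mpr ha
    rw [QuadraticAlgebra.re_mul]
    simp only [map_add, map_mul, e1]
    ring

theorem qeps_mul {S : Type u} [CommRing S] [IsLocalRing S] {a b : S}
    (ha : a ∈ maximalIdeal S) (hb : b ∈ maximalIdeal S) (z z' : QuadraticAlgebra S a b)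
    (hz : qeps ha z = 0) (hz' : qeps ha z' = 0) :
    z * z' ∈ (maximalIdeal S).map (algebraMap S (QuadraticAlgebra S a b)) := by
  have e1 : z.re ∈ maximalIdeal S := (residue_eq_zero_iff _).mp hz
  have e2 : z'.re ∈ maximalIdeal S := (residue_eq_zero_iff _).mp hz'
  refine quad_coords ?_ ?_
  · rw [QuadraticAlgebra.re_mul]
    exact Ideal.add_mem _ (Ideal.mul_mem_right _ _ e1)
      (Ideal.mul_mem_right _ _ (Ideal.mul_mem_right _ _ ha))
  · rw [QuadraticAlgebra.im_mul]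
    exact Ideal.add_mem _ (Ideal.add_mem _ (Ideal.mul_mem_right _ _ e1)
      (Ideal.mul_mem_left _ _ e2)) (Ideal.mul_mem_right _ _ (Ideal.mul_mem_right _ _ hb))

/-- ring homs out of a quadratic algebra -/
def quadHom {S : Type*} [CommRing S] {a b : S} {A : Type*} [CommRing A] (χ : S →+* A) (e : A)
    (he : e * e = χ a + χ b * e) : QuadraticAlgebra S a b →+* A where
  toFun z := χ z.re + χ z.im * e
  map_zero' := by simp
  map_one' := by simp [QuadraticAlgebra.re_one, QuadraticAlgebra.im_one]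
  map_add' z z' := by simp; ring
  map_mul' z z' := by
    simp only [QuadraticAlgebra.re_mul, QuadraticAlgebra.im_mul, map_add, map_mul]
    linear_combination (-(χ z.im * χ z'.im)) * he

theorem p_scalar (w : B) (hw : w = q - 1) (hq : w ∈ maximalIdeal B)
    (h0 : ∀ j, row0 F₀ N₀ j ∈ maximalIdeal B)
    (h1 : ∀ j, row1 F₀ N₀ j ∈ maximalIdeal B) : Nonempty (LocPkg .pp B q F₀ N₀ 2) := by
  have hmt : (C (C w) : PS2 B) ∈ maximalIdeal (PS2 B) := C_mem (C_mem hq)
  have hm1 : (C X : PS2 B) ∈ maximalIdeal (PS2 B) := C_mem X_mem_maximalIdeal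
  have hm2 : (X : PS2 B) ∈ maximalIdeal (PS2 B) := X_mem_maximalIdeal
  have hma : (-(C X * X) : PS2 B) ∈ maximalIdeal (PS2 B) :=
    (Ideal.neg_mem_iff _).mpr (Ideal.mul_mem_left _ _ hm2)
  have hdom : IsDomain (QR B w) := isDomain_QR B w hq
  obtain ⟨hloc, hnoeth, hcomp, hmem, hdim⟩ := local_package (S := PS2 B) (D := QR B w)
    (qeps hma) (fun s => rfl) (qeps_mul hma hmt)
  set σ : PS2 B →+* QR B w := algebraMap _ _ with hσ
  set ι : B →+* QR B w := σ.comp (ι2 B) with hι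
  have hmem' : ∀ a : QR B w, a ∈ maximalIdeal (QR B w) ↔
      a.re ∈ maximalIdeal (PS2 B) := by
    intro a
    rw [hmem, ← residue_eq_zero_iff]; rfl
  have hσre : ∀ s, (σ s).re = s := fun s => rfl
  have hσim : ∀ s, (σ s).im = 0 := fun s => rfl
  have hσm : ∀ s ∈ maximalIdeal (PS2 B), σ s ∈ maximalIdeal (QR B w) := fun s hs =>
    (hmem' _).mpr hs
  have hιm : ∀ b ∈ maximalIdeal B, ι b ∈ maximalIdeal (QR B w) := fun b hb =>
    hσm _ (ι2_mem hb)
  have hιloc : IsLocalHom ι := isLocalHom_of_mem _ hιm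
  have hιw : ι w = ι q - 1 := by rw [← map_one ι, ← map_sub ι, ← hw]
  set e : QR B w := ⟨0, 1⟩ with he
  have hlin : ∀ z : QR B w, z = σ z.re + σ z.im * e := by
    intro z
    ext <;> simp [hσre, hσim, he]
  have hee : e * e = σ (-(C X * X)) + σ (C (C w)) * e := by
    ext <;> simp [hσre, hσim, he]
  have he1 : e ∈ maximalIdeal (QR B w) := (hmem' _).mpr (Ideal.zero_mem _)
  set F : Matrix (Fin 2) (Fin 2) (QR B w) :=
    !![1 + e, σ (C X); σ X, 1 + (ι w - e)] with hF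
  set N : Matrix (Fin 2) (Fin 2) (QR B w) := 0 with hN
  have hholds : IsP (ι q) F N := by
    refine ⟨?_, ?_, rfl⟩
    · rw [Matrix.trace_fin_two]
      change 1 + e + (1 + (ι w - e)) = ι q + 1
      rw [hιw]; ring
    · rw [Matrix.det_fin_two]
      change (1 + e) * (1 + (ι w - e)) - σ (C X) * σ X = ι q
      have h2 : σ (C (C w)) = ι w := rfl
      rw [h2, map_neg, map_mul] at hee
      linear_combination -hee + hιw
  have a00 : F₀ 0 0 - 1 ∈ maximalIdeal B := h0 0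
  have a01 : F₀ 0 1 ∈ maximalIdeal B := h0 1
  have b00 : N₀ 0 0 ∈ maximalIdeal B := h0 2
  have b01 : N₀ 0 1 ∈ maximalIdeal B := h0 3
  have a10 : F₀ 1 0 ∈ maximalIdeal B := h1 0
  have a11 : F₀ 1 1 - 1 ∈ maximalIdeal B := h1 1
  have b10 : N₀ 1 0 ∈ maximalIdeal B := h1 2
  have b11 : N₀ 1 1 ∈ maximalIdeal B := h1 3
  have hFm : ∀ i j, F i j - ι (F₀ i j) ∈ maximalIdeal (QR B w) := by
    intro i j
    match i, j with
    | 0, 0 =>
      have e' : F 0 0 - ι (F₀ 0 0) = e - ι (F₀ 0 0 - 1) := by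
        rw [map_sub, map_one]; change 1 + e - ι (F₀ 0 0) = _; ring
      rw [e']; exact Ideal.sub_mem _ he1 (hιm _ a00)
    | 0, 1 => exact Ideal.sub_mem _ (hσm _ hm1) (hιm _ a01)
    | 1, 0 => exact Ideal.sub_mem _ (hσm _ hm2) (hιm _ a10)
    | 1, 1 =>
      have e' : F 1 1 - ι (F₀ 1 1) = ι w - e - ι (F₀ 1 1 - 1) := by
        rw [map_sub ι (F₀ 1 1), map_one]
        change 1 + (ι w - e) - ι (F₀ 1 1) = _
        ring
      rw [e']
      exact Ideal.sub_mem _ (Ideal.sub_mem _ (hιm _ hq) he1) (hιm _ a11)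
  have hNm : ∀ i j, N i j - ι (N₀ i j) ∈ maximalIdeal (QR B w) := by
    intro i j
    change 0 - ι (N₀ i j) ∈ _
    rw [zero_sub]
    refine (Ideal.neg_mem_iff _).mpr (hιm _ ?_)
    match i, j with
    | 0, 0 => exact b00
    | 0, 1 => exact b01
    | 1, 0 => exact b10
    | 1, 1 => exact b11
  set J : Ideal (QR B w) := (maximalIdeal B).map ι ⊔ Ideal.span
    (Set.range fun p : Fin 2 × Fin 2 => F p.1 p.2 - ι (F₀ p.1 p.2)) ⊔ Ideal.span
    (Set.range fun p : Fin 2 × Fin 2 => N p.1 p.2 - ι (N₀ p.1 p.2)) with hJ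
  have hgF : ∀ i j, F i j - ι (F₀ i j) ∈ J := fun i j =>
    Ideal.mem_sup_left (Ideal.mem_sup_right (Ideal.subset_span ⟨(i, j), rfl⟩))
  have hgB : ∀ b ∈ maximalIdeal B, ι b ∈ J := fun b hb =>
    Ideal.mem_sup_left (Ideal.mem_sup_left (Ideal.mem_map_of_mem _ hb))
  have j1 : e ∈ J := by
    have e' : e = (F 0 0 - ι (F₀ 0 0)) + ι (F₀ 0 0 - 1) := by
      rw [map_sub, map_one]; change e = 1 + e - ι (F₀ 0 0) + _; ring
    rw [e']; exact J.add_mem (hgF 0 0) (hgB _ a00)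
  have jx1 : σ (C X) ∈ J := by
    have e' : σ (C X) = (F 0 1 - ι (F₀ 0 1)) + ι (F₀ 0 1) := by
      change σ (C X) = σ (C X) - ι (F₀ 0 1) + _; ring
    rw [e']; exact J.add_mem (hgF 0 1) (hgB _ a01)
  have jx2 : σ X ∈ J := by
    have e' : σ X = (F 1 0 - ι (F₀ 1 0)) + ι (F₀ 1 0) := by
      change σ X = σ X - ι (F₀ 1 0) + ι (F₀ 1 0); ring
    rw [e']; exact J.add_mem (hgF 1 0) (hgB _ a10)
  refine ⟨{
    R := QR B w
    ι := ι
    inj := ?_
    isLocalHom := hιloc
    F := F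
    N := N
    holds := hholds
    nz := trivial
    resF := hFm
    resN := hNm
    resSurj := ?_
    gen := ?_
    dim := fun m hm => hdim _ hm.ps.ps
    lift := ?_
    uniq := ?_ }⟩
  · intro a b hab
    have := congrArg QuadraticAlgebra.re hab
    exact ι2_inj B this
  · intro r
    obtain ⟨b, hb⟩ := resSurj2 (B := B) r.re
    exact ⟨b, (hmem' _).mpr hb⟩
  · intro a ha
    have hc0 := (hmem' a).mp ha
    change a ∈ J
    rw [hlin a]
    refine J.add_mem ?_ (J.mul_mem_left _ j1)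
    have h2 := Ideal.mem_map_of_mem σ (max2_le hc0)
    rw [Ideal.map_sup, Ideal.map_map, Ideal.map_span] at h2
    refine (sup_le ?_ ?_ : _ ≤ J) h2
    · rw [Ideal.map_le_iff_le_comap]
      exact fun b hb => hgB b hb
    · rw [Ideal.span_le]
      rintro _ ⟨y, (rfl | hy), rfl⟩
      · exact jx1
      · rw [Set.mem_singleton_iff] at hy
        subst hy
        exact jx2
  · intro A _ _ _ φ hφ F' N' hT hF' hN'
    have hT' : IsP (φ q) F' N' := hT
    have htr := hT'.trF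
    rw [Matrix.trace_fin_two] at htr
    have hdt := hT'.detF
    rw [Matrix.det_fin_two] at hdt
    have hφm : ∀ b ∈ maximalIdeal B, φ b ∈ maximalIdeal A := fun b hb => mem_of_isLocalHom hφ hb
    have c1 : F' 0 1 ∈ maximalIdeal A := by
      have := Ideal.add_mem _ (hF' 0 1) (hφm _ a01)
      rwa [sub_add_cancel] at this
    have c2 : F' 1 0 ∈ maximalIdeal A := by
      have := Ideal.add_mem _ (hF' 1 0) (hφm _ a10)
      rwa [sub_add_cancel] at this
    have c6 : F' 0 0 - 1 ∈ maximalIdeal A := by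
      have := Ideal.add_mem _ (hF' 0 0) (hφm _ a00)
      rwa [map_sub, map_one, sub_add_sub_cancel] at this
    set χ := lift2 φ (F' 0 1) (F' 1 0) c1 c2 with hχ
    have k0 : ∀ b, χ (ι2 B b) = φ b := fun b => lift2_ι _ _ _ _ _ b
    have k1 : χ (C X) = F' 0 1 := lift2_X₁ _ _ _ _ _
    have k2 : χ X = F' 1 0 := lift2_X₂ _ _ _ _ _
    have kt : χ (C (C w)) = φ q - 1 := by
      have : (C (C w) : PS2 B) = ι2 B w := rfl
      rw [this, k0, hw, map_sub, map_one]
    have hχloc : IsLocalHom χ := lift2_local φ hφ _ _ _ _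
    have hrel' : (F' 0 0 - 1) * (F' 0 0 - 1) = χ (-(C X * X)) + χ (C (C w)) * (F' 0 0 - 1) := by
      rw [kt, map_neg, map_mul, k1, k2]
      linear_combination -hdt + F' 0 0 * htr
    set ψ := quadHom χ (F' 0 0 - 1) hrel' with hψ
    have g : ∀ z, ψ z = χ z.re + χ z.im * (F' 0 0 - 1) := fun z => rfl
    have g0 : ∀ s, ψ (σ s) = χ s := fun s => by rw [g, hσre, hσim]; simp
    have g1 : ψ e = F' 0 0 - 1 := by rw [g]; simp [he]
    refine ⟨ψ, ?_, ?_, ?_, ?_⟩
    · refine isLocalHom_of_mem _ fun a ha => ?_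
      rw [hmem'] at ha
      rw [g]
      exact Ideal.add_mem _ (mem_of_isLocalHom hχloc ha) (Ideal.mul_mem_left _ _ c6)
    · ext b
      change ψ (σ (ι2 B b)) = φ b
      rw [g0, k0]
    · ext i j
      match i, j with
      | 0, 0 =>
        change ψ (1 + e) = F' 0 0
        rw [map_add, map_one, g1, add_sub_cancel]
      | 0, 1 =>
        change ψ (σ (C X)) = F' 0 1
        rw [g0, k1]
      | 1, 0 =>
        change ψ (σ X) = F' 1 0
        rw [g0, k2]
      | 1, 1 =>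
        change ψ (1 + (σ (ι2 B w) - e)) = F' 1 1
        rw [map_add, map_one, map_sub, g0, k0, g1, hw, map_sub, map_one]
        linear_combination -htr
    · rw [hT'.N0]
      ext i j
      simp [hN]
  · intro A _ _ _ ψ ψ' hψ hψ' k0 k1 k2
    have l : ∀ i j, ψ (F i j) = ψ' (F i j) := fun i j => congrFun (congrFun k1 i) j
    have n1 : ψ e = ψ' e := by
      have h2 : ψ (1 + e) = ψ' (1 + e) := l 0 0
      rw [map_add, map_add, map_one, map_one] at h2
      exact add_left_cancel h2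
    have hloc : IsLocalHom (ψ.comp σ) := isLocalHom_of_mem _ fun r hr =>
      mem_of_isLocalHom hψ (hσm r hr)
    have n0 := ext2 (B := B) (ψ := ψ.comp σ) (ψ' := ψ'.comp σ) hloc k0 (l 0 1) (l 1 0)
    have n0' : ∀ s, ψ (σ s) = ψ' (σ s) := fun s => DFunLike.congr_fun n0 s
    ext z
    rw [hlin z, map_add, map_mul, map_add, map_mul, n0', n0', n1]

/-! ### all residual pairs -/

/-- The package for type `stp` exists for all residual pairs. -/
theorem stp_pkg (h : ResHolds .stp q F₀ N₀) : Nonempty (LocPkg .stp B q F₀ N₀ 3) := by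
  by_cases h0 : ∃ j, IsUnit (row0 F₀ N₀ j)
  · obtain ⟨j, hj⟩ := h0
    exact st_chart1 h hj
  by_cases h1 : ∃ j, IsUnit (row1 F₀ N₀ j)
  · obtain ⟨j, hj⟩ := h1
    have h2 : ∃ j', row0 (sw F₀) (sw N₀) j' = row1 F₀ N₀ j := by
      match j with
      | 0 => exact ⟨1, rfl⟩
      | 1 => exact ⟨0, rfl⟩
      | 2 => exact ⟨3, rfl⟩
      | 3 => exact ⟨2, rfl⟩
    obtain ⟨j', hj'⟩ := h2
    have h3 : ResHolds .stp q (sw F₀) (sw N₀) := Ty.Holds.sw h
    obtain ⟨P⟩ := st_chart1 h3 (j₀ := j') (by rw [hj']; exact hj)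
    exact ⟨P.swap⟩
  · push Not at h0 h1
    have h0' : ∀ j, row0 F₀ N₀ j ∈ maximalIdeal B := fun j => (mem_maximalIdeal _).mpr (h0 j)
    have h1' : ∀ j, row1 F₀ N₀ j ∈ maximalIdeal B := fun j => (mem_maximalIdeal _).mpr (h1 j)
    refine st_scalar (q - 1) rfl ?_ h0' h1'
    have h' : IsSt (residue B q) (F₀.map (residue B)) (N₀.map (residue B)) := h
    have htr := h'.trF
    rw [trace_map', Matrix.trace_fin_two, map_add] at htr
    have e0 : residue B (F₀ 0 0 - 1) = 0 := (residue_eq_zero_iff _).mpr (h0' 0)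
    have e1 : residue B (F₀ 1 1 - 1) = 0 := (residue_eq_zero_iff _).mpr (h1' 1)
    rw [map_sub, map_one] at e0 e1
    rw [← residue_eq_zero_iff, map_sub, map_one]
    linear_combination e0 + e1 - htr

/-- The package for type `pp` exists for all residual pairs. -/
theorem pp_pkg (h : ResHolds .pp q F₀ N₀) : Nonempty (LocPkg .pp B q F₀ N₀ 2) := by
  by_cases h0 : ∃ j, IsUnit (row0 F₀ N₀ j)
  · obtain ⟨j, hj⟩ := h0
    exact p_chart1 h hj
  by_cases h1 : ∃ j, IsUnit (row1 F₀ N₀ j)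
  · obtain ⟨j, hj⟩ := h1
    have h2 : ∃ j', row0 (sw F₀) (sw N₀) j' = row1 F₀ N₀ j := by
      match j with
      | 0 => exact ⟨1, rfl⟩
      | 1 => exact ⟨0, rfl⟩
      | 2 => exact ⟨3, rfl⟩
      | 3 => exact ⟨2, rfl⟩
    obtain ⟨j', hj'⟩ := h2
    have h3 : ResHolds .pp q (sw F₀) (sw N₀) := Ty.Holds.sw h
    obtain ⟨P⟩ := p_chart1 h3 (j₀ := j') (by rw [hj']; exact hj)
    exact ⟨P.swap⟩
  · push Not at h0 h1
    have h0' : ∀ j, row0 F₀ N₀ j ∈ maximalIdeal B := fun j => (mem_maximalIdeal _).mpr (h0 j)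
    have h1' : ∀ j, row1 F₀ N₀ j ∈ maximalIdeal B := fun j => (mem_maximalIdeal _).mpr (h1 j)
    refine p_scalar (q - 1) rfl ?_ h0' h1'
    have h' : IsP (residue B q) (F₀.map (residue B)) (N₀.map (residue B)) := h
    have htr := h'.trF
    rw [trace_map', Matrix.trace_fin_two, map_add] at htr
    have e0 : residue B (F₀ 0 0 - 1) = 0 := (residue_eq_zero_iff _).mpr (h0' 0)
    have e1 : residue B (F₀ 1 1 - 1) = 0 := (residue_eq_zero_iff _).mpr (h1' 1)
    rw [map_sub, map_one] at e0 e1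
    rw [← residue_eq_zero_iff, map_sub, map_one]
    linear_combination e0 + e1 - htr

/-- **Main theorem for one prime**: the universal ring of pairs of type `T` lifting a given
residual pair of type `T` exists, is a complete noetherian local domain, and has `T.dim` more
parameters than the base. -/
theorem exists_locPkg (T : Ty) (hq : IsUnit q) (h : ResHolds T q F₀ N₀) :
    Nonempty (LocPkg T B q F₀ N₀ T.dim) := by
  have hneg : (-F₀).map (residue B) = -(F₀.map (residue B)) := neg_map' _ _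
  cases T
  · exact unr_pkg hq h
  · exact stp_pkg h
  · have h2 : ResHolds .stp q (-F₀) N₀ := by
      change IsSt _ _ _
      rw [hneg]; exact h
    obtain ⟨P⟩ := stp_pkg h2
    exact ⟨P.twist (fun q F N => Iff.rfl) (fun q F N h => h)⟩
  · exact pp_pkg h
  · have h2 : ResHolds .pp q (-F₀) N₀ := by
      change IsP _ _ _
      rw [hneg]; exact h
    obtain ⟨P⟩ := pp_pkg h2
    exact ⟨P.twist (fun q F N => Iff.rfl) (fun q F N h => h)⟩

end package

end Fermat.Agent.LocRing
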