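import Mathlib

/-!
# The Steinberg local ring at trivial residual representation

For a commutative ring `S` with elements `t, y₁, y₂, y₃` we define the commutative `S`-algebra
`StAlg t y₁ y₂ y₃`, free of rank `4` over `S`. With
`A = (e₁, y₁; y₃ - e₃, t - e₁)` and `N = (e₂, e₃; y₂, -e₂)`, it is the universal `S`-algebra in
which all `2 × 2` minors of the `2 × 4` matrix `[A | N]` vanish.
-/

set_option autoImplicit false

namespace Fermat.Agent.LocRing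

/-- the algebra `S ⊕ S e₁ ⊕ S e₂ ⊕ S e₃` -/
@[ext]
structure StAlg {S : Type*} [CommRing S] (t y₁ y₂ y₃ : S) where
  /-- constant coefficient -/
  c0 : S
  /-- coefficient of `e₁` -/
  c1 : S
  /-- coefficient of `e₂` -/
  c2 : S
  /-- coefficient of `e₃` -/
  c3 : S

namespace StAlg

variable {S : Type*} [CommRing S] {t y₁ y₂ y₃ : S}

instance : Zero (StAlg t y₁ y₂ y₃) := ⟨⟨0, 0, 0, 0⟩⟩
instance : One (StAlg t y₁ y₂ y₃) := ⟨⟨1, 0, 0, 0⟩⟩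
instance : Add (StAlg t y₁ y₂ y₃) :=
  ⟨fun a b => ⟨a.c0 + b.c0, a.c1 + b.c1, a.c2 + b.c2, a.c3 + b.c3⟩⟩
instance : Neg (StAlg t y₁ y₂ y₃) := ⟨fun a => ⟨-a.c0, -a.c1, -a.c2, -a.c3⟩⟩
instance : Sub (StAlg t y₁ y₂ y₃) :=
  ⟨fun a b => ⟨a.c0 - b.c0, a.c1 - b.c1, a.c2 - b.c2, a.c3 - b.c3⟩⟩
instance : Mul (StAlg t y₁ y₂ y₃) :=
  ⟨fun a b =>
    ⟨a.c0 * b.c0 - y₁ * y₃ * (a.c1 * b.c1) - y₁ * y₂ * (a.c1 * b.c2 + a.c2 * b.c1)
        - y₁ * y₂ * (a.c3 * b.c3),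
      a.c0 * b.c1 + a.c1 * b.c0 + t * (a.c1 * b.c1) - y₂ * (a.c2 * b.c3 + a.c3 * b.c2),
      a.c0 * b.c2 + a.c2 * b.c0 + t * (a.c1 * b.c2 + a.c2 * b.c1)
        + y₁ * (a.c1 * b.c3 + a.c3 * b.c1) + y₃ * (a.c2 * b.c3 + a.c3 * b.c2)
        + t * (a.c3 * b.c3),
      a.c0 * b.c3 + a.c3 * b.c0 + y₁ * (a.c1 * b.c1) + t * (a.c1 * b.c3 + a.c3 * b.c1)
        - y₂ * (a.c2 * b.c2) + y₃ * (a.c3 * b.c3)⟩⟩
instance : SMul ℕ (StAlg t y₁ y₂ y₃) := ⟨fun n a => ⟨n • a.c0, n • a.c1, n • a.c2, n • a.c3⟩⟩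
instance : SMul ℤ (StAlg t y₁ y₂ y₃) := ⟨fun n a => ⟨n • a.c0, n • a.c1, n • a.c2, n • a.c3⟩⟩
instance : SMul S (StAlg t y₁ y₂ y₃) := ⟨fun n a => ⟨n * a.c0, n * a.c1, n * a.c2, n * a.c3⟩⟩
instance : NatCast (StAlg t y₁ y₂ y₃) := ⟨fun n => ⟨n, 0, 0, 0⟩⟩
instance : IntCast (StAlg t y₁ y₂ y₃) := ⟨fun n => ⟨n, 0, 0, 0⟩⟩

@[simp] theorem zero_c0 : (0 : StAlg t y₁ y₂ y₃).c0 = 0 := rfl
@[simp] theorem zero_c1 : (0 : StAlg t y₁ y₂ y₃).c1 = 0 := rfl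
@[simp] theorem zero_c2 : (0 : StAlg t y₁ y₂ y₃).c2 = 0 := rfl
@[simp] theorem zero_c3 : (0 : StAlg t y₁ y₂ y₃).c3 = 0 := rfl
@[simp] theorem one_c0 : (1 : StAlg t y₁ y₂ y₃).c0 = 1 := rfl
@[simp] theorem one_c1 : (1 : StAlg t y₁ y₂ y₃).c1 = 0 := rfl
@[simp] theorem one_c2 : (1 : StAlg t y₁ y₂ y₃).c2 = 0 := rfl
@[simp] theorem one_c3 : (1 : StAlg t y₁ y₂ y₃).c3 = 0 := rfl
@[simp] theorem add_c0 (a b : StAlg t y₁ y₂ y₃) : (a + b).c0 = a.c0 + b.c0 := rfl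
@[simp] theorem add_c1 (a b : StAlg t y₁ y₂ y₃) : (a + b).c1 = a.c1 + b.c1 := rfl
@[simp] theorem add_c2 (a b : StAlg t y₁ y₂ y₃) : (a + b).c2 = a.c2 + b.c2 := rfl
@[simp] theorem add_c3 (a b : StAlg t y₁ y₂ y₃) : (a + b).c3 = a.c3 + b.c3 := rfl
@[simp] theorem neg_c0 (a : StAlg t y₁ y₂ y₃) : (-a).c0 = -a.c0 := rfl
@[simp] theorem neg_c1 (a : StAlg t y₁ y₂ y₃) : (-a).c1 = -a.c1 := rfl
@[simp] theorem neg_c2 (a : StAlg t y₁ y₂ y₃) : (-a).c2 = -a.c2 := rfl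
@[simp] theorem neg_c3 (a : StAlg t y₁ y₂ y₃) : (-a).c3 = -a.c3 := rfl
@[simp] theorem sub_c0 (a b : StAlg t y₁ y₂ y₃) : (a - b).c0 = a.c0 - b.c0 := rfl
@[simp] theorem sub_c1 (a b : StAlg t y₁ y₂ y₃) : (a - b).c1 = a.c1 - b.c1 := rfl
@[simp] theorem sub_c2 (a b : StAlg t y₁ y₂ y₃) : (a - b).c2 = a.c2 - b.c2 := rfl
@[simp] theorem sub_c3 (a b : StAlg t y₁ y₂ y₃) : (a - b).c3 = a.c3 - b.c3 := rfl
@[simp] theorem smul_c0 (s : S) (a : StAlg t y₁ y₂ y₃) : (s • a).c0 = s * a.c0 := rfl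
@[simp] theorem smul_c1 (s : S) (a : StAlg t y₁ y₂ y₃) : (s • a).c1 = s * a.c1 := rfl
@[simp] theorem smul_c2 (s : S) (a : StAlg t y₁ y₂ y₃) : (s • a).c2 = s * a.c2 := rfl
@[simp] theorem smul_c3 (s : S) (a : StAlg t y₁ y₂ y₃) : (s • a).c3 = s * a.c3 := rfl
@[simp] theorem nsmul_c0 (n : ℕ) (a : StAlg t y₁ y₂ y₃) : (n • a).c0 = n • a.c0 := rfl
@[simp] theorem nsmul_c1 (n : ℕ) (a : StAlg t y₁ y₂ y₃) : (n • a).c1 = n • a.c1 := rfl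
@[simp] theorem nsmul_c2 (n : ℕ) (a : StAlg t y₁ y₂ y₃) : (n • a).c2 = n • a.c2 := rfl
@[simp] theorem nsmul_c3 (n : ℕ) (a : StAlg t y₁ y₂ y₃) : (n • a).c3 = n • a.c3 := rfl
@[simp] theorem zsmul_c0 (n : ℤ) (a : StAlg t y₁ y₂ y₃) : (n • a).c0 = n • a.c0 := rfl
@[simp] theorem zsmul_c1 (n : ℤ) (a : StAlg t y₁ y₂ y₃) : (n • a).c1 = n • a.c1 := rfl
@[simp] theorem zsmul_c2 (n : ℤ) (a : StAlg t y₁ y₂ y₃) : (n • a).c2 = n • a.c2 := rfl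
@[simp] theorem zsmul_c3 (n : ℤ) (a : StAlg t y₁ y₂ y₃) : (n • a).c3 = n • a.c3 := rfl
@[simp] theorem natCast_c0 (n : ℕ) : ((n : ℕ) : StAlg t y₁ y₂ y₃).c0 = n := rfl
@[simp] theorem natCast_c1 (n : ℕ) : ((n : ℕ) : StAlg t y₁ y₂ y₃).c1 = 0 := rfl
@[simp] theorem natCast_c2 (n : ℕ) : ((n : ℕ) : StAlg t y₁ y₂ y₃).c2 = 0 := rfl
@[simp] theorem natCast_c3 (n : ℕ) : ((n : ℕ) : StAlg t y₁ y₂ y₃).c3 = 0 := rfl
@[simp] theorem intCast_c0 (n : ℤ) : ((n : ℤ) : StAlg t y₁ y₂ y₃).c0 = n := rfl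
@[simp] theorem intCast_c1 (n : ℤ) : ((n : ℤ) : StAlg t y₁ y₂ y₃).c1 = 0 := rfl
@[simp] theorem intCast_c2 (n : ℤ) : ((n : ℤ) : StAlg t y₁ y₂ y₃).c2 = 0 := rfl
@[simp] theorem intCast_c3 (n : ℤ) : ((n : ℤ) : StAlg t y₁ y₂ y₃).c3 = 0 := rfl

theorem mul_c0 (a b : StAlg t y₁ y₂ y₃) : (a * b).c0 =
    a.c0 * b.c0 - y₁ * y₃ * (a.c1 * b.c1) - y₁ * y₂ * (a.c1 * b.c2 + a.c2 * b.c1)
        - y₁ * y₂ * (a.c3 * b.c3) := rfl
theorem mul_c1 (a b : StAlg t y₁ y₂ y₃) : (a * b).c1 =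
    a.c0 * b.c1 + a.c1 * b.c0 + t * (a.c1 * b.c1) - y₂ * (a.c2 * b.c3 + a.c3 * b.c2) := rfl
theorem mul_c2 (a b : StAlg t y₁ y₂ y₃) : (a * b).c2 =
    a.c0 * b.c2 + a.c2 * b.c0 + t * (a.c1 * b.c2 + a.c2 * b.c1)
        + y₁ * (a.c1 * b.c3 + a.c3 * b.c1) + y₃ * (a.c2 * b.c3 + a.c3 * b.c2)
        + t * (a.c3 * b.c3) := rfl
theorem mul_c3 (a b : StAlg t y₁ y₂ y₃) : (a * b).c3 =
    a.c0 * b.c3 + a.c3 * b.c0 + y₁ * (a.c1 * b.c1) + t * (a.c1 * b.c3 + a.c3 * b.c1)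
        - y₂ * (a.c2 * b.c2) + y₃ * (a.c3 * b.c3) := rfl

instance instCommRing : CommRing (StAlg t y₁ y₂ y₃) where
  add_assoc a b c := by ext <;> simp [add_assoc]
  zero_add a := by ext <;> simp
  add_zero a := by ext <;> simp
  add_comm a b := by ext <;> simp [add_comm]
  neg_add_cancel a := by ext <;> simp
  sub_eq_add_neg a b := by ext <;> simp [sub_eq_add_neg]
  nsmul n a := n • a
  nsmul_zero a := by ext <;> simp
  nsmul_succ n a := by ext <;> simp [add_mul]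
  zsmul n a := n • a
  zsmul_zero' a := by ext <;> simp
  zsmul_succ' n a := by ext <;> simp [add_mul]
  zsmul_neg' n a := by ext <;> simp <;> ring
  natCast_zero := by ext <;> simp
  natCast_succ n := by ext <;> simp
  intCast_ofNat n := by ext <;> simp
  intCast_negSucc n := by ext <;> simp
  mul_assoc a b c := by ext <;> simp only [mul_c0, mul_c1, mul_c2, mul_c3] <;> ring
  mul_comm a b := by ext <;> simp only [mul_c0, mul_c1, mul_c2, mul_c3] <;> ring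
  one_mul a := by ext <;> simp [mul_c0, mul_c1, mul_c2, mul_c3]
  mul_one a := by ext <;> simp [mul_c0, mul_c1, mul_c2, mul_c3]
  zero_mul a := by ext <;> simp [mul_c0, mul_c1, mul_c2, mul_c3]
  mul_zero a := by ext <;> simp [mul_c0, mul_c1, mul_c2, mul_c3]
  left_distrib a b c := by
    ext <;> simp only [mul_c0, mul_c1, mul_c2, mul_c3, add_c0, add_c1, add_c2, add_c3] <;> ring
  right_distrib a b c := by
    ext <;> simp only [mul_c0, mul_c1, mul_c2, mul_c3, add_c0, add_c1, add_c2, add_c3] <;> ring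

instance : Algebra S (StAlg t y₁ y₂ y₃) where
  algebraMap :=
    { toFun := fun s => ⟨s, 0, 0, 0⟩
      map_one' := rfl
      map_mul' := fun a b => by ext <;> simp [mul_c0, mul_c1, mul_c2, mul_c3]
      map_zero' := rfl
      map_add' := fun a b => by ext <;> simp }
  commutes' s a := mul_comm _ _
  smul_def' s a := by
    ext <;> simp [mul_c0, mul_c1, mul_c2, mul_c3]

@[simp] theorem algebraMap_c0 (s : S) : (algebraMap S (StAlg t y₁ y₂ y₃) s).c0 = s := rfl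
@[simp] theorem algebraMap_c1 (s : S) : (algebraMap S (StAlg t y₁ y₂ y₃) s).c1 = 0 := rfl
@[simp] theorem algebraMap_c2 (s : S) : (algebraMap S (StAlg t y₁ y₂ y₃) s).c2 = 0 := rfl
@[simp] theorem algebraMap_c3 (s : S) : (algebraMap S (StAlg t y₁ y₂ y₃) s).c3 = 0 := rfl

/-- `e₁` -/
def e₁ : StAlg t y₁ y₂ y₃ := ⟨0, 1, 0, 0⟩
/-- `e₂` -/
def e₂ : StAlg t y₁ y₂ y₃ := ⟨0, 0, 1, 0⟩
/-- `e₃` -/
def e₃ : StAlg t y₁ y₂ y₃ := ⟨0, 0, 0, 1⟩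

@[simp] theorem e₁_c0 : (e₁ : StAlg t y₁ y₂ y₃).c0 = 0 := rfl
@[simp] theorem e₁_c1 : (e₁ : StAlg t y₁ y₂ y₃).c1 = 1 := rfl
@[simp] theorem e₁_c2 : (e₁ : StAlg t y₁ y₂ y₃).c2 = 0 := rfl
@[simp] theorem e₁_c3 : (e₁ : StAlg t y₁ y₂ y₃).c3 = 0 := rfl
@[simp] theorem e₂_c0 : (e₂ : StAlg t y₁ y₂ y₃).c0 = 0 := rfl
@[simp] theorem e₂_c1 : (e₂ : StAlg t y₁ y₂ y₃).c1 = 0 := rfl
@[simp] theorem e₂_c2 : (e₂ : StAlg t y₁ y₂ y₃).c2 = 1 := rfl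
@[simp] theorem e₂_c3 : (e₂ : StAlg t y₁ y₂ y₃).c3 = 0 := rfl
@[simp] theorem e₃_c0 : (e₃ : StAlg t y₁ y₂ y₃).c0 = 0 := rfl
@[simp] theorem e₃_c1 : (e₃ : StAlg t y₁ y₂ y₃).c1 = 0 := rfl
@[simp] theorem e₃_c2 : (e₃ : StAlg t y₁ y₂ y₃).c2 = 0 := rfl
@[simp] theorem e₃_c3 : (e₃ : StAlg t y₁ y₂ y₃).c3 = 1 := rfl

theorem eq_lin (a : StAlg t y₁ y₂ y₃) :
    a = algebraMap S _ a.c0 + a.c1 • e₁ + a.c2 • e₂ + a.c3 • e₃ := by
  ext <;> simp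

theorem e₁_mul_e₁ : (e₁ * e₁ : StAlg t y₁ y₂ y₃) =
    algebraMap S _ t * e₁ + algebraMap S _ y₁ * e₃ - algebraMap S _ (y₁ * y₃) := by
  ext <;> simp [mul_c0, mul_c1, mul_c2, mul_c3]
theorem e₁_mul_e₂ : (e₁ * e₂ : StAlg t y₁ y₂ y₃) =
    algebraMap S _ t * e₂ - algebraMap S _ (y₁ * y₂) := by
  ext <;> simp [mul_c0, mul_c1, mul_c2, mul_c3]
theorem e₁_mul_e₃ : (e₁ * e₃ : StAlg t y₁ y₂ y₃) =
    algebraMap S _ t * e₃ + algebraMap S _ y₁ * e₂ := by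
  ext <;> simp [mul_c0, mul_c1, mul_c2, mul_c3]
theorem e₂_mul_e₂ : (e₂ * e₂ : StAlg t y₁ y₂ y₃) = -(algebraMap S _ y₂ * e₃) := by
  ext <;> simp [mul_c0, mul_c1, mul_c2, mul_c3]
theorem e₂_mul_e₃ : (e₂ * e₃ : StAlg t y₁ y₂ y₃) =
    algebraMap S _ y₃ * e₂ - algebraMap S _ y₂ * e₁ := by
  ext <;> simp [mul_c0, mul_c1, mul_c2, mul_c3]
theorem e₃_mul_e₃ : (e₃ * e₃ : StAlg t y₁ y₂ y₃) =
    algebraMap S _ t * e₂ - algebraMap S _ (y₁ * y₂) + algebraMap S _ y₃ * e₃ := by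
  ext <;> simp [mul_c0, mul_c1, mul_c2, mul_c3]

/-- coordinates -/
def equivFun : StAlg t y₁ y₂ y₃ ≃ₗ[S] (Fin 4 → S) where
  toFun a := ![a.c0, a.c1, a.c2, a.c3]
  invFun f := ⟨f 0, f 1, f 2, f 3⟩
  map_add' a b := by
    funext i; fin_cases i <;> rfl
  map_smul' s a := by
    funext i; fin_cases i <;> rfl
  left_inv a := rfl
  right_inv f := by
    funext i; fin_cases i <;> rfl

/-- the basis `1, e₁, e₂, e₃` -/
noncomputable def basis : Module.Basis (Fin 4) S (StAlg t y₁ y₂ y₃) :=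
  Module.Basis.ofEquivFun equivFun

instance : Module.Free S (StAlg t y₁ y₂ y₃) := Module.Free.of_basis basis
instance : Module.Finite S (StAlg t y₁ y₂ y₃) := Module.Finite.of_basis basis

/-- The relations defining `StAlg`: the `2 × 2` minors of
`(x₁, y₁, x₂, x₃; y₃ - x₃, t - x₁, y₂, -x₂)`. -/
structure Rel {B : Type*} [CommRing B] (t y₁ y₂ y₃ x₁ x₂ x₃ : B) : Prop where
  m12 : x₁ * (t - x₁) = y₁ * (y₃ - x₃)
  m13 : x₁ * y₂ = x₂ * (y₃ - x₃)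
  m14 : x₁ * (-x₂) = x₃ * (y₃ - x₃)
  m23 : y₁ * y₂ = x₂ * (t - x₁)
  m24 : y₁ * (-x₂) = x₃ * (t - x₁)
  m34 : x₂ * (-x₂) = x₃ * y₂

theorem rel_e : Rel (algebraMap S (StAlg t y₁ y₂ y₃) t) (algebraMap S _ y₁) (algebraMap S _ y₂)
    (algebraMap S _ y₃) e₁ e₂ e₃ where
  m12 := by
    rw [mul_sub, e₁_mul_e₁, map_mul]; ring
  m13 := by
    rw [mul_sub, e₂_mul_e₃]; ring
  m14 := by
    rw [mul_neg, e₁_mul_e₂, mul_sub, e₃_mul_e₃, map_mul]; ring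
  m23 := by
    rw [mul_sub, mul_comm e₂ e₁, e₁_mul_e₂, map_mul]; ring
  m24 := by
    rw [mul_sub, mul_comm e₃ e₁, e₁_mul_e₃]; ring
  m34 := by
    rw [mul_neg, e₂_mul_e₂]; ring

/-- The universal property. -/
def lift {B : Type*} [CommRing B] [Algebra S B] (x₁ x₂ x₃ : B)
    (h : Rel (algebraMap S B t) (algebraMap S B y₁) (algebraMap S B y₂) (algebraMap S B y₃)
      x₁ x₂ x₃) : StAlg t y₁ y₂ y₃ →ₐ[S] B where
  toFun a := algebraMap S B a.c0 + algebraMap S B a.c1 * x₁ + algebraMap S B a.c2 * x₂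
    + algebraMap S B a.c3 * x₃
  map_one' := by simp
  map_zero' := by simp
  map_add' a b := by simp only [add_c0, add_c1, add_c2, add_c3, map_add]; ring
  commutes' s := by simp
  map_mul' a b := by
    simp only [mul_c0, mul_c1, mul_c2, mul_c3, map_add, map_sub, map_mul]
    obtain ⟨h12, h13, h14, h23, h24, h34⟩ := h
    set T := algebraMap S B t
    set Y₁ := algebraMap S B y₁
    set Y₂ := algebraMap S B y₂
    set Y₃ := algebraMap S B y₃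
    set A0 := algebraMap S B a.c0
    set A1 := algebraMap S B a.c1
    set A2 := algebraMap S B a.c2
    set A3 := algebraMap S B a.c3
    set B0 := algebraMap S B b.c0
    set B1 := algebraMap S B b.c1
    set B2 := algebraMap S B b.c2
    set B3 := algebraMap S B b.c3
    have r11 : x₁ * x₁ = T * x₁ + Y₁ * x₃ - Y₁ * Y₃ := by linear_combination -h12
    have r12 : x₁ * x₂ = T * x₂ - Y₁ * Y₂ := by linear_combination h23
    have r13 : x₁ * x₃ = T * x₃ + Y₁ * x₂ := by linear_combination h24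
    have r22 : x₂ * x₂ = -(Y₂ * x₃) := by linear_combination -h34
    have r23 : x₂ * x₃ = Y₃ * x₂ - Y₂ * x₁ := by linear_combination h13
    have r33 : x₃ * x₃ = T * x₂ - Y₁ * Y₂ + Y₃ * x₃ := by linear_combination h14 + r12
    linear_combination (-(A1 * B1)) * r11 - (A1 * B2 + A2 * B1) * r12
      - (A1 * B3 + A3 * B1) * r13 - (A2 * B2) * r22 - (A2 * B3 + A3 * B2) * r23
      - (A3 * B3) * r33

section
variable {B : Type*} [CommRing B] [Algebra S B] (x₁ x₂ x₃ : B)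
    (h : Rel (algebraMap S B t) (algebraMap S B y₁) (algebraMap S B y₂) (algebraMap S B y₃)
      x₁ x₂ x₃)

theorem lift_apply (a : StAlg t y₁ y₂ y₃) : lift x₁ x₂ x₃ h a =
    algebraMap S B a.c0 + algebraMap S B a.c1 * x₁ + algebraMap S B a.c2 * x₂
    + algebraMap S B a.c3 * x₃ := rfl

@[simp] theorem lift_e₁ : lift x₁ x₂ x₃ h e₁ = x₁ := by simp [lift_apply]
@[simp] theorem lift_e₂ : lift x₁ x₂ x₃ h e₂ = x₂ := by simp [lift_apply]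
@[simp] theorem lift_e₃ : lift x₁ x₂ x₃ h e₃ = x₃ := by simp [lift_apply]

end

theorem algHom_ext {B : Type*} [Semiring B] [Algebra S B] {f g : StAlg t y₁ y₂ y₃ →ₐ[S] B}
    (h1 : f e₁ = g e₁) (h2 : f e₂ = g e₂) (h3 : f e₃ = g e₃) : f = g := by
  ext a
  rw [eq_lin a]
  simp only [map_add, map_smul, AlgHom.commutes, h1, h2, h3]

end StAlg

end Fermat.Agent.LocRing
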