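import Fermat.Agent.LocRing.Charts

/-!
# Steinberg charts at nonzero residual pairs
-/

set_option autoImplicit false
set_option linter.unusedSectionVars false

open IsLocalRing PowerSeries

namespace Fermat.Agent.LocRing

universe u v

section minors

variable {A : Type*} [CommRing A] {q : A} {F N : Matrix (Fin 2) (Fin 2) A}

/-- first row of `[F - 1 | N]` -/
def row0 (F N : Matrix (Fin 2) (Fin 2) A) : Fin 4 → A := ![F 0 0 - 1, F 0 1, N 0 0, N 0 1]
/-- second row of `[F - 1 | N]` -/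
def row1 (F N : Matrix (Fin 2) (Fin 2) A) : Fin 4 → A := ![F 1 0, F 1 1 - 1, N 1 0, N 1 1]

theorem isSt_iff : IsSt q F N ↔ F 0 0 + F 1 1 = q + 1 ∧ N 0 0 + N 1 1 = 0 ∧
    StAlg.Rel (q - 1) (F 0 1) (N 1 0) (F 1 0 + N 0 1) (F 0 0 - 1) (N 0 0) (N 0 1) := by
  constructor
  · intro h
    have htr := h.trF
    rw [Matrix.trace_fin_two] at htr
    have htn := h.trN
    rw [Matrix.trace_fin_two] at htn
    have hd := h.detF
    rw [Matrix.det_fin_two] at hd
    have hdn := h.detN
    rw [Matrix.det_fin_two] at hdn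
    have e := fun i j => congrFun (congrFun h.NF i) j
    simp only [Matrix.mul_apply, Fin.sum_univ_two] at e
    have e00 := e 0 0
    have e01 := e 0 1
    have e10 := e 1 0
    have e11 := e 1 1
    have hF : F 1 1 = q + 1 - F 0 0 := by linear_combination htr
    have hN : N 1 1 = -N 0 0 := by linear_combination htn
    rw [hF] at hd e01 e11
    rw [hN] at hdn e10 e11
    refine ⟨htr, htn, ⟨?_, ?_, ?_, ?_, ?_, ?_⟩⟩
    · linear_combination hd
    · linear_combination e10
    · linear_combination -e00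
    · linear_combination e11
    · linear_combination -e01
    · linear_combination hdn
  · rintro ⟨htr, htn, ⟨m12, m13, m14, m23, m24, m34⟩⟩
    have hF : F 1 1 = q + 1 - F 0 0 := by linear_combination htr
    have hN : N 1 1 = -N 0 0 := by linear_combination htn
    refine ⟨?_, ?_, ?_, ?_, ?_, ?_⟩
    · rw [Matrix.trace_fin_two, htr]
    · rw [Matrix.det_fin_two, hF]
      linear_combination m12
    · rw [Matrix.trace_fin_two, htn]
    · rw [Matrix.det_fin_two, hN]
      linear_combination m34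
    · ext i j
      rw [Matrix.mul_apply, Fin.sum_univ_two, Matrix.smul_apply, smul_eq_mul]
      match i, j with
      | 0, 0 => linear_combination m23
      | 0, 1 => rw [hN]; linear_combination m24
      | 1, 0 => rw [hF]; linear_combination -m13
      | 1, 1 => rw [hF, hN]; linear_combination -m14
    · ext i j
      rw [Matrix.mul_apply, Fin.sum_univ_two]
      match i, j with
      | 0, 0 => linear_combination -m14
      | 0, 1 => rw [hF]; linear_combination -m24
      | 1, 0 => rw [hN]; linear_combination m13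
      | 1, 1 => rw [hF, hN]; linear_combination m23

theorem IsSt.minor (h : IsSt q F N) (i j : Fin 4) :
    row0 F N i * row1 F N j = row0 F N j * row1 F N i := by
  obtain ⟨htr, htn, ⟨m12, m13, m14, m23, m24, m34⟩⟩ := isSt_iff.mp h
  have hF : F 1 1 = q + 1 - F 0 0 := by linear_combination htr
  have hN : N 1 1 = -N 0 0 := by linear_combination htn
  have h0 : row0 F N 0 = F 0 0 - 1 := rfl
  have h1 : row0 F N 1 = F 0 1 := rfl
  have h2 : row0 F N 2 = N 0 0 := rfl
  have h3 : row0 F N 3 = N 0 1 := rfl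
  have g0 : row1 F N 0 = F 1 0 := rfl
  have g1 : row1 F N 1 = F 1 1 - 1 := rfl
  have g2 : row1 F N 2 = N 1 0 := rfl
  have g3 : row1 F N 3 = N 1 1 := rfl
  match i, j with
  | 0, 0 => ring
  | 0, 1 => rw [h0, h1, g0, g1, hF]; linear_combination m12
  | 0, 2 => rw [h0, h2, g0, g2]; linear_combination m13
  | 0, 3 => rw [h0, h3, g0, g3, hN]; linear_combination m14
  | 1, 0 => rw [h0, h1, g0, g1, hF]; linear_combination -m12
  | 1, 1 => ring
  | 1, 2 => rw [h1, h2, g1, g2, hF]; linear_combination m23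
  | 1, 3 => rw [h1, h3, g1, g3, hF, hN]; linear_combination m24
  | 2, 0 => rw [h0, h2, g0, g2]; linear_combination -m13
  | 2, 1 => rw [h1, h2, g1, g2, hF]; linear_combination -m23
  | 2, 2 => ring
  | 2, 3 => rw [h2, h3, g2, g3, hN]; linear_combination m34
  | 3, 0 => rw [h0, h3, g0, g3, hN]; linear_combination -m14
  | 3, 1 => rw [h1, h3, g1, g3, hF, hN]; linear_combination -m24
  | 3, 2 => rw [h2, h3, g2, g3, hN]; linear_combination -m34
  | 3, 3 => ring

theorem row0_map {A' : Type*} [CommRing A'] (f : A →+* A') (j : Fin 4) :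
    row0 (F.map f) (N.map f) j = f (row0 F N j) := by
  fin_cases j <;> simp [row0]

theorem row1_map {A' : Type*} [CommRing A'] (f : A →+* A') (j : Fin 4) :
    row1 (F.map f) (N.map f) j = f (row1 F N j) := by
  fin_cases j <;> simp [row1]

/-- The standard Steinberg pair with parameters `u, w, v`. -/
def stF (t u w : A) : Matrix (Fin 2) (Fin 2) A := !![1 + (t - u * w), w; u * (t - u * w), 1 + u * w]
/-- The standard Steinberg pair with parameters `u, w, v`. -/
def stN (u v : A) : Matrix (Fin 2) (Fin 2) A := !![-(u * v), v; -(u * u * v), u * v]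

theorem isSt_std (t u w v : A) : IsSt (t + 1) (stF t u w) (stN u v) := by
  rw [isSt_iff]
  simp only [stF, stN, Matrix.of_apply, Matrix.cons_val', Matrix.cons_val_zero,
    Matrix.cons_val_one, Matrix.cons_val_fin_one]
  refine ⟨by ring, by ring, ⟨?_, ?_, ?_, ?_, ?_, ?_⟩⟩ <;> ring

theorem stF_map {A' : Type*} [CommRing A'] (f : A →+* A') (t u w : A) :
    (stF t u w).map f = stF (f t) (f u) (f w) := by
  ext i j
  fin_cases i <;> fin_cases j <;> simp [stF]

theorem stN_map {A' : Type*} [CommRing A'] (f : A →+* A') (u v : A) :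
    (stN u v).map f = stN (f u) (f v) := by
  ext i j
  fin_cases i <;> fin_cases j <;> simp [stN]

/-- A Steinberg pair whose second row is a multiple of the first is standard. -/
theorem IsSt.eq_std (h : IsSt q F N) (u : A) (hu : ∀ j, row1 F N j = u * row0 F N j) :
    F = stF (q - 1) u (F 0 1) ∧ N = stN u (N 0 1) := by
  obtain ⟨htr, htn, -⟩ := isSt_iff.mp h
  have h0 : F 1 0 = u * (F 0 0 - 1) := hu 0
  have h1 : F 1 1 - 1 = u * F 0 1 := hu 1
  have h2 : N 1 0 = u * N 0 0 := hu 2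
  have h3 : N 1 1 = u * N 0 1 := hu 3
  have hF : F 0 0 - 1 = q - 1 - u * F 0 1 := by linear_combination htr - h1
  have hN : N 0 0 = -(u * N 0 1) := by linear_combination htn - h3
  constructor
  · ext i j
    match i, j with
    | 0, 0 => change F 0 0 = 1 + (q - 1 - u * F 0 1); linear_combination hF
    | 0, 1 => rfl
    | 1, 0 => change F 1 0 = u * (q - 1 - u * F 0 1); rw [h0, hF]
    | 1, 1 => change F 1 1 = 1 + u * F 0 1; linear_combination h1
  · ext i j
    match i, j with
    | 0, 0 => change N 0 0 = -(u * N 0 1); rw [hN]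
    | 0, 1 => rfl
    | 1, 0 => change N 1 0 = -(u * u * N 0 1); rw [h2, hN]; ring
    | 1, 1 => exact h3

/-- If the first row of a Steinberg pair over a local ring contains a unit, the second row
is a multiple of the first. -/
theorem IsSt.exists_ratio (h : IsSt q F N) {j₀ : Fin 4} (hj : IsUnit (row0 F N j₀)) :
    ∃ u, ∀ j, row1 F N j = u * row0 F N j := by
  obtain ⟨c, hc⟩ := isUnit_iff_exists_inv.mp hj
  refine ⟨row1 F N j₀ * c, fun j => ?_⟩
  have := h.minor j₀ j
  linear_combination c * this - row1 F N j * hc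

theorem isP_iff : IsP q F N ↔ IsSt q F N ∧ N = 0 := by
  constructor
  · intro h
    refine ⟨⟨h.trF, h.detF, ?_, ?_, ?_, ?_⟩, h.N0⟩
    · rw [h.N0]; simp
    · rw [h.N0, Matrix.det_fin_two]; simp
    · rw [h.N0]; simp
    · rw [h.N0]; simp
  · rintro ⟨h, hN⟩
    exact ⟨h.trF, h.detF, hN⟩

end minors

section chart

variable {B : Type u} [CommRing B] [IsDomain B] [IsLocalRing B] [IsNoetherianRing B]
  [IsAdicComplete (maximalIdeal B) B] {q : B} {F₀ N₀ : Matrix (Fin 2) (Fin 2) B}

/-- residual data for the first chart -/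
theorem res_std (h : IsSt (residue B q) (F₀.map (residue B)) (N₀.map (residue B))) {j₀ : Fin 4}
    (hj : IsUnit (row0 F₀ N₀ j₀)) :
    ∃ α : B, (∀ j, residue B (row1 F₀ N₀ j) = residue B α * residue B (row0 F₀ N₀ j)) ∧
      F₀.map (residue B) = stF (residue B (q - 1)) (residue B α) (residue B (F₀ 0 1)) ∧
      N₀.map (residue B) = stN (residue B α) (residue B (N₀ 0 1)) := by
  obtain ⟨u, hu⟩ := h.exists_ratio (j₀ := j₀) (by rw [row0_map]; exact hj.map _)
  obtain ⟨α, rfl⟩ := residue_surjective u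
  refine ⟨α, fun j => ?_, ?_⟩
  · rw [← row0_map, ← row1_map]; exact hu j
  · have := h.eq_std _ hu
    simpa using this

theorem row0_sub_mem {R : Type*} [CommRing R] (I : Ideal R) {F N F' N' : Matrix (Fin 2) (Fin 2) R}
    (hF : ∀ i j, F i j - F' i j ∈ I) (hN : ∀ i j, N i j - N' i j ∈ I) (j : Fin 4) :
    row0 F N j - row0 F' N' j ∈ I := by
  match j with
  | 0 =>
    have h : row0 F N 0 - row0 F' N' 0 = F 0 0 - F' 0 0 := by
      change (F 0 0 - 1) - (F' 0 0 - 1) = _; ring
    rw [h]; exact hF 0 0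
  | 1 => exact hF 0 1
  | 2 => exact hN 0 0
  | 3 => exact hN 0 1

theorem row1_sub_mem {R : Type*} [CommRing R] (I : Ideal R) {F N F' N' : Matrix (Fin 2) (Fin 2) R}
    (hF : ∀ i j, F i j - F' i j ∈ I) (hN : ∀ i j, N i j - N' i j ∈ I) (j : Fin 4) :
    row1 F N j - row1 F' N' j ∈ I := by
  match j with
  | 0 => exact hF 1 0
  | 1 =>
    have h : row1 F N 1 - row1 F' N' 1 = F 1 1 - F' 1 1 := by
      change (F 1 1 - 1) - (F' 1 1 - 1) = _; ring
    rw [h]; exact hF 1 1
  | 2 => exact hN 1 0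
  | 3 => exact hN 1 1

/-- common part of lifting in the first chart -/
theorem chart_ratio {A : Type*} [CommRing A] [IsLocalRing A] (φ : B →+* A) (hφ : IsLocalHom φ)
    {F' N' : Matrix (Fin 2) (Fin 2) A} (hT : IsSt (φ q) F' N')
    (hF : ∀ i j, F' i j - φ (F₀ i j) ∈ maximalIdeal A)
    (hN : ∀ i j, N' i j - φ (N₀ i j) ∈ maximalIdeal A) {j₀ : Fin 4}
    (hj : IsUnit (row0 F₀ N₀ j₀)) {α : B}
    (hα : ∀ j, residue B (row1 F₀ N₀ j) = residue B α * residue B (row0 F₀ N₀ j)) :
    ∃ u : A, u - φ α ∈ maximalIdeal A ∧ (∀ j, row1 F' N' j = u * row0 F' N' j) ∧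
      IsUnit (row0 F' N' j₀) := by
  have h0 : ∀ j, residue A (row0 F' N' j) = residue A (φ (row0 F₀ N₀ j)) := by
    intro j
    rw [← res_iff, ← row0_map]
    exact row0_sub_mem _ hF hN j
  have h1 : ∀ j, residue A (row1 F' N' j) = residue A (φ (row1 F₀ N₀ j)) := by
    intro j
    rw [← res_iff, ← row1_map]
    exact row1_sub_mem _ hF hN j
  have hunit : IsUnit (row0 F' N' j₀) := isUnit_of_res (h0 j₀) (hj.map φ)
  obtain ⟨u, hu⟩ := hT.exists_ratio hunit
  refine ⟨u, ?_, hu, hunit⟩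
  rw [res_iff]
  have h2 := congrArg (residue A) (hu j₀)
  rw [map_mul, h0, h1] at h2
  have h3 := congrArg (ResidueField.map φ) (hα j₀)
  rw [map_mul, ResidueField.map_residue, ResidueField.map_residue, ResidueField.map_residue] at h3
  rw [h2] at h3
  have h4 : residue A (φ (row0 F₀ N₀ j₀)) ≠ 0 := by
    rw [residue_ne_zero_iff_isUnit]; exact hj.map φ
  exact mul_right_cancel₀ h4 h3

theorem st_chart1 (h : ResHolds .stp q F₀ N₀) {j₀ : Fin 4} (hj : IsUnit (row0 F₀ N₀ j₀)) :
    Nonempty (LocPkg .stp B q F₀ N₀ 3) := by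
  obtain ⟨α, hα, hFres, hNres⟩ := res_std h hj
  set ι := ι3 B with hι
  have hιloc : IsLocalHom ι := ι3_local B
  set x₁ : PS3 B := C (C X) with hx₁
  set x₂ : PS3 B := C X with hx₂
  set x₃ : PS3 B := X with hx₃
  have hm1 : x₁ ∈ maximalIdeal (PS3 B) := C_mem (C_mem X_mem_maximalIdeal)
  have hm2 : x₂ ∈ maximalIdeal (PS3 B) := C_mem X_mem_maximalIdeal
  have hm3 : x₃ ∈ maximalIdeal (PS3 B) := X_mem_maximalIdeal
  have hr1 : residue (PS3 B) x₁ = 0 := (residue_eq_zero_iff _).mpr hm1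
  have hr2 : residue (PS3 B) x₂ = 0 := (residue_eq_zero_iff _).mpr hm2
  have hr3 : residue (PS3 B) x₃ = 0 := (residue_eq_zero_iff _).mpr hm3
  set u : PS3 B := ι α + x₁ with hu
  set w : PS3 B := ι (F₀ 0 1) + x₂ with hw
  set v : PS3 B := ι (N₀ 0 1) + x₃ with hv
  let F := stF (ι (q - 1)) u w
  let N := stN u v
  have hholds : IsSt (ι q) F N := by
    have h1 := isSt_std (ι (q - 1)) u w v
    have h2 : ι (q - 1) + 1 = ι q := by rw [map_sub, map_one, sub_add_cancel]
    rwa [h2] at h1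
  have hFr : F.map (residue (PS3 B)) = (F₀.map ι).map (residue (PS3 B)) := by
    have h1 : (F₀.map ι).map (residue (PS3 B)) =
        (F₀.map (residue B)).map (ResidueField.map ι) := by
      ext i j; simp
    rw [h1, hFres, stF_map, stF_map, hu, hw, map_add, map_add, hr1, hr2, add_zero, add_zero]
    simp only [ResidueField.map_residue]
  have hNr : N.map (residue (PS3 B)) = (N₀.map ι).map (residue (PS3 B)) := by
    have h1 : (N₀.map ι).map (residue (PS3 B)) =
        (N₀.map (residue B)).map (ResidueField.map ι) := by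
      ext i j; simp
    rw [h1, hNres, stN_map, stN_map, hu, hv, map_add, map_add, hr1, hr3, add_zero, add_zero]
    simp only [ResidueField.map_residue]
  have hFm : ∀ i j, F i j - ι (F₀ i j) ∈ maximalIdeal (PS3 B) := fun i j =>
    res_iff.mpr (congrFun (congrFun hFr i) j)
  have hNm : ∀ i j, N i j - ι (N₀ i j) ∈ maximalIdeal (PS3 B) := fun i j =>
    res_iff.mpr (congrFun (congrFun hNr i) j)
  have hrow : ∀ j, row1 F N j = u * row0 F N j := by
    intro j
    match j with
    | 0 => change u * (ι (q - 1) - u * w) = u * (1 + (ι (q - 1) - u * w) - 1); ring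
    | 1 => change 1 + u * w - 1 = u * w; ring
    | 2 => change -(u * u * v) = u * (-(u * v)); ring
    | 3 => rfl
  have hrunit : IsUnit (row0 F N j₀) := by
    refine isUnit_of_res (y := ι (row0 F₀ N₀ j₀)) ?_ (hj.map ι)
    rw [← res_iff, ← row0_map]
    exact row0_sub_mem _ hFm hNm j₀
  set J : Ideal (PS3 B) := (maximalIdeal B).map ι ⊔ Ideal.span
    (Set.range fun p : Fin 2 × Fin 2 => F p.1 p.2 - ι (F₀ p.1 p.2)) ⊔ Ideal.span
    (Set.range fun p : Fin 2 × Fin 2 => N p.1 p.2 - ι (N₀ p.1 p.2)) with hJ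
  have hgF : ∀ i j, F i j - (F₀.map ι) i j ∈ J := fun i j =>
    Ideal.mem_sup_left (Ideal.mem_sup_right (Ideal.subset_span ⟨(i, j), rfl⟩))
  have hgN : ∀ i j, N i j - (N₀.map ι) i j ∈ J := fun i j =>
    Ideal.mem_sup_right (Ideal.subset_span ⟨(i, j), rfl⟩)
  have hgB : ∀ b ∈ maximalIdeal B, ι b ∈ J := fun b hb =>
    Ideal.mem_sup_left (Ideal.mem_sup_left (Ideal.mem_map_of_mem _ hb))
  have hnz : Ty.NZ .stp (ι q) F N := by
    intro h1
    have h2 : ι (N₀ 0 1) + (X : PS3 B) = 0 := congrFun (congrFun h1 0) 1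
    have h3 := congrArg (coeff 1) h2
    have e4 : coeff 1 (ι (N₀ 0 1)) = 0 := by
      rw [hι, ι3, RingHom.comp_apply, coeff_C]; simp
    rw [map_add, coeff_one_X, map_zero, e4, zero_add] at h3
    exact one_ne_zero h3
  refine ⟨mk3 .stp q F₀ N₀ F N hholds hnz hFm hNm ?_ ?_ ?_⟩
  · rw [Ideal.span_le]
    rintro y (rfl | rfl | hy)
    · -- x₁
      change x₁ ∈ J
      have h1 := row0_sub_mem J hgF hgN j₀
      have h2 := row1_sub_mem J hgF hgN j₀
      rw [row0_map] at h1
      rw [row1_map, hrow] at h2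
      have h3 : ι (row1 F₀ N₀ j₀ - α * row0 F₀ N₀ j₀) ∈ J := by
        apply hgB
        rw [res_iff, map_mul]
        exact hα j₀
      have h4 : row0 F N j₀ * x₁ = (u * row0 F N j₀ - ι (row1 F₀ N₀ j₀)) -
          ι α * (row0 F N j₀ - ι (row0 F₀ N₀ j₀)) + ι (row1 F₀ N₀ j₀ - α * row0 F₀ N₀ j₀) := by
        rw [hu, map_sub, map_mul]; ring
      have h5 : row0 F N j₀ * x₁ ∈ J := by
        rw [h4]
        exact J.add_mem (J.sub_mem h2 (J.mul_mem_left _ h1)) h3
      exact (Ideal.unit_mul_mem_iff_mem J hrunit).mp h5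
    · have := hgF 0 1
      change w - ι (F₀ 0 1) ∈ J at this
      rwa [hw, add_sub_cancel_left] at this
    · rw [Set.mem_singleton_iff] at hy
      subst hy
      have := hgN 0 1
      change v - ι (N₀ 0 1) ∈ J at this
      rwa [hv, add_sub_cancel_left] at this
  · intro A _ _ _ φ hφ F' N' hT hF hN
    obtain ⟨u', hu', hrow', -⟩ := chart_ratio φ hφ hT hF hN hj hα
    refine ⟨u' - φ α, F' 0 1 - φ (F₀ 0 1), N' 0 1 - φ (N₀ 0 1), hu', hF 0 1, hN 0 1, ?_⟩
    set ψ := lift3 φ (u' - φ α) (F' 0 1 - φ (F₀ 0 1)) (N' 0 1 - φ (N₀ 0 1)) hu' (hF 0 1) (hN 0 1)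
      with hψ
    have e0 : ∀ b, ψ (ι b) = φ b := fun b => lift3_ι _ _ _ _ _ _ _ b
    have e1 : ψ u = u' := by
      rw [hu, map_add, e0]
      have : ψ x₁ = u' - φ α := lift3_X₁ _ _ _ _ _ _ _
      rw [this, add_sub_cancel]
    have e2 : ψ w = F' 0 1 := by
      rw [hw, map_add, e0]
      have : ψ x₂ = F' 0 1 - φ (F₀ 0 1) := lift3_X₂ _ _ _ _ _ _ _
      rw [this, add_sub_cancel]
    have e3 : ψ v = N' 0 1 := by
      rw [hv, map_add, e0]
      have : ψ x₃ = N' 0 1 - φ (N₀ 0 1) := lift3_X₃ _ _ _ _ _ _ _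
      rw [this, add_sub_cancel]
    have hT' : IsSt (φ q) F' N' := hT
    obtain ⟨hs1, hs2⟩ := hT'.eq_std u' hrow'
    constructor
    · change (stF (ι (q - 1)) u w).map ψ = F'
      rw [stF_map, e0, e1, e2, map_sub, map_one]
      exact hs1.symm
    · change (stN u v).map ψ = N'
      rw [stN_map, e1, e3]
      exact hs2.symm
  · intro A _ _ ψ ψ' hψ hψ' h0 h1 h2
    have h0' : ∀ b, ψ (ι b) = ψ' (ι b) := fun b => DFunLike.congr_fun h0 b
    have h3 : ψ w = ψ' w := congrFun (congrFun h1 0) 1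
    have h4 : ψ v = ψ' v := congrFun (congrFun h2 0) 1
    have h5 : ψ u = ψ' u := by
      have e1 : ψ (row1 F N j₀) = ψ' (row1 F N j₀) := by
        rw [← row1_map, ← row1_map, h1, h2]
      have e2 : ψ (row0 F N j₀) = ψ' (row0 F N j₀) := by
        rw [← row0_map, ← row0_map, h1, h2]
      rw [hrow, map_mul, map_mul, ← e2] at e1
      exact (hrunit.map ψ).mul_right_cancel e1
    refine ⟨?_, ?_, ?_⟩
    · rw [hu, map_add, map_add, h0'] at h5
      exact add_left_cancel h5
    · rw [hw, map_add, map_add, h0'] at h3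
      exact add_left_cancel h3
    · rw [hv, map_add, map_add, h0'] at h4
      exact add_left_cancel h4

theorem p_chart1 (h : ResHolds .pp q F₀ N₀) {j₀ : Fin 4} (hj : IsUnit (row0 F₀ N₀ j₀)) :
    Nonempty (LocPkg .pp B q F₀ N₀ 2) := by
  have hP : IsSt (residue B q) (F₀.map (residue B)) (N₀.map (residue B)) ∧
    N₀.map (residue B) = 0 := isP_iff.mp h
  obtain ⟨α, hα, hFres, hNres⟩ := res_std hP.1 hj
  set ι := ι2 B with hι
  have hιloc : IsLocalHom ι := ι2_local B
  set x₁ : PS2 B := C X with hx₁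
  set x₂ : PS2 B := X with hx₂
  have hm1 : x₁ ∈ maximalIdeal (PS2 B) := C_mem X_mem_maximalIdeal
  have hm2 : x₂ ∈ maximalIdeal (PS2 B) := X_mem_maximalIdeal
  have hr1 : residue (PS2 B) x₁ = 0 := (residue_eq_zero_iff _).mpr hm1
  have hr2 : residue (PS2 B) x₂ = 0 := (residue_eq_zero_iff _).mpr hm2
  set u : PS2 B := ι α + x₁ with hu
  set w : PS2 B := ι (F₀ 0 1) + x₂ with hw
  let F := stF (ι (q - 1)) u w
  let N : Matrix (Fin 2) (Fin 2) (PS2 B) := 0
  have hN0 : stN u (0 : PS2 B) = 0 := by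
    ext i j
    fin_cases i <;> fin_cases j <;> simp [stN]
  have hst : IsSt (ι q) F N := by
    have h1 := isSt_std (ι (q - 1)) u w 0
    have h2 : ι (q - 1) + 1 = ι q := by rw [map_sub, map_one, sub_add_cancel]
    rwa [h2, hN0] at h1
  have hholds : IsP (ι q) F N := isP_iff.mpr ⟨hst, rfl⟩
  have hFr : F.map (residue (PS2 B)) = (F₀.map ι).map (residue (PS2 B)) := by
    have h1 : (F₀.map ι).map (residue (PS2 B)) =
        (F₀.map (residue B)).map (ResidueField.map ι) := by
      ext i j; simp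
    rw [h1, hFres, stF_map, stF_map, hu, hw, map_add, map_add, hr1, hr2, add_zero, add_zero]
    simp only [ResidueField.map_residue]
  have hFm : ∀ i j, F i j - ι (F₀ i j) ∈ maximalIdeal (PS2 B) := fun i j =>
    res_iff.mpr (congrFun (congrFun hFr i) j)
  have hNm : ∀ i j, N i j - ι (N₀ i j) ∈ maximalIdeal (PS2 B) := by
    intro i j
    change (0 : PS2 B) - ι (N₀ i j) ∈ _
    rw [zero_sub]
    refine neg_mem (ι2_mem ((residue_eq_zero_iff _).mp ?_))
    exact congrFun (congrFun hP.2 i) j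
  have hrow : ∀ j, row1 F N j = u * row0 F N j := by
    intro j
    match j with
    | 0 => change u * (ι (q - 1) - u * w) = u * (1 + (ι (q - 1) - u * w) - 1); ring
    | 1 => change 1 + u * w - 1 = u * w; ring
    | 2 => change 0 = u * 0; ring
    | 3 => change 0 = u * 0; ring
  have hrunit : IsUnit (row0 F N j₀) := by
    refine isUnit_of_res (y := ι (row0 F₀ N₀ j₀)) ?_ (hj.map ι)
    rw [← res_iff, ← row0_map]
    exact row0_sub_mem _ hFm hNm j₀
  set J : Ideal (PS2 B) := (maximalIdeal B).map ι ⊔ Ideal.span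
    (Set.range fun p : Fin 2 × Fin 2 => F p.1 p.2 - ι (F₀ p.1 p.2)) ⊔ Ideal.span
    (Set.range fun p : Fin 2 × Fin 2 => N p.1 p.2 - ι (N₀ p.1 p.2)) with hJ
  have hgF : ∀ i j, F i j - (F₀.map ι) i j ∈ J := fun i j =>
    Ideal.mem_sup_left (Ideal.mem_sup_right (Ideal.subset_span ⟨(i, j), rfl⟩))
  have hgN : ∀ i j, N i j - (N₀.map ι) i j ∈ J := fun i j =>
    Ideal.mem_sup_right (Ideal.subset_span ⟨(i, j), rfl⟩)
  have hgB : ∀ b ∈ maximalIdeal B, ι b ∈ J := fun b hb =>
    Ideal.mem_sup_left (Ideal.mem_sup_left (Ideal.mem_map_of_mem _ hb))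
  refine ⟨mk2 .pp q F₀ N₀ F N hholds trivial hFm hNm ?_ ?_ ?_⟩
  · rw [Ideal.span_le]
    rintro y (rfl | hy)
    · -- x₁
      change x₁ ∈ J
      have h1 := row0_sub_mem J hgF hgN j₀
      have h2 := row1_sub_mem J hgF hgN j₀
      rw [row0_map] at h1
      rw [row1_map, hrow] at h2
      have h3 : ι (row1 F₀ N₀ j₀ - α * row0 F₀ N₀ j₀) ∈ J := by
        apply hgB
        rw [res_iff, map_mul]
        exact hα j₀
      have h4 : row0 F N j₀ * x₁ = (u * row0 F N j₀ - ι (row1 F₀ N₀ j₀)) -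
          ι α * (row0 F N j₀ - ι (row0 F₀ N₀ j₀)) + ι (row1 F₀ N₀ j₀ - α * row0 F₀ N₀ j₀) := by
        rw [hu, map_sub, map_mul]; ring
      have h5 : row0 F N j₀ * x₁ ∈ J := by
        rw [h4]
        exact J.add_mem (J.sub_mem h2 (J.mul_mem_left _ h1)) h3
      exact (Ideal.unit_mul_mem_iff_mem J hrunit).mp h5
    · rw [Set.mem_singleton_iff] at hy
      subst hy
      have := hgF 0 1
      change w - ι (F₀ 0 1) ∈ J at this
      rwa [hw, add_sub_cancel_left] at this
  · intro A _ _ _ φ hφ F' N' hT hF hN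
    have hT' : IsSt (φ q) F' N' ∧ N' = 0 := isP_iff.mp hT
    obtain ⟨u', hu', hrow', -⟩ := chart_ratio φ hφ hT'.1 hF hN hj hα
    refine ⟨u' - φ α, F' 0 1 - φ (F₀ 0 1), hu', hF 0 1, ?_⟩
    set ψ := lift2 φ (u' - φ α) (F' 0 1 - φ (F₀ 0 1)) hu' (hF 0 1) with hψ
    have e0 : ∀ b, ψ (ι b) = φ b := fun b => lift2_ι _ _ _ _ _ b
    have e1 : ψ u = u' := by
      rw [hu, map_add, e0]
      have : ψ x₁ = u' - φ α := lift2_X₁ _ _ _ _ _
      rw [this, add_sub_cancel]
    have e2 : ψ w = F' 0 1 := by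
      rw [hw, map_add, e0]
      have : ψ x₂ = F' 0 1 - φ (F₀ 0 1) := lift2_X₂ _ _ _ _ _
      rw [this, add_sub_cancel]
    obtain ⟨hs1, hs2⟩ := hT'.1.eq_std u' hrow'
    constructor
    · change (stF (ι (q - 1)) u w).map ψ = F'
      rw [stF_map, e0, e1, e2, map_sub, map_one]
      exact hs1.symm
    · rw [hT'.2]
      ext i j
      simp [N]
  · intro A _ _ ψ ψ' hψ hψ' h0 h1 h2
    have h0' : ∀ b, ψ (ι b) = ψ' (ι b) := fun b => DFunLike.congr_fun h0 b
    have h3 : ψ w = ψ' w := congrFun (congrFun h1 0) 1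
    have h5 : ψ u = ψ' u := by
      have e1 : ψ (row1 F N j₀) = ψ' (row1 F N j₀) := by
        rw [← row1_map, ← row1_map, h1, h2]
      have e2 : ψ (row0 F N j₀) = ψ' (row0 F N j₀) := by
        rw [← row0_map, ← row0_map, h1, h2]
      rw [hrow, map_mul, map_mul, ← e2] at e1
      exact (hrunit.map ψ).mul_right_cancel e1
    refine ⟨?_, ?_⟩
    · rw [hu, map_add, map_add, h0'] at h5
      exact add_left_cancel h5
    · rw [hw, map_add, map_add, h0'] at h3
      exact add_left_cancel h3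

end chart

end Fermat.Agent.LocRing
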