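import Mathlib

/-!
# Injectivity of substitutions of power series, relative to a quotient
-/

set_option autoImplicit false
set_option linter.unusedSectionVars false

open PowerSeries

namespace Fermat.Agent.LocRing

universe u v

section

variable {C₁ : Type u} [CommRing C₁]

theorem coeff_subst_mon (β : C₁) {r : ℕ} (hr : r ≠ 0) (f : C₁⟦X⟧) (m : ℕ) :
    coeff m (f.subst (C β * X ^ r : C₁⟦X⟧)) = if r ∣ m then β ^ (m / r) * coeff (m / r) f else 0 := by
  have hs : HasSubst (C β * X ^ r : C₁⟦X⟧) :=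
    HasSubst.of_constantCoeff_zero' (by simp [hr])
  rw [coeff_subst' hs]
  have h1 : ∀ d : ℕ, coeff m ((C β * X ^ r : C₁⟦X⟧) ^ d) = if m = r * d then β ^ d else 0 := by
    intro d
    rw [mul_pow, ← map_pow, ← pow_mul, coeff_C_mul, coeff_X_pow]
    split_ifs <;> simp
  simp only [h1, smul_eq_mul]
  by_cases hd : r ∣ m
  · rw [if_pos hd]
    rw [finsum_eq_single _ (m / r)]
    · rw [if_pos (Nat.mul_div_cancel' hd).symm, mul_comm]
    · intro d hdne
      rw [if_neg, mul_zero]
      rintro rfl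
      exact hdne (Nat.mul_div_cancel_left d (Nat.pos_of_ne_zero hr)).symm
  · rw [if_neg hd]
    rw [finsum_eq_zero_of_forall_eq_zero]
    intro d
    rw [if_neg, mul_zero]
    rintro rfl
    exact hd (Dvd.intro _ rfl)

/-- The reduced statement: monomials are independent. -/
theorem inj_mod {r : ℕ} (hr : r ≠ 0) (β : C₁) (hβ : ∀ x, β * x = 0 → x = 0) (γ : Fin r → C₁)
    (hγ : ∀ i x, γ i * x = 0 → x = 0) (f : Fin r → C₁⟦X⟧)
    (h : ∑ i, (f i).subst (C β * X ^ r : C₁⟦X⟧) * (C (γ i) * X ^ (i : ℕ)) = 0) (i : Fin r) :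
    f i = 0 := by
  have hβ' : ∀ (n : ℕ) (x : C₁), β ^ n * x = 0 → x = 0 := by
    intro n
    induction n with
    | zero => intro x hx; simpa using hx
    | succ n ih =>
      intro x hx
      rw [pow_succ', mul_assoc] at hx
      exact ih x (hβ _ hx)
  ext j
  rw [map_zero]
  have h1 := congrArg (coeff (r * j + i)) h
  rw [map_sum, map_zero] at h1
  have h2 : ∀ i' : Fin r, coeff (r * j + i)
      ((f i').subst (C β * X ^ r : C₁⟦X⟧) * (C (γ i') * X ^ (i' : ℕ))) =
      if i' = i then γ i * (β ^ j * coeff j (f i)) else 0 := by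
    intro i'
    rw [mul_left_comm, coeff_C_mul, coeff_mul_X_pow']
    have hi := i.2
    have hi' := i'.2
    split_ifs with h3 h4 h4
    · subst h4
      rw [Nat.add_sub_cancel, coeff_subst_mon β hr, if_pos (Dvd.intro _ rfl),
        Nat.mul_div_cancel_left j (Nat.pos_of_ne_zero hr)]
    · rw [coeff_subst_mon β hr, if_neg, mul_zero]
      rintro ⟨d, hd⟩
      apply h4
      have h5 : r * j + (i : ℕ) = r * d + i' := by omega
      have h6 := congrArg (· % r) h5
      simp only [Nat.mul_add_mod, Nat.mod_eq_of_lt hi, Nat.mod_eq_of_lt hi'] at h6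
      exact Fin.ext h6.symm
    · subst h4; omega
    · simp
  simp only [h2] at h1
  rw [Finset.sum_ite_eq' Finset.univ i, if_pos (Finset.mem_univ _)] at h1
  exact hβ' j _ (hγ i _ h1)

end

section

variable {R₁ : Type u} {C₁ : Type v} [CommRing R₁] [CommRing C₁]

theorem exists_factor {w : R₁} {π : R₁ →+* C₁} (hπ : ∀ x, π x = 0 → w ∣ x) {f : R₁⟦X⟧}
    (hf : f.map π = 0) : ∃ f' : R₁⟦X⟧, f = C w * f' := by
  have h1 : ∀ n, ∃ y, coeff n f = w * y := by
    intro n
    refine hπ _ ?_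
    rw [← coeff_map, hf, map_zero]
  choose y hy using h1
  refine ⟨PowerSeries.mk y, ?_⟩
  ext n
  rw [coeff_C_mul, coeff_mk, hy]

theorem C_mul_eq_zero {w : R₁} (hw : ∀ x, w * x = 0 → x = 0) {f : R₁⟦X⟧} (h : C w * f = 0) :
    f = 0 := by
  ext n
  have := congrArg (coeff n) h
  rw [coeff_C_mul, map_zero] at this
  rw [hw _ this, map_zero]

/-- Independence of `c i` over the image of `R₁⟦X⟧` under `X ↦ g`, when it holds modulo `w`. -/
theorem inj_lift {r : ℕ} (hr : r ≠ 0) (w : R₁) (hw : (∀ x, w * x = 0 → x = 0) ∨ w = 0)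
    (hsep : ∀ x, (∀ n : ℕ, w ^ n ∣ x) → x = 0) (π : R₁ →+* C₁) (hπ : ∀ x, π x = 0 → w ∣ x)
    (g : R₁⟦X⟧) (hg0 : constantCoeff g = 0) (c : Fin r → R₁⟦X⟧)
    (β : C₁) (hβ : ∀ x, β * x = 0 → x = 0) (hg : g.map π = C β * X ^ r) (γ : Fin r → C₁)
    (hγ : ∀ i x, γ i * x = 0 → x = 0) (hc : ∀ i, (c i).map π = C (γ i) * X ^ (i : ℕ))
    (f : Fin r → R₁⟦X⟧) (h : ∑ i, (f i).subst g * c i = 0) (i : Fin r) : f i = 0 := by
  have hs : HasSubst g := HasSubst.of_constantCoeff_zero' hg0
  -- key step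
  have key : ∀ f : Fin r → R₁⟦X⟧, ∑ i, (f i).subst g * c i = 0 → ∀ i, (f i).map π = 0 := by
    intro f h i
    have h1 := congrArg (PowerSeries.map π) h
    rw [map_sum, map_zero] at h1
    refine inj_mod hr β hβ γ hγ (fun i => (f i).map π) ?_ i
    rw [← h1]
    refine Finset.sum_congr rfl fun i _ => ?_
    rw [map_mul, hc, ← hg]
    congr 1
    exact (map_subst hs (f i)).symm
  rcases hw with hw | hw
  · have h2 : ∀ n : ℕ, ∃ f' : Fin r → R₁⟦X⟧, (∀ i, f i = C (w ^ n) * f' i) ∧
        ∑ i, (f' i).subst g * c i = 0 := by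
      intro n
      induction n with
      | zero => exact ⟨f, fun i => by simp, h⟩
      | succ n ih =>
        obtain ⟨f', hf', hs'⟩ := ih
        have h3 := key f' hs'
        have h4 : ∀ i, ∃ f'' : R₁⟦X⟧, f' i = C w * f'' := fun i => exists_factor hπ (h3 i)
        choose f'' hf'' using h4
        refine ⟨f'', fun i => ?_, ?_⟩
        · rw [hf' i, hf'' i, pow_succ, map_mul, mul_assoc]
        · apply C_mul_eq_zero hw
          rw [← hs', Finset.mul_sum]
          refine Finset.sum_congr rfl fun i _ => ?_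
          rw [hf'' i, subst_mul hs, subst_C, ← mul_assoc]
          rfl
    ext j
    rw [map_zero]
    refine hsep _ fun n => ?_
    obtain ⟨f', hf', -⟩ := h2 n
    rw [hf' i, coeff_C_mul]
    exact Dvd.intro _ rfl
  · have h3 := key f h i
    obtain ⟨f', hf'⟩ := exists_factor hπ h3
    rw [hf', hw, map_zero, zero_mul]

end

end Fermat.Agent.LocRing
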