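import Fermat.Agent.LocRing.StAlg
import Fermat.Agent.LocRing.Subst

/-!
# The Steinberg algebra is a domain
-/

set_option autoImplicit false
set_option linter.unusedSectionVars false

open PowerSeries

namespace Fermat.Agent.LocRing

universe u v

/-- domain descent along a regular element -/
theorem isDomain_of_descent {D D' : Type*} [CommRing D] [CommRing D'] [IsDomain D'] (x : D)
    (hx : ∀ a, x * a = 0 → a = 0) (π : D →+* D')
    (hsep : ∀ a, a ≠ 0 → ∃ (n : ℕ) (b : D), a = x ^ n * b ∧ π b ≠ 0) : IsDomain D := by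
  have hxn : ∀ (n : ℕ) (a : D), x ^ n * a = 0 → a = 0 := by
    intro n
    induction n with
    | zero => intro a ha; simpa using ha
    | succ n ih =>
      intro a ha
      rw [pow_succ', mul_assoc] at ha
      exact ih a (hx _ ha)
  have : Nontrivial D := ⟨⟨0, 1, fun h => by
    have := congrArg π h
    rw [map_zero, map_one] at this
    exact zero_ne_one this⟩⟩
  have : NoZeroDivisors D := ⟨by
    intro a b hab
    by_contra hcon
    push Not at hcon
    obtain ⟨n, a', ha', hna⟩ := hsep a hcon.1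
    obtain ⟨m, b', hb', hnb⟩ := hsep b hcon.2
    have h1 : x ^ (n + m) * (a' * b') = 0 := by
      rw [← hab, ha', hb']; ring
    have h2 := congrArg π (hxn _ _ h1)
    rw [map_mul, map_zero] at h2
    rcases mul_eq_zero.mp h2 with h | h
    · exact hna h
    · exact hnb h⟩
  exact NoZeroDivisors.to_isDomain D

/-- domain property from an injective map to a domain -/
theorem isDomain_of_injective' {D D' : Type*} [CommRing D] [CommRing D'] [IsDomain D']
    (π : D →+* D') (hπ : ∀ a, π a = 0 → a = 0) : IsDomain D :=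
  Function.Injective.isDomain π ((injective_iff_map_eq_zero π).mpr hπ)

namespace StAlg

section
variable {S : Type*} [CommRing S] {t y₁ y₂ y₃ : S} {B : Type*} [CommRing B]

/-- universal property, for ring homs -/
def liftHom (φ : S →+* B) (x₁ x₂ x₃ : B) (h : Rel (φ t) (φ y₁) (φ y₂) (φ y₃) x₁ x₂ x₃) :
    StAlg t y₁ y₂ y₃ →+* B :=
  letI := φ.toAlgebra
  (lift x₁ x₂ x₃ h : StAlg t y₁ y₂ y₃ →ₐ[S] B)

variable (φ : S →+* B) (x₁ x₂ x₃ : B) (h : Rel (φ t) (φ y₁) (φ y₂) (φ y₃) x₁ x₂ x₃)

theorem liftHom_apply (a : StAlg t y₁ y₂ y₃) : liftHom φ x₁ x₂ x₃ h a =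
    φ a.c0 + φ a.c1 * x₁ + φ a.c2 * x₂ + φ a.c3 * x₃ := rfl

@[simp] theorem liftHom_algebraMap (s : S) :
    liftHom φ x₁ x₂ x₃ h (algebraMap S (StAlg t y₁ y₂ y₃) s) = φ s := by
  simp [liftHom_apply]
@[simp] theorem liftHom_e₁ : liftHom φ x₁ x₂ x₃ h e₁ = x₁ := by simp [liftHom_apply]
@[simp] theorem liftHom_e₂ : liftHom φ x₁ x₂ x₃ h e₂ = x₂ := by simp [liftHom_apply]
@[simp] theorem liftHom_e₃ : liftHom φ x₁ x₂ x₃ h e₃ = x₃ := by simp [liftHom_apply]

theorem hom_ext {f g : StAlg t y₁ y₂ y₃ →+* B}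
    (h0 : f.comp (algebraMap S _) = g.comp (algebraMap S _))
    (h1 : f e₁ = g e₁) (h2 : f e₂ = g e₂) (h3 : f e₃ = g e₃) : f = g := by
  have h0' : ∀ s, f (algebraMap S _ s) = g (algebraMap S _ s) := fun s => DFunLike.congr_fun h0 s
  ext a
  rw [eq_lin a]
  simp only [map_add, Algebra.smul_def, map_mul, h0', h1, h2, h3]

/-- `Rel` is preserved by ring homs -/
theorem Rel.map {B C : Type*} [CommRing B] [CommRing C] (f : B →+* C)
    {t y₁ y₂ y₃ x₁ x₂ x₃ : B} (h : Rel t y₁ y₂ y₃ x₁ x₂ x₃) :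
    Rel (f t) (f y₁) (f y₂) (f y₃) (f x₁) (f x₂) (f x₃) where
  m12 := by simpa using congrArg f h.m12
  m13 := by simpa using congrArg f h.m13
  m14 := by simpa using congrArg f h.m14
  m23 := by simpa using congrArg f h.m23
  m24 := by simpa using congrArg f h.m24
  m34 := by simpa using congrArg f h.m34

end

/-! ### first step: `y₃ = 0` -/

section step1

variable {R₁ : Type u} [CommRing R₁] (w b : R₁)

/-- the image of `e₁` in `R₁⟦τ⟧` -/
noncomputable def im1 : R₁⟦X⟧ := C w - C b * X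

theorem rel_im (w b : R₁) {g : R₁⟦X⟧} (hg : g = X ^ 3 * im1 w b) :
    Rel (C w) (C b) g (0 : R₁⟦X⟧) (im1 w b) (X ^ 2 * im1 w b) (-(X * im1 w b)) where
  m12 := by rw [im1]; ring
  m13 := by rw [hg, im1]; ring
  m14 := by ring
  m23 := by rw [hg, im1]; ring
  m24 := by rw [im1]; ring
  m34 := by rw [hg]; ring

theorem isDomain_y₃_zero [IsDomain R₁] {C₁ : Type v} [CommRing C₁]
    (hw : (∀ x, w * x = 0 → x = 0) ∨ w = 0)
    (hsep : ∀ x, (∀ n : ℕ, w ^ n ∣ x) → x = 0) (π : R₁ →+* C₁) (hπw : π w = 0)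
    (hπ : ∀ x, π x = 0 → w ∣ x) (hb : ∀ x, π b * x = 0 → x = 0) :
    IsDomain (StAlg (C w) (C b) (X : R₁⟦X⟧) 0) := by
  set g : R₁⟦X⟧ := X ^ 3 * im1 w b with hg
  have hg0 : constantCoeff g = 0 := by simp [hg]
  have hs : HasSubst g := HasSubst.of_constantCoeff_zero' hg0
  let φ : R₁⟦X⟧ →+* R₁⟦X⟧ := (substAlgHom (R := R₁) hs : R₁⟦X⟧ →+* R₁⟦X⟧)
  have hφ : ∀ f, φ f = f.subst g := fun f => by
    change substAlgHom (R := R₁) hs f = _
    rw [coe_substAlgHom]
  have hφC : ∀ r, φ (C r) = C r := fun r => by rw [hφ, subst_C]; rfl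
  have hφX : φ X = g := by rw [hφ, subst_X hs]
  have hrel : Rel (φ (C w)) (φ (C b)) (φ X) (φ 0) (im1 w b) (X ^ 2 * im1 w b)
      (-(X * im1 w b)) := by
    rw [hφC, hφC, hφX, map_zero]
    exact rel_im w b rfl
  refine isDomain_of_injective' (liftHom φ _ _ _ hrel) fun a ha => ?_
  rw [liftHom_apply] at ha
  have him : (im1 w b).map π = -(C (π b) * X) := by
    rw [im1]
    simp [hπw]
  have hnb : ∀ x, -π b * x = 0 → x = 0 := fun x hx => hb x (by
    rw [neg_mul, neg_eq_zero] at hx; exact hx)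
  have key := inj_lift (r := 4) (by norm_num) w hw hsep π hπ g hg0
    ![1, im1 w b, -(X * im1 w b), X ^ 2 * im1 w b] (-π b) hnb
    (by rw [hg]; simp only [map_mul, map_pow, him, PowerSeries.map_X, map_neg]; ring)
    ![1, -π b, π b, -π b]
    (by
      intro i x hx
      fin_cases i
      · simpa using hx
      · exact hnb x hx
      · exact hb x hx
      · exact hnb x hx)
    (by
      intro i
      fin_cases i
      · simp
      · simp [him]
      · simp [him, pow_two, mul_left_comm]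
      · simp [him]; ring)
    ![a.c0, a.c1, a.c3, a.c2]
    (by
      rw [Fin.sum_univ_four]
      simp only [Matrix.cons_val_zero, Matrix.cons_val_one, Matrix.cons_val]
      refine Eq.trans ?_ ha
      simp only [hφ]
      ring)
  ext1
  · exact key 0
  · exact key 1
  · exact key 3
  · exact key 2

end step1

/-! ### second step -/

section step2

variable {S : Type u} [CommRing S] (t y₁ y₂ : S)

/-- reduction modulo `y₃` -/
noncomputable def red : StAlg (C t) (C y₁) (C y₂) (X : S⟦X⟧) →+* StAlg t y₁ y₂ 0 where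
  toFun a := ⟨constantCoeff a.c0, constantCoeff a.c1, constantCoeff a.c2, constantCoeff a.c3⟩
  map_zero' := by ext <;> simp
  map_one' := by ext <;> simp
  map_add' a b := by ext <;> simp
  map_mul' a b := by ext <;> simp [mul_c0, mul_c1, mul_c2, mul_c3]

theorem isDomain_step2 [IsDomain (StAlg t y₁ y₂ 0)] :
    IsDomain (StAlg (C t) (C y₁) (C y₂) (X : S⟦X⟧)) := by
  classical
  refine isDomain_of_descent (algebraMap S⟦X⟧ _ X) ?_ (red t y₁ y₂) ?_
  · intro a ha
    rw [← Algebra.smul_def] at ha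
    have hX : ∀ f : S⟦X⟧, X * f = 0 → f = 0 := by
      intro f hf
      ext n
      have := congrArg (coeff (n + 1)) hf
      rwa [coeff_succ_X_mul, map_zero] at this
    ext1
    · exact hX _ (congrArg c0 ha)
    · exact hX _ (congrArg c1 ha)
    · exact hX _ (congrArg c2 ha)
    · exact hX _ (congrArg c3 ha)
  · intro a ha
    have hex : ∃ n, coeff n a.c0 ≠ 0 ∨ coeff n a.c1 ≠ 0 ∨ coeff n a.c2 ≠ 0 ∨
        coeff n a.c3 ≠ 0 := by
      by_contra hcon
      push Not at hcon
      apply ha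
      ext1 <;> ext n
      · exact (hcon n).1
      · exact (hcon n).2.1
      · exact (hcon n).2.2.1
      · exact (hcon n).2.2.2
    set n := Nat.find hex with hn
    have hmin : ∀ m < n, coeff m a.c0 = 0 ∧ coeff m a.c1 = 0 ∧ coeff m a.c2 = 0 ∧
        coeff m a.c3 = 0 := by
      intro m hm
      have := Nat.find_min hex hm
      push Not at this
      exact this
    obtain ⟨b0, hb0⟩ := X_pow_dvd_iff.mpr fun m hm => (hmin m hm).1
    obtain ⟨b1, hb1⟩ := X_pow_dvd_iff.mpr fun m hm => (hmin m hm).2.1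
    obtain ⟨b2, hb2⟩ := X_pow_dvd_iff.mpr fun m hm => (hmin m hm).2.2.1
    obtain ⟨b3, hb3⟩ := X_pow_dvd_iff.mpr fun m hm => (hmin m hm).2.2.2
    refine ⟨n, ⟨b0, b1, b2, b3⟩, ?_, ?_⟩
    · rw [← map_pow, ← Algebra.smul_def]
      ext1
      · exact hb0
      · exact hb1
      · exact hb2
      · exact hb3
    · intro hred
      have h0 : constantCoeff b0 = 0 := congrArg c0 hred
      have h1 : constantCoeff b1 = 0 := congrArg c1 hred
      have h2 : constantCoeff b2 = 0 := congrArg c2 hred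
      have h3 : constantCoeff b3 = 0 := congrArg c3 hred
      have hspec := Nat.find_spec hex
      rw [← hn] at hspec
      have hcn : ∀ b : S⟦X⟧, coeff n (X ^ n * b) = constantCoeff b := by
        intro b
        have := coeff_X_pow_mul b n 0
        rwa [zero_add, coeff_zero_eq_constantCoeff_apply] at this
      rw [hb0, hb1, hb2, hb3, hcn, hcn, hcn, hcn] at hspec
      simp [h0, h1, h2, h3] at hspec

end step2

end StAlg

/-! ### The quadratic algebra -/

section quad

variable {R₁ : Type u} [CommRing R₁] (w b : R₁)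

theorem isDomain_quad [IsDomain R₁] {C₁ : Type v} [CommRing C₁]
    (hw : (∀ x, w * x = 0 → x = 0) ∨ w = 0)
    (hsep : ∀ x, (∀ n : ℕ, w ^ n ∣ x) → x = 0) (π : R₁ →+* C₁) (hπw : π w = 0)
    (hπ : ∀ x, π x = 0 → w ∣ x) (hb : ∀ x, π b * x = 0 → x = 0) :
    IsDomain (QuadraticAlgebra R₁⟦X⟧ (-(C b * X)) (C w)) := by
  set g : R₁⟦X⟧ := X * StAlg.im1 w b with hg
  have hg0 : constantCoeff g = 0 := by simp [hg]
  have hs : HasSubst g := HasSubst.of_constantCoeff_zero' hg0
  let φ : R₁⟦X⟧ →+* R₁⟦X⟧ := (substAlgHom (R := R₁) hs : R₁⟦X⟧ →+* R₁⟦X⟧)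
  have hφ : ∀ f, φ f = f.subst g := fun f => by
    change substAlgHom (R := R₁) hs f = _
    rw [coe_substAlgHom]
  have hφC : ∀ r, φ (C r) = C r := fun r => by rw [hφ, subst_C]; rfl
  have hφX : φ X = g := by rw [hφ, subst_X hs]
  let ψ : QuadraticAlgebra R₁⟦X⟧ (-(C b * X)) (C w) →+* R₁⟦X⟧ :=
    { toFun := fun a => φ a.re + φ a.im * StAlg.im1 w b
      map_zero' := by simp
      map_one' := by simp [QuadraticAlgebra.re_one, QuadraticAlgebra.im_one]
      map_add' := fun a b => by
        simp only [QuadraticAlgebra.re_add, QuadraticAlgebra.im_add, map_add]; ring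
      map_mul' := fun a a' => by
        simp only [QuadraticAlgebra.re_mul, QuadraticAlgebra.im_mul, map_add, map_mul, map_neg,
          hφC, hφX]
        rw [hg, StAlg.im1]
        ring }
  refine isDomain_of_injective' ψ fun a ha => ?_
  change φ a.re + φ a.im * StAlg.im1 w b = 0 at ha
  have him : (StAlg.im1 w b).map π = -(C (π b) * X) := by
    rw [StAlg.im1]
    simp [hπw]
  have hnb : ∀ x, -π b * x = 0 → x = 0 := fun x hx => hb x (by
    rw [neg_mul, neg_eq_zero] at hx; exact hx)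
  have key := inj_lift (r := 2) (by norm_num) w hw hsep π hπ g hg0
    ![1, StAlg.im1 w b] (-π b) hnb
    (by rw [hg]; simp only [map_mul, him, PowerSeries.map_X, map_neg]; ring)
    ![1, -π b]
    (by
      intro i x hx
      fin_cases i
      · simpa using hx
      · exact hnb x hx)
    (by
      intro i
      fin_cases i
      · simp
      · simp [him])
    ![a.re, a.im]
    (by
      rw [Fin.sum_univ_two]
      simp only [Matrix.cons_val_zero, Matrix.cons_val_one]
      refine Eq.trans ?_ ha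
      simp only [hφ]
      ring)
  ext1
  · exact key 0
  · exact key 1

end quad

end Fermat.Agent.LocRing
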