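import Fermat.Agent.LocRing.StDomain
import Fermat.Agent.LocRing.PS
import Fermat.Prelude.Thm_IsLocalRing_isAdicComplete_of_module_finite

/-!
# Types of pairs `(F, N)` and packages of local rings
-/

set_option autoImplicit false
set_option linter.unusedSectionVars false

open IsLocalRing

namespace Fermat.Agent.LocRing

universe u v

/-- unramified type: `N = 0`, `det F = q` -/
structure IsUnr {A : Type*} [CommRing A] (q : A) (F N : Matrix (Fin 2) (Fin 2) A) : Prop where
  detF : F.det = q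
  N0 : N = 0

/-- Steinberg type (trivial unramified twist) -/
structure IsSt {A : Type*} [CommRing A] (q : A) (F N : Matrix (Fin 2) (Fin 2) A) : Prop where
  trF : F.trace = q + 1
  detF : F.det = q
  trN : N.trace = 0
  detN : N.det = 0
  FN : F * N = q • N
  NF : N * F = N

/-- the intersection type: `N = 0`, `tr F = q + 1`, `det F = q` -/
structure IsP {A : Type*} [CommRing A] (q : A) (F N : Matrix (Fin 2) (Fin 2) A) : Prop where
  trF : F.trace = q + 1
  detF : F.det = q
  N0 : N = 0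

/-- the types of pairs `(F, N)` -/
inductive Ty
  | unr
  | stp
  | stm
  | pp
  | pm
  deriving DecidableEq, Fintype

/-- the condition on `(F, N)` -/
def Ty.Holds (T : Ty) {A : Type*} [CommRing A] (q : A) (F N : Matrix (Fin 2) (Fin 2) A) : Prop :=
  match T with
  | .unr => IsUnr q F N
  | .stp => IsSt q F N
  | .stm => IsSt q (-F) N
  | .pp => IsP q F N
  | .pm => IsP q (-F) N

section map
variable {A A' : Type*} [CommRing A] [CommRing A'] (f : A →+* A') {q : A}
  {F N : Matrix (Fin 2) (Fin 2) A}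

theorem det_map' : (F.map f).det = f F.det := by
  rw [RingHom.map_det]; rfl

theorem trace_map' : (F.map f).trace = f F.trace := by
  simp [Matrix.trace_fin_two]

theorem IsUnr.map (h : IsUnr q F N) : IsUnr (f q) (F.map f) (N.map f) where
  detF := by rw [det_map', h.detF]
  N0 := by rw [h.N0]; ext i j; simp

theorem IsP.map (h : IsP q F N) : IsP (f q) (F.map f) (N.map f) where
  detF := by rw [det_map', h.detF]
  trF := by rw [trace_map', h.trF, map_add, map_one]
  N0 := by rw [h.N0]; ext i j; simp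

theorem IsSt.map (h : IsSt q F N) : IsSt (f q) (F.map f) (N.map f) where
  detF := by rw [det_map', h.detF]
  trF := by rw [trace_map', h.trF, map_add, map_one]
  detN := by rw [det_map', h.detN, map_zero]
  trN := by rw [trace_map', h.trN, map_zero]
  FN := by
    rw [← Matrix.map_mul, h.FN]
    ext i j
    simp
  NF := by rw [← Matrix.map_mul, h.NF]

theorem Ty.Holds.map {T : Ty} (h : T.Holds q F N) : T.Holds (f q) (F.map f) (N.map f) := by
  have hneg : (-F).map f = -(F.map f) := by ext i j; simp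
  cases T
  · exact IsUnr.map f h
  · exact IsSt.map f h
  · have := IsSt.map f h
    rw [hneg] at this
    exact this
  · exact IsP.map f h
  · have := IsP.map f h
    rw [hneg] at this
    exact this

end map

/-- The dimension of the types. -/
def Ty.dim : Ty → ℕ
  | .unr => 3
  | .stp => 3
  | .stm => 3
  | .pp => 2
  | .pm => 2

/-- Genericity of a pair of type `T`. -/
def Ty.NZ (T : Ty) {A : Type*} [CommRing A] (q : A) (F N : Matrix (Fin 2) (Fin 2) A) : Prop :=
  match T with
  | .unr => F.trace ≠ q + 1 ∧ F.trace ≠ -(q + 1)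
  | .stp => N ≠ 0
  | .stm => N ≠ 0
  | .pp => True
  | .pm => True

theorem Ty.NZ.map {A A' : Type*} [CommRing A] [CommRing A'] {f : A →+* A'}
    (hf : Function.Injective f) {q : A} {F N : Matrix (Fin 2) (Fin 2) A} {T : Ty}
    (h : T.NZ q F N) : T.NZ (f q) (F.map f) (N.map f) := by
  have key : N ≠ 0 → N.map f ≠ 0 := by
    intro h1 h2
    apply h1
    ext i j
    have := congrFun (congrFun h2 i) j
    exact hf (by simpa using this)
  cases T
  · refine ⟨fun h1 => h.1 (hf ?_), fun h1 => h.2 (hf ?_)⟩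
    · rw [trace_map'] at h1; rw [h1]; simp
    · rw [trace_map'] at h1; rw [h1]; simp
  · exact key h
  · exact key h
  · trivial
  · trivial

theorem Ty.NZ.of_map {A A' : Type*} [CommRing A] [CommRing A'] {f : A →+* A'}
    {q : A} {F N : Matrix (Fin 2) (Fin 2) A} {T : Ty}
    (h : T.NZ (f q) (F.map f) (N.map f)) : T.NZ q F N := by
  have key : N.map f ≠ 0 → N ≠ 0 := by
    rintro h1 rfl
    apply h1
    ext i j
    simp
  cases T
  · refine ⟨fun h1 => h.1 ?_, fun h1 => h.2 ?_⟩
    · rw [trace_map', h1]; simp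
    · rw [trace_map', h1]; simp
  · exact key h
  · exact key h
  · trivial
  · trivial

/-- A package: the universal ring over `B` for pairs of type `T` lifting the residual pair of
`(F₀, N₀)`, with `d` extra parameters. -/
structure LocPkg (T : Ty) (B : Type u) [CommRing B] [IsLocalRing B] (q : B)
    (F₀ N₀ : Matrix (Fin 2) (Fin 2) B) (d : ℕ) where
  /-- the ring -/
  R : Type u
  [commRing : CommRing R]
  [isDomain : IsDomain R]
  [isLocalRing : IsLocalRing R]
  [isNoetherianRing : IsNoetherianRing R]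
  [isAdicComplete : IsAdicComplete (maximalIdeal R) R]
  /-- structure map -/
  ι : B →+* R
  inj : Function.Injective ι
  isLocalHom : IsLocalHom ι
  /-- universal Frobenius -/
  F : Matrix (Fin 2) (Fin 2) R
  /-- universal monodromy -/
  N : Matrix (Fin 2) (Fin 2) R
  holds : T.Holds (ι q) F N
  nz : T.NZ (ι q) F N
  resF : ∀ i j, F i j - ι (F₀ i j) ∈ maximalIdeal R
  resN : ∀ i j, N i j - ι (N₀ i j) ∈ maximalIdeal R
  resSurj : ∀ r : R, ∃ b : B, r - ι b ∈ maximalIdeal R
  gen : maximalIdeal R ≤ (maximalIdeal B).map ι ⊔ Ideal.span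
    (Set.range fun p : Fin 2 × Fin 2 => F p.1 p.2 - ι (F₀ p.1 p.2)) ⊔ Ideal.span
    (Set.range fun p : Fin 2 × Fin 2 => N p.1 p.2 - ι (N₀ p.1 p.2))
  dim : ∀ m, DimLE B m → DimLE R (m + d)
  lift : ∀ {A : Type u} [CommRing A] [IsLocalRing A] [IsAdicComplete (maximalIdeal A) A]
    (φ : B →+* A), IsLocalHom φ → ∀ F' N' : Matrix (Fin 2) (Fin 2) A, T.Holds (φ q) F' N' →
    (∀ i j, F' i j - φ (F₀ i j) ∈ maximalIdeal A) →
    (∀ i j, N' i j - φ (N₀ i j) ∈ maximalIdeal A) →
    ∃ ψ : R →+* A, IsLocalHom ψ ∧ ψ.comp ι = φ ∧ F.map ψ = F' ∧ N.map ψ = N'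
  uniq : ∀ {A : Type u} [CommRing A] [IsLocalRing A] [IsAdicComplete (maximalIdeal A) A]
    (ψ ψ' : R →+* A), IsLocalHom ψ → IsLocalHom ψ' → ψ.comp ι = ψ'.comp ι →
    F.map ψ = F.map ψ' → N.map ψ = N.map ψ' → ψ = ψ'

attribute [instance] LocPkg.commRing LocPkg.isDomain LocPkg.isLocalRing LocPkg.isNoetherianRing
  LocPkg.isAdicComplete

/-! ### Sign twist -/

theorem neg_map' {A A' : Type*} [CommRing A] [CommRing A'] (f : A →+* A')
    (F : Matrix (Fin 2) (Fin 2) A) : (-F).map f = -(F.map f) := by ext i j; simp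

/-- twisting by `F ↦ -F` -/
def LocPkg.twist {T T' : Ty} (hT : ∀ {A : Type u} [CommRing A] (q : A)
    (F N : Matrix (Fin 2) (Fin 2) A), T'.Holds q F N ↔ T.Holds q (-F) N)
    (hNZ : ∀ {A : Type u} [CommRing A] (q : A)
    (F N : Matrix (Fin 2) (Fin 2) A), T.NZ q (-F) N → T'.NZ q F N)
    {B : Type u} [CommRing B] [IsLocalRing B] {q : B} {F₀ N₀ : Matrix (Fin 2) (Fin 2) B} {d : ℕ}
    (P : LocPkg T B q (-F₀) N₀ d) : LocPkg T' B q F₀ N₀ d where
  R := P.R
  ι := P.ι
  inj := P.inj
  isLocalHom := P.isLocalHom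
  F := -P.F
  N := P.N
  holds := (hT _ _ _).mpr (by rw [neg_neg]; exact P.holds)
  nz := hNZ _ _ _ (by rw [neg_neg]; exact P.nz)
  resF i j := by
    have h : (-P.F) i j - P.ι (F₀ i j) = -(P.F i j - P.ι ((-F₀) i j)) := by
      simp only [Matrix.neg_apply, map_neg]; ring
    rw [h]
    exact (maximalIdeal P.R).neg_mem (P.resF i j)
  resN := P.resN
  resSurj := P.resSurj
  gen := by
    refine P.gen.trans (sup_le_sup_right (sup_le_sup_left ?_ _) _)
    rw [Ideal.span_le]
    rintro _ ⟨p, rfl⟩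
    have h : P.F p.1 p.2 - P.ι ((-F₀) p.1 p.2) = -((-P.F) p.1 p.2 - P.ι (F₀ p.1 p.2)) := by
      simp only [Matrix.neg_apply, map_neg]; ring
    change P.F p.1 p.2 - P.ι ((-F₀) p.1 p.2) ∈ _
    rw [h]
    exact neg_mem (Ideal.subset_span ⟨p, rfl⟩)
  dim := P.dim
  lift := by
    intro A _ _ _ φ hφ F' N' hT' hF hN
    obtain ⟨ψ, h0, h1, h2, h3⟩ := P.lift φ hφ (-F') N' ((hT _ _ _).mp hT')
      (fun i j => by
        have h : (-F') i j - φ ((-F₀) i j) = -(F' i j - φ (F₀ i j)) := by
          simp only [Matrix.neg_apply, map_neg]; ring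
        rw [h]
        exact (maximalIdeal A).neg_mem (hF i j)) hN
    exact ⟨ψ, h0, h1, by rw [neg_map', h2, neg_neg], h3⟩
  uniq := by
    intro A _ _ _ ψ ψ' h1 h2 h3 h4 h5
    refine P.uniq ψ ψ' h1 h2 h3 ?_ h5
    rw [neg_map', neg_map'] at h4
    exact neg_injective h4

/-! ### swapping the two coordinates -/

/-- swap of the two basis vectors -/
def sw {A : Type*} (F : Matrix (Fin 2) (Fin 2) A) : Matrix (Fin 2) (Fin 2) A :=
  fun i j => F (Fin.rev i) (Fin.rev j)

theorem sw_sw {A : Type*} (F : Matrix (Fin 2) (Fin 2) A) : sw (sw F) = F := by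
  ext i j; simp [sw]

theorem sw_map {A A' : Type*} (f : A → A') (F : Matrix (Fin 2) (Fin 2) A) :
    (sw F).map f = sw (F.map f) := rfl

theorem sw_zero {A : Type*} [Zero A] : sw (0 : Matrix (Fin 2) (Fin 2) A) = 0 := rfl

theorem sw_neg {A : Type*} [Neg A] (F : Matrix (Fin 2) (Fin 2) A) : sw (-F) = -sw F := rfl

theorem sw_smul {A : Type*} [Mul A] (q : A) (F : Matrix (Fin 2) (Fin 2) A) :
    sw (q • F) = q • sw F := rfl

theorem sw_mul {A : Type*} [CommRing A] (F N : Matrix (Fin 2) (Fin 2) A) :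
    sw (F * N) = sw F * sw N := by
  ext i j
  simp only [sw, Matrix.mul_apply, Fin.sum_univ_two]
  rw [add_comm]
  rfl

theorem sw_trace {A : Type*} [CommRing A] (F : Matrix (Fin 2) (Fin 2) A) :
    (sw F).trace = F.trace := by
  rw [Matrix.trace_fin_two, Matrix.trace_fin_two, add_comm]; rfl

theorem sw_det {A : Type*} [CommRing A] (F : Matrix (Fin 2) (Fin 2) A) :
    (sw F).det = F.det := by
  rw [Matrix.det_fin_two, Matrix.det_fin_two]
  change F 1 1 * F 0 0 - F 1 0 * F 0 1 = _
  ring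

theorem IsSt.sw {A : Type*} [CommRing A] {q : A} {F N : Matrix (Fin 2) (Fin 2) A}
    (h : IsSt q F N) : IsSt q (sw F) (sw N) where
  trF := by rw [sw_trace, h.trF]
  detF := by rw [sw_det, h.detF]
  trN := by rw [sw_trace, h.trN]
  detN := by rw [sw_det, h.detN]
  FN := by rw [← sw_mul, h.FN, sw_smul]
  NF := by rw [← sw_mul, h.NF]

theorem IsP.sw {A : Type*} [CommRing A] {q : A} {F N : Matrix (Fin 2) (Fin 2) A}
    (h : IsP q F N) : IsP q (sw F) (sw N) where
  trF := by rw [sw_trace, h.trF]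
  detF := by rw [sw_det, h.detF]
  N0 := by rw [h.N0, sw_zero]

theorem Ty.Holds.sw {T : Ty} {A : Type*} [CommRing A] {q : A} {F N : Matrix (Fin 2) (Fin 2) A}
    (h : T.Holds q F N) : T.Holds q (sw F) (sw N) := by
  cases T
  · have h' : IsUnr q F N := h
    exact ⟨by rw [sw_det, h'.detF], by rw [h'.N0, sw_zero]⟩
  · exact IsSt.sw h
  · exact IsSt.sw (F := -F) h
  · exact IsP.sw h
  · exact IsP.sw (F := -F) h

theorem sw_ne_zero {A : Type*} [Zero A] {N : Matrix (Fin 2) (Fin 2) A} (h : N ≠ 0) :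
    LocRing.sw N ≠ 0 := by
  intro h1
  apply h
  rw [← sw_sw N, h1, sw_zero]

theorem Ty.NZ.sw {T : Ty} {A : Type*} [CommRing A] {q : A} {F N : Matrix (Fin 2) (Fin 2) A}
    (h : T.NZ q F N) : T.NZ q (sw F) (sw N) := by
  cases T
  · exact ⟨by rw [sw_trace]; exact h.1, by rw [sw_trace]; exact h.2⟩
  · exact sw_ne_zero h
  · exact sw_ne_zero h
  · trivial
  · trivial

/-- transport along the swap -/
def LocPkg.swap {T : Ty} {B : Type u} [CommRing B] [IsLocalRing B] {q : B}
    {F₀ N₀ : Matrix (Fin 2) (Fin 2) B} {d : ℕ}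
    (P : LocPkg T B q (sw F₀) (sw N₀) d) : LocPkg T B q F₀ N₀ d where
  R := P.R
  ι := P.ι
  inj := P.inj
  isLocalHom := P.isLocalHom
  F := sw P.F
  N := sw P.N
  holds := P.holds.sw
  nz := P.nz.sw
  resF i j := by
    have := P.resF (Fin.rev i) (Fin.rev j)
    simpa [sw] using this
  resN i j := by
    have := P.resN (Fin.rev i) (Fin.rev j)
    simpa [sw] using this
  resSurj := P.resSurj
  gen := by
    refine P.gen.trans ?_
    refine sup_le (sup_le ?_ ?_) ?_
    · exact le_sup_of_le_left le_sup_left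
    · refine le_sup_of_le_left (le_sup_of_le_right ?_)
      rw [Ideal.span_le]
      rintro _ ⟨p, rfl⟩
      refine Ideal.subset_span ⟨(Fin.rev p.1, Fin.rev p.2), ?_⟩
      simp [sw]
    · refine le_sup_of_le_right ?_
      rw [Ideal.span_le]
      rintro _ ⟨p, rfl⟩
      refine Ideal.subset_span ⟨(Fin.rev p.1, Fin.rev p.2), ?_⟩
      simp [sw]
  dim := P.dim
  lift := by
    intro A _ _ _ φ hφ F' N' hT' hF hN
    obtain ⟨ψ, h0, h1, h2, h3⟩ := P.lift φ hφ (sw F') (sw N') hT'.sw
      (fun i j => hF _ _) (fun i j => hN _ _)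
    exact ⟨ψ, h0, h1, by rw [sw_map, h2, sw_sw], by rw [sw_map, h3, sw_sw]⟩
  uniq := by
    intro A _ _ _ ψ ψ' h1 h2 h3 h4 h5
    refine P.uniq ψ ψ' h1 h2 h3 ?_ ?_
    · have := congrArg LocRing.sw h4
      rwa [sw_map, sw_map, sw_sw, sw_sw] at this
    · have := congrArg LocRing.sw h5
      rwa [sw_map, sw_map, sw_sw, sw_sw] at this

/-! ### finite local algebras -/

theorem local_package {S D : Type u} [CommRing S] [IsLocalRing S] [IsNoetherianRing S]
    [IsAdicComplete (maximalIdeal S) S] [CommRing D] [Algebra S D] [Module.Finite S D]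
    (ε : D →+* ResidueField S) (hε : ∀ s, ε (algebraMap S D s) = residue S s)
    (h2 : ∀ a b, ε a = 0 → ε b = 0 → a * b ∈ (maximalIdeal S).map (algebraMap S D)) :
    ∃ _ : IsLocalRing D, IsNoetherianRing D ∧ IsAdicComplete (maximalIdeal D) D ∧
      (∀ a, a ∈ maximalIdeal D ↔ ε a = 0) ∧ ∀ m, DimLE S m → DimLE D m := by
  have hsurj : Function.Surjective ε := by
    intro x
    obtain ⟨s, rfl⟩ := residue_surjective x
    exact ⟨algebraMap S D s, hε s⟩
  have hmax : (RingHom.ker ε).IsMaximal := RingHom.ker_isMaximal_of_surjective ε hsurj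
  have hle : ∀ M : Ideal D, M.IsMaximal → (maximalIdeal S).map (algebraMap S D) ≤ M := by
    intro M hM
    rw [Ideal.map_le_iff_le_comap]
    have h3 : (M.comap (algebraMap S D)).IsMaximal :=
      Ideal.isMaximal_comap_of_isIntegral_of_isMaximal M
    rw [IsLocalRing.eq_maximalIdeal h3]
  have hloc : IsLocalRing D := by
    refine IsLocalRing.of_unique_max_ideal ⟨RingHom.ker ε, hmax, fun M hM => ?_⟩
    symm
    refine hmax.eq_of_le hM.ne_top fun a ha => ?_
    have h4 := hle M hM (h2 a a ha ha)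
    rcases hM.isPrime.mem_or_mem h4 with h | h <;> exact h
  have hmem : ∀ a, a ∈ maximalIdeal D ↔ ε a = 0 := by
    intro a
    rw [← IsLocalRing.eq_maximalIdeal hmax, RingHom.mem_ker]
  have hlh : IsLocalHom (algebraMap S D) := by
    refine ⟨fun s hs => ?_⟩
    by_contra hcon
    have h5 : residue S s = 0 := (residue_eq_zero_iff s).mpr ((mem_maximalIdeal s).mpr hcon)
    have h6 : algebraMap S D s ∈ maximalIdeal D := (hmem _).mpr (by rw [hε, h5])
    exact (mem_maximalIdeal _).mp h6 hs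
  refine ⟨hloc, IsNoetherianRing.of_finite S D, IsLocalRing.isAdicComplete_of_module_finite
    (𝒪 := S), hmem, ?_⟩
  rintro m ⟨t, ht, k, hk⟩
  refine ⟨fun i => algebraMap S D (t i), fun i => ?_, 2 * k, ?_⟩
  · rw [hmem, hε, residue_eq_zero_iff]; exact ht i
  · have h7 : maximalIdeal D ^ 2 ≤ (maximalIdeal S).map (algebraMap S D) := by
      rw [pow_two]
      refine Ideal.mul_le.mpr fun a ha b hb => h2 a b ((hmem a).mp ha) ((hmem b).mp hb)
    rw [pow_mul]
    refine (Ideal.pow_right_mono h7 k).trans ?_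
    rw [← Ideal.map_pow]
    refine (Ideal.map_mono hk).trans ?_
    rw [Ideal.map_span]
    refine Ideal.span_mono ?_
    rintro _ ⟨_, ⟨i, rfl⟩, rfl⟩
    exact ⟨i, rfl⟩

end Fermat.Agent.LocRing
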